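import Fermat.Agent.MW.Glob

/-!
# Mordell-Weil: absolute values on an algebraic closure of `ℚ`
-/

set_option autoImplicit false
set_option linter.unusedSectionVars false

noncomputable section

namespace Fermat.Agent.MW

open Filter
open scoped NNReal

section Def

variable (K : Type*) [Field K] [CharZero K] [Algebra ℚ K] [Algebra.IsAlgebraic ℚ K]

/-- complex embedding -/
def phiInf : K →ₐ[ℚ] ℂ := IsAlgClosed.lift

/-- `p`-adic embedding -/
def phiP (p : Nat.Primes) : letI : Fact (p : ℕ).Prime := ⟨p.2⟩; K →ₐ[ℚ] PadicAlgCl p :=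
  let _ : Fact (p : ℕ).Prime := ⟨p.2⟩
  IsAlgClosed.lift

/-- absolute values of `K` -/
def avK : Option Nat.Primes → AbsoluteValue K ℝ
  | none => (NormedField.toAbsoluteValue ℂ).comp (phiInf K).toRingHom.injective
  | some p =>
    let _ : Fact (p : ℕ).Prime := ⟨p.2⟩
    (NormedField.toAbsoluteValue (PadicAlgCl p)).comp (phiP K p).toRingHom.injective

variable {K}

theorem avK_none (x : K) : avK K none x = ‖phiInf K x‖ := rfl

theorem avK_some (p : Nat.Primes) (x : K) :
    let _ : Fact (p : ℕ).Prime := ⟨p.2⟩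
    avK K (some p) x = ‖phiP K p x‖ := rfl

theorem avK_nonarch (p : Nat.Primes) : IsNonarchimedean (avK K (some p)) := by
  let _ : Fact (p : ℕ).Prime := ⟨p.2⟩
  intro x y
  show ‖phiP K p (x + y)‖ ≤ max ‖phiP K p x‖ ‖phiP K p y‖
  rw [map_add]
  exact PadicAlgCl.isNonarchimedean p _ _

theorem avK_rat_none (q : ℚ) : avK K none (algebraMap ℚ K q) = |(q : ℝ)| := by
  rw [avK_none, AlgHom.commutes]
  simp

theorem avK_rat_some (p : Nat.Primes) (q : ℚ) :
    avK K (some p) (algebraMap ℚ K q) = padicNorm p q := by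
  let _ : Fact (p : ℕ).Prime := ⟨p.2⟩
  rw [avK_some, AlgHom.commutes]
  have h1 : (algebraMap ℚ (PadicAlgCl p)) q = ((q : ℚ_[p]) : PadicAlgCl p) := by
    simp
  rw [h1, PadicAlgCl.norm_extends, Padic.eq_padicNorm]

theorem avK_integral (p : Nat.Primes) {x : K} (hx : IsIntegral ℤ x) : avK K (some p) x ≤ 1 := by
  let _ : Fact (p : ℕ).Prime := ⟨p.2⟩
  rw [avK_some]
  have h1 : IsIntegral ℤ (phiP K p x) := hx.map ((phiP K p).restrictScalars ℤ)
  have h2 : IsIntegral (Valued.v (R := PadicAlgCl p) (Γ₀ := ℝ≥0)).integer (phiP K p x) :=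
    h1.tower_top
  have h3 := (Valuation.integer.integers (Valued.v (R := PadicAlgCl p) (Γ₀ := ℝ≥0))).mem_of_integral h2
  have h4 : (Valued.v (phiP K p x) : ℝ≥0) ≤ 1 := h3
  rw [← PadicAlgCl.valuation_coe]
  exact_mod_cast h4

theorem avK_le_one_of (x : K) : ∀ᶠ v in cofinite, avK K v x ≤ 1 := by
  have halg : IsAlgebraic ℤ x := (IsFractionRing.isAlgebraic_iff ℤ ℚ K).mpr
    (Algebra.IsAlgebraic.isAlgebraic x)
  obtain ⟨n, hn, hint⟩ := halg.exists_integral_multiple
  have hfin : {v : Option Nat.Primes | v = none ∨ ∃ p : Nat.Primes, v = some p ∧ (p : ℤ) ∣ n}.Finite := by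
    have h1 : {p : Nat.Primes | (p : ℤ) ∣ n}.Finite := by
      have h2 : {p : ℕ | p ∣ n.natAbs}.Finite :=
        Set.Finite.subset (Finset.finite_toSet (n.natAbs.divisors)) (by
          intro p hp
          rw [Finset.mem_coe, Nat.mem_divisors]
          exact ⟨hp, by simpa using hn⟩)
      refine Set.Finite.of_finite_image (f := fun p : Nat.Primes => (p : ℕ)) (h2.subset ?_)
        (Nat.Primes.coe_nat_injective.injOn)
      rintro _ ⟨p, hp, rfl⟩
      exact Int.natCast_dvd.mp hp
    refine ((Set.finite_singleton none).union (h1.image some)).subset ?_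
    rintro v (rfl | ⟨p, rfl, hp⟩)
    · exact Or.inl rfl
    · exact Or.inr ⟨p, hp, rfl⟩
  filter_upwards [hfin.compl_mem_cofinite] with v hv
  cases v with
  | none => exact absurd (Or.inl rfl) hv
  | some p =>
    have hpn : ¬ (p : ℤ) ∣ n := fun h => hv (Or.inr ⟨p, rfl, h⟩)
    have h1 := avK_integral p hint
    have h2 : n • x = algebraMap ℚ K (n : ℚ) * x := by
      rw [map_intCast, zsmul_eq_mul]
    rw [h2, (avK K (some p)).map_mul, avK_rat_some] at h1
    let _ : Fact (p : ℕ).Prime := ⟨p.2⟩
    have h3 : padicNorm p (n : ℚ) = 1 := (padicNorm.int_eq_one_iff n).mpr hpn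
    rw [h3] at h1
    simpa using h1

theorem avK_fin (x : K) (hx : x ≠ 0) : ∀ᶠ v in cofinite, avK K v x = 1 := by
  filter_upwards [avK_le_one_of x, avK_le_one_of x⁻¹] with v h1 h2
  rw [map_inv₀] at h2
  have hpos : 0 < avK K v x := (avK K v).pos hx
  rw [inv_le_one₀ hpos] at h2
  exact le_antisymm h1 h2

variable (K) in
/-- the family of absolute values -/
def VfK : AVF K where
  Λ := Option Nat.Primes
  av := avK K
  nonarch := by
    filter_upwards [(Set.finite_singleton (none : Option Nat.Primes)).compl_mem_cofinite] with v hv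
    cases v with
    | none => exact absurd rfl hv
    | some p => exact avK_nonarch p
  fin := avK_fin

/-- rational absolute values -/
def vq : Option Nat.Primes → ℚ → ℝ
  | none => fun q => |(q : ℝ)|
  | some p => fun q => padicNorm p q

theorem avK_algebraMap (v : Option Nat.Primes) (q : ℚ) : avK K v (algebraMap ℚ K q) = vq v q := by
  cases v with
  | none => exact avK_rat_none q
  | some p => exact avK_rat_some p q

end Def

section Rational

theorem hh_eq_none {x : Option Nat.Primes → ℝ} (h : ∀ p, x (some p) = 1) :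
    hh x = Real.log (x none) := by
  unfold hh
  rw [finsum_eq_single _ none]
  intro v hv
  cases v with
  | none => exact absurd rfl hv
  | some p => rw [h, Real.log_one]

theorem hh_le_none {x : Option Nat.Primes → ℝ} (hx : Adm x) (h : ∀ p, x (some p) ≤ 1) :
    hh x ≤ Real.log (x none) := by
  let y : Option Nat.Primes → ℝ := fun v => match v with
    | none => x none
    | some _ => 1
  have hy : Adm y := by
    refine ⟨fun v => ?_, ?_⟩
    · cases v with
      | none => exact hx.1 none
      | some p => exact one_pos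
    · filter_upwards [(Set.finite_singleton (none : Option Nat.Primes)).compl_mem_cofinite] with v hv
      cases v with
      | none => exact absurd rfl hv
      | some p => rfl
  have h1 : hh y = Real.log (x none) := hh_eq_none (x := y) fun p => rfl
  rw [← h1]
  refine hh_le hx hy fun v => ?_
  cases v with
  | none => exact le_rfl
  | some p => exact h p

theorem log_le_hh {x : Option Nat.Primes → ℝ} (hx : Adm x) (h : ∀ p, 1 ≤ x (some p)) :
    Real.log (x none) ≤ hh x := by
  let y : Option Nat.Primes → ℝ := fun v => match v with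
    | none => x none
    | some _ => 1
  have hy : Adm y := by
    refine ⟨fun v => ?_, ?_⟩
    · cases v with
      | none => exact hx.1 none
      | some p => exact one_pos
    · filter_upwards [(Set.finite_singleton (none : Option Nat.Primes)).compl_mem_cofinite] with v hv
      cases v with
      | none => exact absurd rfl hv
      | some p => rfl
  have h1 : hh y = Real.log (x none) := hh_eq_none (x := y) fun p => rfl
  rw [← h1]
  refine hh_le hy hx fun v => ?_
  cases v with
  | none => exact le_rfl
  | some p => exact h p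

theorem vq_mul (v : Option Nat.Primes) (a b : ℚ) : vq v (a * b) = vq v a * vq v b := by
  cases v with
  | none => simp [vq, abs_mul]
  | some p =>
    have : Fact (p : ℕ).Prime := ⟨p.2⟩
    simp [vq, padicNorm.mul]

theorem adm_vq {q : ℚ} (hq : q ≠ 0) : Adm (fun v => vq v q) := by
  have h : Adm (fun v : Option Nat.Primes => avK ℚ v q) := adm_av (VfK ℚ) hq
  have h2 : ∀ v, avK ℚ v q = vq v q := fun v => avK_algebraMap (K := ℚ) v q
  simpa only [h2] using h

theorem hh_vq_prime {p : ℕ} (hp : p.Prime) : hh (fun v => vq v (p : ℚ)) = 0 := by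
  classical
  have hp0 : (0 : ℝ) < p := by exact_mod_cast hp.pos
  let s : Finset (Option Nat.Primes) := {none, some ⟨p, hp⟩}
  have hsup : (Function.support fun v => Real.log (vq v (p : ℚ))) ⊆ s := by
    intro v hv
    cases v with
    | none => simp [s]
    | some q =>
      by_cases hq : q = ⟨p, hp⟩
      · simp [s, hq]
      · exfalso
        apply hv
        have hne : (q : ℕ) ≠ p := fun h => hq (Subtype.ext h)
        have : Fact (q : ℕ).Prime := ⟨q.2⟩
        show Real.log (padicNorm q (p : ℚ)) = 0
        have h1 : padicNorm q (p : ℚ) = 1 := by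
          have := (padicNorm.nat_eq_one_iff (p := q) p).mpr (fun h =>
            hne ((Nat.prime_dvd_prime_iff_eq q.2 hp).mp h))
          exact this
        rw [h1]
        simp
  unfold hh
  rw [finsum_eq_sum_of_support_subset _ hsup]
  have hne : (none : Option Nat.Primes) ≠ some ⟨p, hp⟩ := by simp
  rw [Finset.sum_pair hne]
  have : Fact p.Prime := ⟨hp⟩
  show Real.log |((p : ℚ) : ℝ)| + Real.log (padicNorm p (p : ℚ)) = 0
  rw [padicNorm.padicNorm_p hp.one_lt]
  push_cast
  rw [abs_of_pos hp0, Real.log_inv]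
  ring

theorem hh_vq_nat {n : ℕ} (hn : n ≠ 0) : hh (fun v => vq v (n : ℚ)) = 0 := by
  induction n using Nat.recOnMul with
  | zero => exact absurd rfl hn
  | one =>
    have : ∀ v, vq v ((1 : ℕ) : ℚ) = 1 := by
      intro v
      cases v with
      | none => simp [vq]
      | some p =>
        have : Fact (p : ℕ).Prime := ⟨p.2⟩
        simp [vq]
    simp only [this]
    exact hh_one
  | prime p hp => exact hh_vq_prime hp
  | mul a b iha ihb =>
    have ha : a ≠ 0 := fun h => hn (by rw [h, zero_mul])
    have hb : b ≠ 0 := fun h => hn (by rw [h, mul_zero])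
    have h1 : ∀ v, vq v ((a * b : ℕ) : ℚ) = vq v (a : ℚ) * vq v (b : ℚ) := by
      intro v
      rw [Nat.cast_mul, vq_mul]
    simp only [h1]
    rw [hh_mul (adm_vq (by exact_mod_cast ha)) (adm_vq (by exact_mod_cast hb)), iha ha, ihb hb,
      add_zero]

theorem vq_abs (v : Option Nat.Primes) (q : ℚ) : vq v |q| = vq v q := by
  cases v with
  | none => simp [vq]
  | some p =>
    have : Fact (p : ℕ).Prime := ⟨p.2⟩
    show ((padicNorm p |q| : ℚ) : ℝ) = padicNorm p q
    rcases abs_choice q with h | h
    · rw [h]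
    · rw [h, padicNorm.neg]

/-- product formula over `ℚ` -/
theorem hh_vq {q : ℚ} (hq : q ≠ 0) : hh (fun v => vq v q) = 0 := by
  have hd : q.den ≠ 0 := q.den_nz
  have hn : q.num.natAbs ≠ 0 := by simpa using hq
  have h1 : ∀ v, vq v q * vq v (q.den : ℚ) = vq v (q.num.natAbs : ℚ) := by
    intro v
    rw [← vq_mul, Rat.mul_den_eq_num, ← vq_abs]
    congr 1
    rw [Nat.cast_natAbs]
    push_cast
    rfl
  have h2 := hh_mul (adm_vq hq) (adm_vq (q := (q.den : ℚ)) (by exact_mod_cast hd))
  simp only [h1] at h2
  rw [hh_vq_nat hn, hh_vq_nat hd, add_zero] at h2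
  exact h2.symm

end Rational

end Fermat.Agent.MW
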