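import Fermat.Agent.MW.AV

/-!
# Mordell-Weil: Northcott and Siegel over `ℚ`
-/

set_option autoImplicit false
set_option linter.unusedSectionVars false

noncomputable section

namespace Fermat.Agent.MW

open Filter Matrix

theorem vq_some_int_le (p : Nat.Primes) (z : ℤ) : vq (some p) (z : ℚ) ≤ 1 := by
  have : Fact (p : ℕ).Prime := ⟨p.2⟩
  show ((padicNorm p (z : ℚ) : ℚ) : ℝ) ≤ 1
  exact_mod_cast padicNorm.of_int z

theorem vq_some_int_eq (p : Nat.Primes) {z : ℤ} (hz : ¬ (p : ℤ) ∣ z) : vq (some p) (z : ℚ) = 1 := by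
  have : Fact (p : ℕ).Prime := ⟨p.2⟩
  show ((padicNorm p (z : ℚ) : ℚ) : ℝ) = 1
  rw [(padicNorm.int_eq_one_iff z).mpr hz]
  simp

theorem vq_nonneg (v : Option Nat.Primes) (q : ℚ) : 0 ≤ vq v q := by
  rw [← avK_algebraMap (K := ℚ)]
  exact (avK ℚ v).nonneg _

theorem adm_max_vq (q : ℚ) : Adm (fun v => max 1 (vq v q)) := by
  refine ⟨fun v => lt_of_lt_of_le one_pos (le_max_left _ _), ?_⟩
  by_cases hq : q = 0
  · refine Filter.Eventually.of_forall fun v => ?_
    show max 1 (vq v q) = 1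
    have : vq v q = 0 := by
      rw [← avK_algebraMap (K := ℚ), hq, map_zero, (avK ℚ v).map_zero]
    rw [this]; simp
  · filter_upwards [(adm_vq hq).2] with v hv
    rw [hv, max_self]

theorem north_q (B : ℝ) : {q : ℚ | hh (fun v => max 1 (vq v q)) ≤ B}.Finite := by
  have key : ∀ q : ℚ, hh (fun v => max 1 (vq v q)) ≤ B →
      (q.den : ℝ) ≤ Real.exp B ∧ |(q.num : ℝ)| ≤ Real.exp B := by
    intro q hq
    have hd : (q.den : ℚ) ≠ 0 := by exact_mod_cast q.den_nz
    have hadm := (adm_max_vq q).mul (adm_vq hd)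
    have h1 := log_le_hh hadm (fun p => by
      show 1 ≤ max 1 (vq (some p) q) * vq (some p) (q.den : ℚ)
      by_cases hp : (p : ℤ) ∣ (q.den : ℤ)
      · have hpn : ¬ (p : ℤ) ∣ q.num := by
          intro h
          have h2 : (p : ℕ) ∣ q.num.natAbs := Int.natCast_dvd.mp h
          have h3 : (p : ℕ) ∣ q.den := by exact_mod_cast hp
          have h4 := Nat.dvd_gcd h2 h3
          rw [q.reduced] at h4
          exact p.2.one_lt.ne' (Nat.dvd_one.mp h4)
        have h5 := vq_some_int_eq p hpn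
        rw [← Rat.mul_den_eq_num q, vq_mul] at h5
        rw [← h5]
        exact mul_le_mul_of_nonneg_right (le_max_right _ _) (vq_nonneg _ _)
      · have h5 := vq_some_int_eq p hp
        push_cast at h5
        rw [h5, mul_one]
        exact le_max_left _ _)
    rw [hh_mul (adm_max_vq q) (adm_vq hd), hh_vq hd, add_zero] at h1
    have h2 : Real.log (max 1 (vq none q) * vq none (q.den : ℚ)) ≤ B := h1.trans hq
    have hdpos : (0 : ℝ) < q.den := by exact_mod_cast q.den_pos
    have h3 : max 1 (vq none q) * vq none (q.den : ℚ) = max 1 |(q : ℝ)| * q.den := by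
      show max 1 |(q : ℝ)| * |((q.den : ℚ) : ℝ)| = _
      push_cast
      rw [abs_of_pos hdpos]
    rw [h3] at h2
    have hmax : (1 : ℝ) ≤ max 1 |(q : ℝ)| := le_max_left _ _
    have h4 := (Real.log_le_iff_le_exp (mul_pos (by linarith) hdpos)).mp h2
    refine ⟨?_, ?_⟩
    · refine le_trans ?_ h4
      nlinarith
    · refine le_trans ?_ h4
      have h5 : (q.num : ℝ) = (q : ℝ) * q.den := by
        have := Rat.mul_den_eq_num q
        exact_mod_cast this.symm
      rw [h5, abs_mul, abs_of_pos hdpos]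
      exact mul_le_mul_of_nonneg_right (le_max_right _ _) hdpos.le
  obtain ⟨M, hM⟩ := exists_nat_ge (Real.exp B)
  have hfin : ((Set.Icc (-(M : ℤ)) M) ×ˢ (Set.Iic M : Set ℕ)).Finite :=
    (Set.finite_Icc _ _).prod (Set.finite_Iic _)
  apply Set.Finite.of_finite_image (f := fun q : ℚ => (q.num, q.den))
  · refine hfin.subset ?_
    rintro _ ⟨q, hq, rfl⟩
    obtain ⟨h1, h2⟩ := key q hq
    have h3 := h2.trans hM
    rw [abs_le] at h3
    refine ⟨⟨?_, ?_⟩, ?_⟩
    · exact_mod_cast h3.1
    · exact_mod_cast h3.2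
    · show q.den ≤ M
      exact_mod_cast h1.trans hM
  · intro q _ r _ h
    simp only [Prod.mk.injEq] at h
    exact Rat.ext h.1 h.2

/-- matrices over `ℚ` -/
abbrev toQ {m n : Type*} (A : Matrix m n ℤ) : Matrix m n ℚ := A.map (Int.cast : ℤ → ℚ)

theorem det_toQ {m : Type*} [Fintype m] [DecidableEq m] (A : Matrix m m ℤ) :
    (toQ A).det = (A.det : ℚ) := by
  have := (RingHom.map_det (Int.castRingHom ℚ) A).symm
  exact this

theorem avK_none_q (q : ℚ) : avK ℚ none q = |(q : ℝ)| := by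
  have := avK_rat_none (K := ℚ) q
  simpa using this

/-- pigeonhole -/
theorem siegel_int {m n : ℕ} (hm : 0 < m) (A : Matrix (Fin m) (Fin n) ℤ)
    (hA : LinearIndependent ℚ (toQ A).row) : ∃ (x : Fin m → ℤ) (B : ℕ), x ≠ 0 ∧
      (B : ℝ) ^ m ≤ HH (avK ℚ none) (toQ A) ∧
      ∀ j, |((x ᵥ* A) j : ℝ)| ≤ m * B := by
  classical
  have hHH := (HH_ne_zero_iff (avK ℚ none) (toQ A)).mpr hA
  obtain ⟨f, C, hf, hAC, hC1, hC2⟩ := exists_cramer (avK ℚ none) (toQ A) hHH
  set S := A.submatrix id f with hS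
  have hSQ : (toQ A).submatrix id f = toQ S := rfl
  rw [hSQ, det_toQ, avK_none_q] at hf
  set D := S.det.natAbs with hD
  have hHD : HH (avK ℚ none) (toQ A) = D := by
    rw [← hf, hD]
    push_cast
    rw [Nat.cast_natAbs]
    push_cast
    rfl
  have hdet : S.det ≠ 0 := by
    intro h
    apply hHH
    rw [hHD, hD, h]
    simp
  have hD0 : 0 < D := Int.natAbs_pos.mpr hdet
  -- the bound
  set B := Nat.findGreatest (fun b => b ^ m ≤ D) D with hB
  have hB1 : B ^ m ≤ D := by
    have := Nat.findGreatest_spec (P := fun b => b ^ m ≤ D) (m := 0) (n := D) (Nat.zero_le _)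
      (by rw [zero_pow hm.ne']; exact Nat.zero_le _)
    exact this
  have hB2 : D < (B + 1) ^ m := by
    by_contra hcon
    push Not at hcon
    have h1 : B + 1 ≤ D := (Nat.le_self_pow hm.ne' _).trans hcon
    have h2 := Nat.le_findGreatest (P := fun b => b ^ m ≤ D) h1 hcon
    omega
  -- the quotient
  have hinj : Function.Injective (S.vecMulLinear) := by
    rw [injective_iff_map_eq_zero]
    intro x hx
    exact Matrix.eq_zero_of_vecMul_eq_zero hdet hx
  let N : Submodule ℤ (Fin m → ℤ) := LinearMap.range S.vecMulLinear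
  let bN : Module.Basis (Fin m) ℤ N := (Pi.basisFun ℤ (Fin m)).map
    (LinearEquiv.ofInjective S.vecMulLinear hinj)
  have hcard : Nat.card ((Fin m → ℤ) ⧸ N) = D := by
    rw [← Submodule.natAbs_det_basis_change (Pi.basisFun ℤ (Fin m)) N bN, hD]
    congr 1
    rw [Pi.basisFun_det_apply]
    congr 1
    ext i j
    have hb : ((bN i : N) : Fin m → ℤ) = Pi.single i (1 : ℤ) ᵥ* S := by
      have h1 : bN i = LinearEquiv.ofInjective S.vecMulLinear hinj (Pi.single i (1 : ℤ)) := by
        simp [bN]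
      rw [h1]
      rfl
    show ((bN i : N) : Fin m → ℤ) j = S i j
    rw [hb, Matrix.single_one_vecMul]
    rfl
  have hfin : Finite ((Fin m → ℤ) ⧸ N) := Nat.finite_of_card_ne_zero (by rw [hcard]; omega)
  have := Fintype.ofFinite ((Fin m → ℤ) ⧸ N)
  obtain ⟨u1, u2, hne, heq⟩ := Fintype.exists_ne_map_eq_of_card_lt
    (fun u : Fin m → Fin (B + 1) => (Submodule.Quotient.mk (fun i => ((u i : ℕ) : ℤ)) :
      (Fin m → ℤ) ⧸ N)) (by
      rw [← Nat.card_eq_fintype_card, hcard]
      simpa using hB2)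
  rw [Submodule.Quotient.eq] at heq
  obtain ⟨x, hx⟩ := heq
  refine ⟨x, B, ?_, ?_, ?_⟩
  · rintro rfl
    apply hne
    funext i
    have h1 := congrFun hx i
    rw [map_zero] at h1
    simp only [Pi.zero_apply, Pi.sub_apply] at h1
    apply Fin.ext
    omega
  · rw [hHD]
    exact_mod_cast hB1
  · intro j
    have h1 : ((x ᵥ* A) j : ℚ) = ∑ k, (((u1 k : ℕ) : ℤ) - ((u2 k : ℕ) : ℤ) : ℤ) * C k j := by
      have h2 : ((x ᵥ* A) j : ℚ) = ((fun i => (x i : ℚ)) ᵥ* (toQ A)) j := by
        simp [Matrix.vecMul, dotProduct]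
      rw [h2, hAC, hSQ, ← Matrix.vecMul_vecMul]
      show ∑ k, ((fun i => (x i : ℚ)) ᵥ* (toQ S)) k * C k j = _
      refine Finset.sum_congr rfl fun k _ => ?_
      congr 1
      have h3 : ((fun i => (x i : ℚ)) ᵥ* (toQ S)) k = ((x ᵥ* S) k : ℚ) := by
        simp [Matrix.vecMul, dotProduct]
      rw [h3]
      have h4 := congrFun hx k
      have h5 : (x ᵥ* S) k = ((u1 k : ℕ) : ℤ) - ((u2 k : ℕ) : ℤ) := h4
      rw [h5]
    have h2 : |((x ᵥ* A) j : ℝ)| = |∑ k, ((((u1 k : ℕ) : ℤ) - ((u2 k : ℕ) : ℤ) : ℤ) : ℝ) *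
        (C k j : ℝ)| := by
      congr 1
      exact_mod_cast congrArg (fun q : ℚ => (q : ℝ)) h1
    rw [h2]
    calc |∑ k, ((((u1 k : ℕ) : ℤ) - ((u2 k : ℕ) : ℤ) : ℤ) : ℝ) * (C k j : ℝ)| ≤
          ∑ k : Fin m, |((((u1 k : ℕ) : ℤ) - ((u2 k : ℕ) : ℤ) : ℤ) : ℝ) * (C k j : ℝ)| :=
          Finset.abs_sum_le_sum_abs _ _
      _ ≤ ∑ k : Fin m, (B : ℝ) := by
          refine Finset.sum_le_sum fun k _ => ?_
          rw [abs_mul]
          have h3 : |(C k j : ℝ)| ≤ 1 := by
            have := hC2 k j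
            rwa [avK_none_q] at this
          have h4 : |((((u1 k : ℕ) : ℤ) - ((u2 k : ℕ) : ℤ) : ℤ) : ℝ)| ≤ B := by
            have e1 : |((u1 k : ℕ) : ℤ) - ((u2 k : ℕ) : ℤ)| ≤ (B : ℤ) := by
              have := (u1 k).2
              have := (u2 k).2
              rw [abs_le]
              constructor <;> omega
            exact_mod_cast e1
          calc _ ≤ (B : ℝ) * 1 := mul_le_mul h4 h3 (abs_nonneg _) (Nat.cast_nonneg _)
            _ = B := mul_one _
      _ = m * B := by simp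

/-- saturated integral basis -/
theorem exists_saturated {m n : ℕ} (M : Matrix (Fin m) (Fin n) ℚ)
    (hM : LinearIndependent ℚ M.row) : ∃ (T : Matrix (Fin m) (Fin m) ℚ)
      (A : Matrix (Fin m) (Fin n) ℤ), M = T * toQ A ∧ T.det ≠ 0 ∧
      LinearIndependent ℚ (toQ A).row ∧
      ∀ p : ℕ, p.Prime → ∃ f : Fin m → Fin n, ¬ (p : ℤ) ∣ (A.submatrix id f).det := by
  classical
  let W : Submodule ℚ (Fin n → ℚ) := Submodule.span ℚ (Set.range M.row)
  let ca : (Fin n → ℤ) →ₗ[ℤ] (Fin n → ℚ) :=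
    LinearMap.pi fun j => (Algebra.linearMap ℤ ℚ).comp (LinearMap.proj j)
  have hca : ∀ z j, ca z j = (z j : ℚ) := fun z j => rfl
  have hcainj : Function.Injective ca := by
    intro z z' h
    funext j
    have := congrFun h j
    rw [hca, hca] at this
    exact_mod_cast this
  let Λ : Submodule ℤ (Fin n → ℤ) := (W.restrictScalars ℤ).comap ca
  have hΛ : ∀ z, z ∈ Λ ↔ ca z ∈ W := fun z => Iff.rfl
  obtain ⟨r, ⟨β⟩⟩ := Submodule.nonempty_basis_of_pid (Pi.basisFun ℤ (Fin n)) Λ
  have hβli : LinearIndependent ℤ (fun i => ca (β i : Fin n → ℤ)) := by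
    have h1 : LinearIndependent ℤ (fun i => (β i : Fin n → ℤ)) :=
      β.linearIndependent.map' Λ.subtype (Submodule.ker_subtype Λ)
    exact h1.map' ca (LinearMap.ker_eq_bot.mpr hcainj)
  have hβliQ : LinearIndependent ℚ (fun i => ca (β i : Fin n → ℤ)) :=
    (LinearIndependent.iff_fractionRing ℤ ℚ).mp hβli
  have hspan : Submodule.span ℚ (Set.range fun i => ca (β i : Fin n → ℤ)) = W := by
    apply le_antisymm
    · refine Submodule.span_le.mpr ?_
      rintro _ ⟨i, rfl⟩
      exact (hΛ _).mp (β i).2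
    · refine Submodule.span_le.mpr ?_
      rintro _ ⟨i, rfl⟩
      -- clear denominators
      set d : ℕ := ∏ j, (M i j).den with hd
      have hd0 : (d : ℚ) ≠ 0 := by
        rw [hd]; push_cast
        exact Finset.prod_ne_zero_iff.mpr fun j _ => by exact_mod_cast (M i j).den_nz
      have hint : ∀ j, ∃ z : ℤ, (z : ℚ) = d * M i j := by
        intro j
        have h1 : (M i j).den ∣ d := Finset.dvd_prod_of_mem _ (Finset.mem_univ j)
        obtain ⟨e, he⟩ := h1
        refine ⟨e * (M i j).num, ?_⟩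
        rw [he]
        push_cast
        have := Rat.mul_den_eq_num (M i j)
        rw [← this]
        ring
      choose z hz using hint
      have h1 : ca z = (d : ℚ) • M.row i := by
        funext j
        rw [hca, hz]
        rfl
      have hzΛ : z ∈ Λ := by
        rw [hΛ, h1]
        exact Submodule.smul_mem _ _ (Submodule.subset_span ⟨i, rfl⟩)
      have h2 := β.sum_repr ⟨z, hzΛ⟩
      have h3 : z = ∑ k, β.repr ⟨z, hzΛ⟩ k • (β k : Fin n → ℤ) := by
        have := congrArg Subtype.val h2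
        rw [Submodule.coe_sum] at this
        exact this.symm
      have h4 : M.row i = ∑ k, ((d : ℚ)⁻¹ * (β.repr ⟨z, hzΛ⟩ k : ℤ)) • ca (β k : Fin n → ℤ) := by
        have h5 : M.row i = (d : ℚ)⁻¹ • ca z := by
          rw [h1, smul_smul, inv_mul_cancel₀ hd0, one_smul]
        rw [h5]
        have h6 : ca z = ∑ k, ((β.repr ⟨z, hzΛ⟩ k : ℤ) : ℚ) • ca (β k : Fin n → ℤ) := by
          conv_lhs => rw [h3]
          rw [map_sum]
          refine Finset.sum_congr rfl fun k _ => ?_
          rw [map_smul]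
          exact (Int.cast_smul_eq_zsmul ℚ _ _).symm
        rw [h6, Finset.smul_sum]
        exact Finset.sum_congr rfl fun k _ => by rw [smul_smul]
      rw [SetLike.mem_coe, h4]
      exact Submodule.sum_mem _ fun k _ => Submodule.smul_mem _ _ (Submodule.subset_span ⟨k, rfl⟩)
  have hr : r = m := by
    have h1 := finrank_span_eq_card hβliQ
    have h2 := finrank_span_eq_card hM
    rw [hspan] at h1
    have h3 : Module.finrank ℚ W = Fintype.card (Fin m) := h2
    rw [h1] at h3
    simpa using h3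
  subst hr
  let A : Matrix (Fin r) (Fin n) ℤ := Matrix.of fun i => (β i : Fin n → ℤ)
  have hArow : (toQ A).row = fun i => ca (β i : Fin n → ℤ) := rfl
  have hT : ∀ i, ∃ c : Fin r → ℚ, ∑ k, c k • ca (β k : Fin n → ℤ) = M.row i := by
    intro i
    have h1 : M.row i ∈ Submodule.span ℚ (Set.range fun i => ca (β i : Fin n → ℤ)) := by
      rw [hspan]; exact Submodule.subset_span ⟨i, rfl⟩
    exact (Submodule.mem_span_range_iff_exists_fun ℚ).mp h1
  choose T hT using hT
  have hMT : M = Matrix.of T * toQ A := by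
    ext i j
    rw [Matrix.mul_apply]
    have h1 := congrFun (hT i) j
    rw [Finset.sum_apply] at h1
    exact h1.symm
  refine ⟨Matrix.of T, A, hMT, ?_, hβliQ, fun p hp => ?_⟩
  · intro h0
    obtain ⟨c, hc0, hc⟩ := Matrix.exists_vecMul_eq_zero_iff.mpr h0
    apply hc0
    have h1 : c ᵥ* M = 0 := by rw [hMT, ← Matrix.vecMul_vecMul, hc, Matrix.zero_vecMul]
    have h2 : ∑ i, c i • M.row i = 0 := by
      funext j
      rw [Finset.sum_apply]
      exact congrFun h1 j
    funext i
    exact Fintype.linearIndependent_iff.mp hM c h2 i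
  · have : Fact p.Prime := ⟨hp⟩
    have hli : LinearIndependent (ZMod p) (A.map (Int.cast : ℤ → ZMod p)).row := by
      rw [Fintype.linearIndependent_iff]
      intro c hc i
      choose c' hc' using fun i => ZMod.intCast_surjective (c i)
      have h1 : ∀ j, (p : ℤ) ∣ ∑ i, c' i * A i j := by
        intro j
        rw [← ZMod.intCast_zmod_eq_zero_iff_dvd]
        have := congrFun hc j
        rw [Finset.sum_apply] at this
        push_cast
        simp only [hc']
        exact this
      choose z hz using h1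
      have hzΛ : z ∈ Λ := by
        rw [hΛ]
        have h2 : ca z = (p : ℚ)⁻¹ • ∑ i, ((c' i : ℤ) : ℚ) • ca (β i : Fin n → ℤ) := by
          funext j
          rw [hca, Pi.smul_apply, Finset.sum_apply, smul_eq_mul]
          have h3 : (p : ℚ) * (z j : ℚ) = ∑ i, ((c' i : ℤ) : ℚ) * (A i j : ℚ) := by
            exact_mod_cast (hz j).symm
          have hp0 : (p : ℚ) ≠ 0 := by exact_mod_cast hp.ne_zero
          rw [eq_inv_mul_iff_mul_eq₀ hp0, h3]
          rfl
        rw [h2, ← hspan]
        exact Submodule.smul_mem _ _ (Submodule.sum_mem _ fun k _ => Submodule.smul_mem _ _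
          (Submodule.subset_span ⟨k, rfl⟩))
      have h2 := β.sum_repr ⟨z, hzΛ⟩
      have h3 : ∑ k, (p * β.repr ⟨z, hzΛ⟩ k - c' k) • β k = 0 := by
        have h4 : ∑ k, (p * β.repr ⟨z, hzΛ⟩ k) • β k = (p : ℤ) • (⟨z, hzΛ⟩ : Λ) := by
          conv_rhs => rw [← h2, Finset.smul_sum]
          exact Finset.sum_congr rfl fun k _ => by rw [mul_smul]
        have h5 : ∑ k, c' k • β k = (p : ℤ) • (⟨z, hzΛ⟩ : Λ) := by
          apply Subtype.ext
          rw [Submodule.coe_sum]
          funext j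
          rw [Finset.sum_apply]
          exact hz j
        simp only [sub_smul, Finset.sum_sub_distrib, h4, h5, sub_self]
      have h4 := Fintype.linearIndependent_iff.mp β.linearIndependent _ h3 i
      rw [← hc' i]
      have h5 : c' i = p * β.repr ⟨z, hzΛ⟩ i := by linarith
      rw [h5]
      simp
    obtain ⟨f, hf⟩ := exists_det_ne_zero _ hli
    refine ⟨f, fun h => hf ?_⟩
    have h1 : ((A.map (Int.cast : ℤ → ZMod p)).submatrix id f).det =
        (((A.submatrix id f).det : ℤ) : ZMod p) :=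
      (RingHom.map_det (Int.castRingHom (ZMod p)) (A.submatrix id f)).symm
    rw [h1]
    exact (ZMod.intCast_zmod_eq_zero_iff_dvd _ _).mpr h

end Fermat.Agent.MW
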