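import Fermat.Agent.MW.AV2

/-!
# Mordell-Weil: global hypotheses for `AlgebraicClosure ℚ`
-/

set_option autoImplicit false
set_option linter.unusedSectionVars false

noncomputable section

namespace Fermat.Agent.MW

open Filter Matrix

variable {K : Type*} [Field K] [CharZero K] [Algebra ℚ K] [Algebra.IsAlgebraic ℚ K]

theorem HH_map {m n : Type*} [Fintype m] [DecidableEq m] [Finite n] (v : Option Nat.Primes)
    (A : Matrix m n ℚ) : HH (avK K v) (A.map (algebraMap ℚ K)) = HH (avK ℚ v) A := by
  unfold HH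
  congr 1
  funext f
  have h1 : ((A.map (algebraMap ℚ K)).submatrix id f).det =
      algebraMap ℚ K (A.submatrix id f).det := by
    rw [RingHom.map_det]
    rfl
  rw [h1, avK_algebraMap, ← avK_algebraMap (K := ℚ)]
  rfl

theorem nrm_map {n : Type*} (v : Option Nat.Primes)
    (x : n → ℚ) : nrm (avK K v) (fun i => algebraMap ℚ K (x i)) = nrm (avK ℚ v) x := by
  unfold nrm
  congr 1
  funext i
  rw [avK_algebraMap, ← avK_algebraMap (K := ℚ)]
  rfl

theorem avQ (v : Option Nat.Primes) (q : ℚ) : avK ℚ v q = vq v q :=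
  avK_algebraMap (K := ℚ) v q

theorem siegel_q (m n : ℕ) (hm : 0 < m) : ∃ C : ℝ, ∀ (M : Matrix (Fin m) (Fin n) ℚ),
    LinearIndependent ℚ M.row → ∃ x : Fin m → ℚ, x ≠ 0 ∧
      m * hh (fun v => nrm (avK ℚ v) (x ᵥ* M)) ≤ hh (fun v => HH (avK ℚ v) M) + C := by
  refine ⟨m * Real.log m, fun M hM => ?_⟩
  obtain ⟨T, A, hMT, hT, hA, hprim⟩ := exists_saturated M hM
  obtain ⟨x, B, hx0, hB1, hB2⟩ := siegel_int hm A hA
  have hTu : IsUnit T.det := isUnit_iff_ne_zero.mpr hT
  set y : Fin m → ℚ := (fun i => (x i : ℚ)) ᵥ* T⁻¹ with hy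
  have hyM : y ᵥ* M = fun j => (((x ᵥ* A) j : ℤ) : ℚ) := by
    rw [hy, hMT, Matrix.vecMul_vecMul, ← Matrix.mul_assoc, Matrix.nonsing_inv_mul T hTu,
      Matrix.one_mul]
    funext j
    simp [Matrix.vecMul, dotProduct]
  have hxQ : (fun i => (x i : ℚ)) ≠ 0 := by
    intro h
    apply hx0
    funext i
    have := congrFun h i
    simpa using this
  have hw0 : y ᵥ* M ≠ 0 := by
    intro h
    rw [hyM] at h
    apply hxQ
    have h2 : ∑ i, (x i : ℚ) • (toQ A).row i = 0 := by
      funext j
      rw [Finset.sum_apply]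
      have := congrFun h j
      simp only [Matrix.vecMul, dotProduct] at this
      push_cast at this
      exact this
    funext i
    exact Fintype.linearIndependent_iff.mp hA _ h2 i
  have hy0 : y ≠ 0 := by
    rintro h
    rw [h, Matrix.zero_vecMul] at hw0
    exact hw0 rfl
  refine ⟨y, hy0, ?_⟩
  -- height of M
  have hadmA : Adm (fun v : Option Nat.Primes => HH (avK ℚ v) (toQ A)) := adm_HH (VfK ℚ) _ hA
  have hHp : ∀ p, HH (avK ℚ (some p)) (toQ A) = 1 := by
    intro p
    apply le_antisymm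
    · refine HH_le _ _ zero_le_one fun f => ?_
      have h1 : ((toQ A).submatrix id f).det = ((A.submatrix id f).det : ℚ) := det_toQ _
      rw [h1, avQ]
      exact vq_some_int_le p _
    · obtain ⟨f, hf⟩ := hprim p p.2
      have h1 : ((toQ A).submatrix id f).det = ((A.submatrix id f).det : ℚ) := det_toQ _
      have h2 := le_HH (avK ℚ (some p)) (toQ A) f
      rw [h1, avQ, vq_some_int_eq p hf] at h2
      exact h2
  have hHM : hh (fun v : Option Nat.Primes => HH (avK ℚ v) M) =
      Real.log (HH (avK ℚ none) (toQ A)) := by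
    have h1 : ∀ v, HH (avK ℚ v) M = vq v T.det * HH (avK ℚ v) (toQ A) := fun v => by
      rw [hMT, HH_mul_left, avQ]
    simp only [h1]
    rw [hh_mul (adm_vq hT) hadmA, hh_vq hT, zero_add]
    exact hh_eq_none hHp
  -- height of w
  have hadmw : Adm (fun v : Option Nat.Primes => nrm (avK ℚ v) (y ᵥ* M)) := adm_nrm (VfK ℚ) hw0
  have hhw : hh (fun v : Option Nat.Primes => nrm (avK ℚ v) (y ᵥ* M)) ≤
      Real.log (nrm (avK ℚ none) (y ᵥ* M)) := by
    refine hh_le_none hadmw fun p => ?_
    refine nrm_le _ _ zero_le_one fun j => ?_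
    rw [hyM, avQ]
    exact vq_some_int_le p _
  have hnorm : nrm (avK ℚ none) (y ᵥ* M) ≤ m * B := by
    refine nrm_le _ _ (mul_nonneg (Nat.cast_nonneg _) (Nat.cast_nonneg _)) fun j => ?_
    rw [hyM, avK_none_q]
    have h := hB2 j
    show |(((((x ᵥ* A) j : ℤ) : ℚ)) : ℝ)| ≤ m * B
    rw [Rat.cast_intCast]
    exact h
  have hpos : 0 < nrm (avK ℚ none) (y ᵥ* M) := hadmw.1 none
  have hmB : (0 : ℝ) < m * B := lt_of_lt_of_le hpos hnorm
  have hm' : (0 : ℝ) < m := by exact_mod_cast hm
  have hB0 : (0 : ℝ) < B := by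
    by_contra hcon
    have h0 : (B : ℝ) ≤ 0 := not_lt.mp hcon
    nlinarith
  have h1 := Real.log_le_log hpos hnorm
  rw [Real.log_mul hm'.ne' hB0.ne'] at h1
  have h2 := Real.log_le_log (pow_pos hB0 m) hB1
  rw [Real.log_pow] at h2
  rw [hHM]
  have h3 := mul_le_mul_of_nonneg_left (hhw.trans h1) hm'.le
  linarith

theorem gavK (k0 : Subfield K) (hk0 : ∀ x ∈ k0, ∃ q : ℚ, algebraMap ℚ K q = x) :
    GAV (VfK K) k0 where
  ne := ⟨(none : Option Nat.Primes)⟩
  pf := by
    intro x hx hx0
    obtain ⟨q, rfl⟩ := hk0 x hx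
    have hq : q ≠ 0 := by
      rintro rfl
      exact hx0 (map_zero _)
    have h : ∀ v, (VfK K).av v (algebraMap ℚ K q) = vq v q := fun v => avK_algebraMap v q
    simp only [h]
    exact hh_vq hq
  north := by
    intro B
    refine ((north_q B).image (algebraMap ℚ K)).subset ?_
    rintro x ⟨hx, hB⟩
    obtain ⟨q, rfl⟩ := hk0 x hx
    refine ⟨q, ?_, rfl⟩
    have h : ∀ v, (VfK K).av v (algebraMap ℚ K q) = vq v q := fun v => avK_algebraMap v q
    simp only [h] at hB
    exact hB
  siegel := by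
    intro m n hm
    obtain ⟨C, hC⟩ := siegel_q m n hm
    refine ⟨C, fun M hM hMli => ?_⟩
    choose M' hM' using fun i j => hk0 _ (hM i j)
    have hMeq : M = (Matrix.of M').map (algebraMap ℚ K) := by
      ext i j
      exact (hM' i j).symm
    have hli : LinearIndependent ℚ (Matrix.of M').row := by
      rw [Fintype.linearIndependent_iff] at hMli ⊢
      intro c hc i
      have h1 := hMli (fun i => algebraMap ℚ K (c i)) (by
        funext j
        have h2 := congrArg (algebraMap ℚ K) (congrFun hc j)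
        rw [Finset.sum_apply] at h2 ⊢
        rw [map_sum] at h2
        simp only [Pi.smul_apply, smul_eq_mul, map_mul, Pi.zero_apply, map_zero] at h2 ⊢
        rw [← h2]
        refine Finset.sum_congr rfl fun k _ => ?_
        congr 1
        exact (hM' k j).symm) i
      exact (map_eq_zero _).mp h1
    obtain ⟨x, hx0, hx⟩ := hC _ hli
    refine ⟨fun i => algebraMap ℚ K (x i), fun i => ?_, fun h => hx0 ?_, ?_⟩
    · show algebraMap ℚ K (x i) ∈ k0
      rw [eq_ratCast]
      exact SubfieldClass.ratCast_mem _ _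
    · funext i
      have := congrFun h i
      exact (map_eq_zero _).mp this
    · have h1 : ∀ v : Option Nat.Primes, nrm ((VfK K).av v) ((fun i => algebraMap ℚ K (x i)) ᵥ* M) =
          nrm (avK ℚ v) (x ᵥ* (Matrix.of M')) := by
        intro v
        rw [← nrm_map (K := K)]
        congr 1
        funext j
        rw [hMeq]
        simp [Matrix.vecMul, dotProduct]
      have h2 : ∀ v : Option Nat.Primes, HH ((VfK K).av v) M = HH (avK ℚ v) (Matrix.of M') := by
        intro v
        rw [hMeq]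
        exact HH_map v _
      show m * hh (Λ := Option Nat.Primes) (fun v => nrm ((VfK K).av v) _) ≤
        hh (Λ := Option Nat.Primes) (fun v => HH ((VfK K).av v) M) + C
      simp only [h1, h2]
      exact hx

end Fermat.Agent.MW
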