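import Fermat.Agent.MW.Rat

/-!
# Mordell-Weil: rational structures on Riemann-Roch spaces
-/

set_option autoImplicit false
set_option linter.unusedSectionVars false

noncomputable section

namespace Fermat.Agent.MW

open AlgebraicCurve Fermat.Agent.FF WithZero Matrix

variable {K F : Type*} [Field K] [Field F] [Algebra K F]
variable {Γ : Subgroup (SemilinearAut K F)}

theorem LL_stable {D : Divisor K F} (hD : IsFix Γ D) {g : SemilinearAut K F} (hg : g ∈ Γ) {f : F}
    (hf : f ∈ LL D) : g • f ∈ LL D := by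
  intro v
  rw [v.adicValuation_le_exp_iff]
  have h1 := hf (g⁻¹ • v)
  rw [Place.adicValuation_le_exp_iff] at h1
  rcases h1 with h1 | h1
  · left; rw [h1, smul_zero]
  · right
    have h2 := SemilinearAut.ord_smul g (g⁻¹ • v) f
    rw [smul_inv_smul] at h2
    rw [h2]
    have h3 := congrArg (fun D : Divisor K F => D v) (hD g hg)
    simp only [SemilinearAut.divisor_smul_apply] at h3
    rw [← h3]
    exact h1

theorem isFix_single {P : Place K F} (hP : IsFix Γ P) (n : ℤ) :
    IsFix Γ (Finsupp.single P n : Divisor K F) := fun g hg => by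
  rw [SemilinearAut.smul_single, hP g hg]

theorem IsFix.add {D D' : Divisor K F} (h : IsFix Γ D) (h' : IsFix Γ D') : IsFix Γ (D + D') :=
  fun g hg => by rw [smul_add, h g hg, h' g hg]

theorem IsFix.sub {D D' : Divisor K F} (h : IsFix Γ D) (h' : IsFix Γ D') : IsFix Γ (D - D') :=
  fun g hg => by rw [smul_sub, h g hg, h' g hg]

theorem IsFix.mulF {f f' : F} (h : IsFix Γ f) (h' : IsFix Γ f') : IsFix Γ (f * f') :=
  fun g hg => by rw [smul_mul', h g hg, h' g hg]

variable [IsAlgClosed K] [FunField K F] [CharZero K]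

theorem IsFix.div {f : F} (h : IsFix Γ f) : IsFix Γ (div f : Divisor K F) := fun g hg => by
  ext v
  rw [SemilinearAut.divisor_smul_apply, div_apply, div_apply]
  have h2 := SemilinearAut.ord_smul g (g⁻¹ • v) f
  rw [smul_inv_smul, h g hg] at h2
  exact h2.symm

/-- coordinates of fixed elements in fixed bases -/
theorem coord_fixed {ι : Type*} [Fintype ι] {V : Submodule K F} (b : Module.Basis ι K V)
    (hb : ∀ i, IsFix Γ (b i : F)) {f : V} (hf : IsFix Γ (f : F)) (i : ι) :
    b.equivFun f i ∈ fixK Γ := by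
  intro g hg
  have h1 := congrArg Subtype.val (b.sum_equivFun f)
  rw [Submodule.coe_sum] at h1
  simp only [Submodule.coe_smul] at h1
  have h2 := congrArg (fun x => g • x) h1
  simp only [Finset.smul_sum] at h2
  rw [hf g hg] at h2
  have h3 : ∀ i, g • (b.equivFun f i • (b i : F)) =
      SemilinearAut.baseAut g (b.equivFun f i) • (b i : F) := by
    intro i
    rw [smul_smul', hb i g hg]
  rw [Finset.sum_congr rfl fun i _ => h3 i] at h2
  have h4 : ∑ i, SemilinearAut.baseAut g (b.equivFun f i) • b i = f := by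
    apply Subtype.ext
    rw [Submodule.coe_sum]
    exact h2
  have h5 := congrArg b.equivFun h4
  rw [← b.equivFun_symm_apply, LinearEquiv.apply_symm_apply] at h5
  exact congrFun h5 i

/-- nonzero fixed vector outside a proper subspace -/
theorem exists_fixed_notMem (R : RatData Γ) (V W : Submodule K F) [FiniteDimensional K V]
    (hV : ∀ g ∈ Γ, ∀ f ∈ V, g • f ∈ V) (hVW : ¬ V ≤ W) : ∃ f ∈ V, f ∉ W ∧ IsFix Γ f := by
  obtain ⟨w, hw⟩ := exists_fixed_basis R V hV
  by_contra hcon
  push Not at hcon
  apply hVW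
  intro f hf
  have h1 := congrArg Subtype.val (w.sum_equivFun ⟨f, hf⟩)
  rw [Submodule.coe_sum] at h1
  simp only [Submodule.coe_smul] at h1
  rw [← h1]
  refine Submodule.sum_mem _ fun i _ => Submodule.smul_mem _ _ ?_
  by_contra h2
  exact hcon _ (w i).2 h2 (hw i)

section Evv

variable {P0 : Place K F} {t : F} (ht : P0.adicValuation t = exp (-1 : ℤ))
  (hP0 : IsFix Γ P0) (htf : IsFix Γ t)

include hP0 htf in
theorem smul_tau {g : SemilinearAut K F} (hg : g ∈ Γ) (P : Place K F) :
    g • tau P0 t P = tau P0 t (g • P) := by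
  unfold tau
  by_cases h : P = P0
  · rw [if_pos h, h, hP0 g hg, if_pos rfl, htf g hg]
  · rw [if_neg h, if_neg, smul_one]
    intro h'
    apply h
    have h2 := hP0 g hg
    rw [← h2] at h'
    exact smul_left_cancel g h'

include ht hP0 htf in
theorem smul_evv {g : SemilinearAut K F} (hg : g ∈ Γ) {N : ℕ} (P : Place K F) {f : F}
    (hf : f ∈ VN P0 N) :
    evv P0 t N (g • P) (g • f) = SemilinearAut.baseAut g (evv P0 t N P f) := by
  unfold evv
  rw [← smul_tau hP0 htf hg, ← smul_val g (tau_le ht hf), smul_mul', smul_pow']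

include ht hP0 htf in
theorem smul_eMod {g : SemilinearAut K F} (hg : g ∈ Γ) {N : ℕ} {ι : Type*}
    (b : Module.Basis ι K (VN P0 N)) (hb : ∀ i, IsFix Γ (b i : F)) (P : Place K F) (i : ι) :
    eMod P0 t N b (g • P) i = SemilinearAut.baseAut g (eMod P0 t N b P i) := by
  unfold eMod
  rw [← smul_evv ht hP0 htf hg P (b i).2, hb i g hg]

include ht hP0 htf in
theorem evv_fixed {N : ℕ} {f : F} (hf : f ∈ VN P0 N) (hff : IsFix Γ f) :
    evv P0 t N P0 f ∈ fixK Γ := by
  intro g hg
  rw [← smul_evv ht hP0 htf hg P0 hf, hff g hg, hP0 g hg]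

end Evv

section Perm

theorem dvl_map_smul (g : SemilinearAut K F) (l : List (Place K F)) :
    dvl (l.map fun P => g • P) = g • dvl l := by
  induction l with
  | nil => simp
  | cons P l ih => rw [List.map_cons, dvl_cons, dvl_cons, ih, smul_add, SemilinearAut.smul_single]

theorem exists_perm {l : List (Place K F)} (hl : l.Nodup) {g : SemilinearAut K F}
    (hg : g • dvl l = dvl l) : ∃ π : Equiv.Perm (Fin l.length), ∀ j, g • l.get j = l.get (π j) := by
  classical
  have h1 : (l.map fun P => g • P).Perm l := dvl_perm (by rw [dvl_map_smul, hg])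
  have h2 : ∀ j, ∃ i, l.get i = g • l.get j := by
    intro j
    have h3 : g • l.get j ∈ l := by
      rw [← h1.mem_iff]
      exact List.mem_map.mpr ⟨l.get j, List.get_mem _ _, rfl⟩
    exact List.mem_iff_get.mp h3
  choose π hπ using h2
  have hinj : Function.Injective π := by
    intro i j hij
    have h3 : g • l.get i = g • l.get j := by rw [← hπ, ← hπ, hij]
    exact hl.injective_get (smul_left_cancel g h3)
  exact ⟨Equiv.ofBijective π (Finite.injective_iff_bijective.mp hinj), fun j => (hπ j).symm⟩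

theorem det_sq_fixed {P0 : Place K F} {t : F} (ht : P0.adicValuation t = exp (-1 : ℤ))
    (hP0 : IsFix Γ P0) (htf : IsFix Γ t) {N : ℕ} {κ : Type*}
    (bk : Module.Basis κ K (VN P0 N)) (hbk : ∀ i, IsFix Γ (bk i : F))
    {l : List (Place K F)} (hl : l.Nodup) (hfix : IsFix Γ (dvl l)) (f : Fin l.length → κ) :
    ((Matrix.of fun (j : Fin l.length) (a : κ) =>
      eMod P0 t N bk (l.get j) a).submatrix id f).det ^ 2 ∈ fixK Γ := by
  intro g hg
  obtain ⟨π, hπ⟩ := exists_perm hl (hfix g hg)
  set A := (Matrix.of fun (j : Fin l.length) (a : κ) => eMod P0 t N bk (l.get j) a).submatrix id f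
  have h1 : SemilinearAut.baseAut g A.det = (A.submatrix π id).det := by
    have : SemilinearAut.baseAut g A.det = (SemilinearAut.baseAut g : K →+* K) A.det := rfl
    rw [this, RingHom.map_det]
    congr 1
    ext i j
    show SemilinearAut.baseAut g (eMod P0 t N bk (l.get i) (f j)) =
      eMod P0 t N bk (l.get (π i)) (f j)
    rw [← hπ, smul_eMod ht hP0 htf hg bk hbk]
  rw [map_pow, h1, Matrix.det_permute, mul_pow]
  have h2 : (((Equiv.Perm.sign π : ℤˣ) : ℤ) : K) ^ 2 = 1 := by
    rcases Int.units_eq_one_or (Equiv.Perm.sign π) with h | h <;> simp [h]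
  rw [h2, one_mul]

end Perm

end Fermat.Agent.MW
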