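import Fermat.Agent.MW.Glob
import Fermat.Agent.MW.Rat2

/-!
# Mordell-Weil: the global context
-/

set_option autoImplicit false
set_option linter.unusedSectionVars false

noncomputable section

namespace Fermat.Agent.MW

open AlgebraicCurve Fermat.Agent.FF WithZero Matrix

/-- global context -/
structure Ctx (K F : Type*) [Field K] [Field F] [Algebra K F] [IsAlgClosed K] [FunField K F]
    [CharZero K] where
  Vf : AVF K
  Γ : Subgroup (SemilinearAut K F)
  R : RatData Γ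
  P0 : Place K F
  t : F
  ht : P0.adicValuation t = exp (-1 : ℤ)
  hP0 : IsFix Γ P0
  htf : IsFix Γ t
  gav : GAV Vf (fixK Γ)

namespace Ctx

variable {K F : Type*} [Field K] [Field F] [Algebra K F] [IsAlgClosed K] [FunField K F]
variable [CharZero K] (X : Ctx K F)

theorem VN_stable (n : ℕ) : ∀ g ∈ X.Γ, ∀ f ∈ VN X.P0 n, g • f ∈ VN X.P0 n :=
  fun _ hg _ hf => LL_stable (isFix_single X.hP0 n) hg hf

/-- dimension of `VN n` -/
def d (n : ℕ) : ℕ := Module.finrank K (VN X.P0 n)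

/-- rational bases -/
def bb (n : ℕ) : Module.Basis (Fin (X.d n)) K (VN X.P0 n) :=
  (exists_fixed_basis X.R (VN X.P0 n) (X.VN_stable n)).choose

theorem bb_fix (n : ℕ) (i : Fin (X.d n)) : IsFix X.Γ (X.bb n i : F) :=
  (exists_fixed_basis X.R (VN X.P0 n) (X.VN_stable n)).choose_spec i

/-- level -/
def N0 (_X : Ctx K F) : ℕ := 4 * genusFF K F + 2

theorem d_eq {n : ℕ} (hn : 2 * genusFF K F ≤ n) : X.d n + genusFF K F = n + 1 := by
  have h := ell_eq (D := (Finsupp.single X.P0 (n : ℤ) : Divisor K F)) (by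
    rw [degree_single_one]; exact_mod_cast hn)
  rw [degree_single_one] at h
  have h2 : X.d n = ell (Finsupp.single X.P0 (n : ℤ) : Divisor K F) := rfl
  omega

/-- the model of level `L` -/
def M (L : ℕ) : PModel K (Place K F) (Fin (X.d X.N0)) (Fin (X.d (L * X.N0))) L :=
  mkModel (X.bb X.N0) (X.bb (L * X.N0)) X.ht le_rfl

/-- distance -/
def ds (v : X.Vf.Λ) (P Q : Place K F) : ℝ := dst X.P0 X.t (X.bb X.N0) (X.Vf.av v) P Q

/-- norm -/
def ns (v : X.Vf.Λ) (P : Place K F) : ℝ := nrm (X.Vf.av v) (eMod X.P0 X.t X.N0 (X.bb X.N0) P)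

theorem dist_M (L : ℕ) (v : X.Vf.Λ) (P Q : Place K F) :
    (X.M L).dist (X.Vf.av v) P Q = X.ds v P Q := rfl

theorem nrm_M (L : ℕ) (v : X.Vf.Λ) (P : Place K F) : nrm (X.Vf.av v) ((X.M L).e P) = X.ns v P := rfl

theorem adm_ds {P Q : Place K F} (h : P ≠ Q) : Adm (fun v => X.ds v P Q) :=
  adm_dist X.Vf (X.M 0) h

theorem adm_ns (P : Place K F) : Adm (fun v => X.ns v P) :=
  adm_nrm X.Vf ((X.M 0).e_ne P)

/-- global distance -/
def dh (P Q : Place K F) : ℝ := hh (fun v => X.ds v P Q)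

/-- global norm -/
def nh (P : Place K F) : ℝ := hh (fun v => X.ns v P)

theorem ds_comm (v : X.Vf.Λ) (P Q : Place K F) : X.ds v P Q = X.ds v Q P := by
  unfold ds dst
  rw [mul_comm (nrm _ _)]
  congr 1
  unfold ddv
  refine Equiv.iSup_congr (Equiv.refl _) fun p => ?_
  rw [Equiv.refl_apply, ← (X.Vf.av v).map_neg]
  congr 1
  ring

theorem dh_comm (P Q : Place K F) : X.dh P Q = X.dh Q P := by
  unfold dh
  simp only [X.ds_comm _ P Q]

/-- sum of pairwise distances -/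
def ppH : List (Place K F) → ℝ
  | [] => 0
  | Q :: l => (l.map fun P => X.dh P Q).sum + ppH l

/-- cross terms -/
def cr (l l' : List (Place K F)) : ℝ := (l.map fun P => (l'.map fun Q => X.dh P Q).sum).sum

theorem adm_pp (L : ℕ) {l : List (Place K F)} (hl : l.Nodup) :
    Adm (fun v => (X.M L).pp (X.Vf.av v) l) ∧ hh (fun v => (X.M L).pp (X.Vf.av v) l) = X.ppH l := by
  induction l with
  | nil => exact ⟨Adm.one, by simp [PModel.pp, ppH]⟩
  | cons Q l ih =>
    rw [List.nodup_cons] at hl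
    obtain ⟨h1, h2⟩ := ih hl.2
    have h3 : ∀ P ∈ l, Adm (fun v => X.ds v P Q) := fun P hP => X.adm_ds (by
      rintro rfl; exact hl.1 hP)
    have h4 := Adm.listProd l (fun P v => X.ds v P Q) h3
    refine ⟨h4.mul h1, ?_⟩
    show hh (fun v => (l.map fun P => X.ds v P Q).prod * (X.M L).pp (X.Vf.av v) l) = _
    rw [hh_mul h4 h1, hh_listProd l _ h3, h2]
    rfl

theorem adm_nn (L : ℕ) (l : List (Place K F)) :
    Adm (fun v => (X.M L).nn (X.Vf.av v) l) ∧
      hh (fun v => (X.M L).nn (X.Vf.av v) l) = (l.map X.nh).sum := by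
  have h3 : ∀ P ∈ l, Adm (fun v => X.ns v P) := fun P _ => X.adm_ns P
  exact ⟨Adm.listProd l (fun P v => X.ns v P) h3, hh_listProd l _ h3⟩

theorem adm_XX (L : ℕ) {l : List (Place K F)} (hl : l.Nodup) :
    Adm (fun v => (X.M L).XX (X.Vf.av v) l) ∧
      hh (fun v => (X.M L).XX (X.Vf.av v) l) = L * (l.map X.nh).sum + X.ppH l := by
  obtain ⟨h1, h2⟩ := X.adm_nn L l
  obtain ⟨h3, h4⟩ := X.adm_pp L hl
  refine ⟨(h1.pow L).mul h3, ?_⟩
  unfold PModel.XX
  rw [hh_mul (h1.pow L) h3, hh_pow, h2, h4]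

/-- the basic function -/
def GG (L : ℕ) (l : List (Place K F)) : ℝ :=
  L * (l.map X.nh).sum + X.ppH l + ((X.d (L * X.N0) : ℝ) - l.length) *
    (l.map fun P => X.dh P X.P0).sum

end Ctx

end Fermat.Agent.MW
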