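import Fermat.Agent.MW.Rep

/-!
# Mordell-Weil: the approximate cube law
-/

set_option autoImplicit false
set_option linter.unusedSectionVars false

noncomputable section

namespace Fermat.Agent.MW

open AlgebraicCurve Fermat.Agent.FF WithZero Matrix Fermat.Agent.H18.FixedClasses

variable {K F : Type*} [Field K] [Field F] [Algebra K F] [IsAlgClosed K] [FunField K F]
variable [CharZero K]

namespace Ctx

variable (X : Ctx K F)

theorem exists_INV_abs {L j : ℕ} (hj : j + 2 ≤ L) : ∃ C : ℝ, ∀ (x : Pic0 K F) (l l' : List (Place K F)),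
    X.Rep x j l → X.Rep x j l' → |X.GG L l - X.GG L l'| ≤ C := by
  obtain ⟨C, hC⟩ := X.exists_INV hj
  refine ⟨C, fun x l l' h h' => ?_⟩
  rw [abs_le]
  have h1 := hC l l' h.nodup h'.nodup h.len h'.len h.P0 h'.P0 h.fix h'.fix (h.equiv h')
  have h2 := hC l' l h'.nodup h.nodup h'.len h.len h'.P0 h.P0 h'.fix h.fix (h'.equiv h)
  constructor <;> linarith

/-- degree of the representatives -/
def k1 (_X : Ctx K F) : ℕ := 2 * genusFF K F + 1

/-- level of the model -/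
def L1 : ℕ := 3 * X.k1 + 2

theorem exists_cube : ∃ (Q : Pic0 K F → ℝ) (C : ℝ),
    (∀ x, IsFix X.Γ x → ∃ l, X.Rep x X.k1 l ∧ Q x = X.GG X.L1 l) ∧
    ∀ x y z, IsFix X.Γ x → IsFix X.Γ y → IsFix X.Γ z →
      |Q (x + y + z) - Q (x + y) - Q (x + z) - Q (y + z) + Q x + Q y + Q z| ≤ C := by
  classical
  set k := X.k1 with hk
  set L := X.L1 with hL
  have hLk : L = 3 * k + 2 := rfl
  have hkk : 2 * genusFF K F + 1 ≤ k := le_rfl
  obtain ⟨C1, hC1⟩ := X.exists_INV_abs (L := L) (j := k) (by omega)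
  obtain ⟨C2, hC2⟩ := X.exists_INV_abs (L := L) (j := k + k) (by omega)
  obtain ⟨C3, hC3⟩ := X.exists_INV_abs (L := L) (j := k + k + k) (by omega)
  have hfix0 : IsFix X.Γ (0 : Pic0 K F) := fun g _ => smul_zero (A := Pic0 K F) g
  have hfixadd : ∀ x y : Pic0 K F, IsFix X.Γ x → IsFix X.Γ y → IsFix X.Γ (x + y) :=
    fun x y hx hy g hg => by rw [smul_add, hx g hg, hy g hg]
  obtain ⟨F1, hF1, -⟩ := X.exists_rep hfix0 hkk ∅ Set.finite_empty
  obtain ⟨F2, hF2, hF21⟩ := X.exists_rep hfix0 hkk {P | P ∈ F1} (List.finite_toSet F1)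
  have hE : ∀ x, IsFix X.Γ x → ∃ l, X.Rep x k l ∧ ∀ P ∈ l, P ∉ {P | P ∈ F1} ∪ {P | P ∈ F2} :=
    fun x hx => X.exists_rep hx hkk _ ((List.finite_toSet F1).union (List.finite_toSet F2))
  choose! E hE hEd using hE
  have hdE1 : ∀ x, IsFix X.Γ x → (E x).Disjoint F1 := fun x hx P h1 h2 => hEd x hx P h1 (Or.inl h2)
  have hdE2 : ∀ x, IsFix X.Γ x → (E x).Disjoint F2 := fun x hx P h1 h2 => hEd x hx P h1 (Or.inr h2)
  have hd12 : F1.Disjoint F2 := fun P h1 h2 => hF21 P h2 h1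
  set Q : Pic0 K F → ℝ := fun x => X.GG L (E x) with hQ
  -- step 2
  have step2 : ∀ x y l l', IsFix X.Γ x → IsFix X.Γ y → X.Rep x k l → X.Rep y k l' → l.Disjoint l' →
      |X.BB l l' - (Q (x + y) - Q x - Q y + X.BB (E (x + y)) F1 + X.GG L F1)| ≤ 2 * C1 + C2 := by
    intro x y l l' hx hy hl hl' hd
    have hxy := hfixadd x y hx hy
    have e1 := hC2 (x + y) _ _ (hl.append hl' hd) (by
      have := (hE _ hxy).append hF1 (hdE1 _ hxy)
      rwa [add_zero] at this)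
    rw [X.GG_append, X.GG_append, abs_le] at e1
    have e2 := abs_le.mp (hC1 x _ _ hl (hE x hx))
    have e3 := abs_le.mp (hC1 y _ _ hl' (hE y hy))
    rw [abs_le]
    simp only [hQ]
    constructor <;> linarith [e1.1, e1.2, e2.1, e2.2, e3.1, e3.2]
  -- step 3
  have step3 : ∀ w, IsFix X.Γ w →
      |X.BB (E w) F2 - X.BB (E w) F1 - X.GG L F1 + X.GG L F2| ≤ C2 := by
    intro w hw
    have e1 := hC2 (w + 0) _ _ ((hE _ hw).append hF2 (hdE2 _ hw)) ((hE _ hw).append hF1 (hdE1 _ hw))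
    rw [X.GG_append, X.GG_append, abs_le] at e1
    rw [abs_le]
    constructor <;> linarith [e1.1, e1.2]
  -- step 1
  have step1 : ∀ x y, IsFix X.Γ x → IsFix X.Γ y →
      |X.BB (E x) F1 + X.BB (E y) F1 - X.BB (E (x + y)) F1 - X.BB F2 F1| ≤ C1 + 2 * C2 + C3 := by
    intro x y hx hy
    have hxy := hfixadd x y hx hy
    obtain ⟨y', hy', hyd⟩ := X.exists_rep hy hkk ({P | P ∈ E x} ∪ ({P | P ∈ F1} ∪ {P | P ∈ F2}))
      ((List.finite_toSet _).union ((List.finite_toSet F1).union (List.finite_toSet F2)))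
    have d1 : (E x).Disjoint y' := fun P h1 h2 => hyd P h2 (Or.inl h1)
    have d2 : y'.Disjoint F1 := fun P h1 h2 => hyd P h1 (Or.inr (Or.inl h2))
    have e1 := hC1 y _ _ hy' (hE y hy)
    have e2 := hC2 (y + 0) _ _ (hy'.append hF1 d2) ((hE y hy).append hF1 (hdE1 y hy))
    have r1 := ((hE x hx).append hy' d1).append hF1 (by
      rw [List.disjoint_append_left]; exact ⟨hdE1 x hx, d2⟩)
    have r2 := ((hE _ hxy).append hF2 (hdE2 _ hxy)).append hF1 (by
      rw [List.disjoint_append_left]; exact ⟨hdE1 _ hxy, hd12.symm⟩)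
    rw [add_zero, add_zero] at r2
    rw [add_zero] at r1
    have e3 := hC3 (x + y) _ _ r1 r2
    have e4 := hC2 (x + y) _ _ ((hE x hx).append hy' d1) (by
      have := (hE _ hxy).append hF2 (hdE2 _ hxy)
      rwa [add_zero] at this)
    rw [X.GG_append L (E x ++ y'), X.GG_append L (E (x + y) ++ F2), X.BB_append_left,
      X.BB_append_left] at e3
    rw [X.GG_append, X.GG_append] at e2
    rw [abs_le] at e1 e2 e3 e4 ⊢
    constructor <;> linarith [e1.1, e1.2, e2.1, e2.2, e3.1, e3.2, e4.1, e4.2]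
  refine ⟨Q, 20 * (C1 + C2 + C3) + |X.GG L F1|, fun x hx => ⟨E x, hE x hx, rfl⟩,
    fun x y z hx hy hz => ?_⟩
  have hC10 : 0 ≤ C1 := (abs_nonneg _).trans (hC1 0 _ _ hF1 hF1)
  have hC20 : 0 ≤ C2 := (abs_nonneg _).trans (hC2 _ _ _ (hF1.append hF2 hd12) (hF1.append hF2 hd12))
  have hxy := hfixadd x y hx hy
  have hxz := hfixadd x z hx hz
  have hyz := hfixadd y z hy hz
  have hw := hfixadd _ z hxy hz
  obtain ⟨y', hy', hyd⟩ := X.exists_rep hy hkk {P | P ∈ E x} (List.finite_toSet _)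
  obtain ⟨z', hz', hzd⟩ := X.exists_rep hz hkk ({P | P ∈ E x} ∪ {P | P ∈ y'})
    ((List.finite_toSet _).union (List.finite_toSet _))
  have d1 : (E x).Disjoint y' := fun P h1 h2 => hyd P h2 h1
  have d2 : (E x).Disjoint z' := fun P h1 h2 => hzd P h2 (Or.inl h1)
  have d3 : y'.Disjoint z' := fun P h1 h2 => hzd P h2 (Or.inr h1)
  have r1 := ((hE x hx).append hy' d1).append hz' (by
    rw [List.disjoint_append_left]; exact ⟨d2, d3⟩)
  have r2 := ((hE _ hw).append hF1 (hdE1 _ hw)).append hF2 (by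
    rw [List.disjoint_append_left]; exact ⟨hdE2 _ hw, hd12⟩)
  rw [add_zero, add_zero] at r2
  have e1 := hC3 _ _ _ r1 r2
  have hC30 : 0 ≤ C3 := (abs_nonneg _).trans e1
  rw [X.GG_append L (E x ++ y'), X.GG_append L (E x), X.GG_append L (E (x + y + z) ++ F1),
    X.GG_append L (E (x + y + z)), X.BB_append_left, X.BB_append_left, X.BB_comm F1 F2] at e1
  have s1 := step2 x y _ _ hx hy (hE x hx) hy' d1
  have s2 := step2 x z _ _ hx hz (hE x hx) hz' d2
  have s3 := step2 y z _ _ hy hz hy' hz' d3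
  have s4 := step3 _ hw
  have t1 := step1 x y hx hy
  have t2 := step1 x z hx hz
  have t3 := step1 y z hy hz
  have t4 := step1 _ z hxy hz
  have u1 := hC1 y _ _ hy' (hE y hy)
  have u2 := hC1 z _ _ hz' (hE z hz)
  have v1 := le_abs_self (X.GG L F1)
  have v2 := neg_abs_le (X.GG L F1)
  rw [abs_le] at e1 s1 s2 s3 s4 t1 t2 t3 t4 u1 u2 ⊢
  simp only [hQ] at *
  constructor <;> linarith [e1.1, e1.2, s1.1, s1.2, s2.1, s2.2, s3.1, s3.2, s4.1, s4.2, t1.1, t1.2,
    t2.1, t2.2, t3.1, t3.2, t4.1, t4.2, u1.1, u1.2, u2.1, u2.2]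

end Ctx

end Fermat.Agent.MW
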