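import Fermat.Agent.MW.Model2

/-!
# Mordell-Weil: maximal minors of evaluation matrices
-/

set_option autoImplicit false

noncomputable section

namespace Fermat.Agent.MW

open Finset Filter

namespace PModel

variable {K : Type*} [Field K] {Pt ι κ : Type*} [Fintype ι] [DecidableEq ι] [Fintype κ]
    {L : ℕ} (M : PModel K Pt ι κ L) (Vf : AVF K)

/-- evaluation matrix -/
def ev (l : List Pt) : Matrix (Fin l.length) κ K := Matrix.of fun j => M.E (l.get j)

/-- product of pairwise distances -/
def pp (v : AbsoluteValue K ℝ) : List Pt → ℝ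
  | [] => 1
  | Q :: l => (l.map fun P => M.dist v P Q).prod * pp v l

/-- product of norms -/
def nn (v : AbsoluteValue K ℝ) (l : List Pt) : ℝ := (l.map fun P => nrm v (M.e P)).prod

/-- extend a list to slots -/
def lp (P0 : Pt) (l : List Pt) (m : Fin L) : Pt := l.getD m.val P0

theorem prod_act (l : List Pt) (P0 : Pt) (hl : l.length ≤ L) (f : Pt → ℝ) :
    ∏ m ∈ act L l.length, f (lp P0 l m) = (l.map f).prod := by
  have h1 : (l.map f).prod = ∏ j : Fin l.length, f (l.get j) := by
    rw [← List.prod_ofFn]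
    congr 1
    apply List.ext_getElem <;> simp
  rw [h1]
  symm
  refine Finset.prod_bij (fun j _ => Fin.castLE hl j) ?_ ?_ ?_ ?_
  · intro j _
    rw [mem_act]
    exact j.2
  · intro a _ b _ h
    exact Fin.castLE_injective hl h
  · intro m hm
    rw [mem_act] at hm
    exact ⟨⟨m.val, hm⟩, Finset.mem_univ _, rfl⟩
  · intro j _
    congr 1
    simp [lp]

theorem size_lp (v : AbsoluteValue K ℝ) (l : List Pt) (P0 Q : Pt) (hl : l.length ≤ L) :
    M.size v l.length (lp P0 l) Q = nrm v (M.e Q) ^ L * (l.map fun P => M.dist v P Q).prod := by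
  rw [size, prod_act l P0 hl (fun P => M.dist v P Q)]

theorem pp_nonneg (v : AbsoluteValue K ℝ) (l : List Pt) : 0 ≤ M.pp v l := by
  induction l with
  | nil => exact zero_le_one
  | cons Q l ih =>
    refine mul_nonneg (List.prod_nonneg ?_) ih
    intro a ha
    obtain ⟨P, -, rfl⟩ := List.mem_map.mp ha
    exact M.dist_nonneg _ _ _

theorem pp_pos (v : AbsoluteValue K ℝ) {l : List Pt} (hl : l.Nodup) : 0 < M.pp v l := by
  induction l with
  | nil => exact zero_lt_one
  | cons Q l ih =>
    rw [List.nodup_cons] at hl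
    refine mul_pos (List.prod_pos ?_) (ih hl.2)
    intro a ha
    obtain ⟨P, hP, rfl⟩ := List.mem_map.mp ha
    refine M.dist_pos _ ?_
    rintro rfl
    exact hl.1 hP

theorem nn_pos (v : AbsoluteValue K ℝ) (l : List Pt) : 0 < M.nn v l := by
  refine List.prod_pos ?_
  intro a ha
  obtain ⟨P, hP, rfl⟩ := List.mem_map.mp ha
  exact nrm_pos v (M.e_ne P)

/-- expected size of the maximal minors -/
def XX (v : AbsoluteValue K ℝ) (l : List Pt) : ℝ := M.nn v l ^ L * M.pp v l

theorem XX_pos (v : AbsoluteValue K ℝ) {l : List Pt} (hl : l.Nodup) : 0 < M.XX v l :=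
  mul_pos (pow_pos (M.nn_pos v l) _) (M.pp_pos v hl)

theorem XX_cons (v : AbsoluteValue K ℝ) (l : List Pt) (P0 Q : Pt) (hl : l.length ≤ L) :
    M.XX v (Q :: l) = M.size v l.length (lp P0 l) Q * M.XX v l := by
  rw [M.size_lp v l P0 Q hl, XX, XX, nn, nn, List.map_cons, List.prod_cons, pp]
  ring

/-- the kernel of the evaluation matrix -/
theorem ker_ev (v : AbsoluteValue K ℝ) (l : List Pt) (P0 : Pt) (hl : l.length + 2 ≤ L)
    (hH : HH v (M.ev l) ≠ 0) (a : κ → K) :
    (M.ev l).mulVec a = 0 ↔ a ∈ M.W l.length (lp P0 l) := by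
  have h1 : M.W l.length (lp P0 l) ≤ LinearMap.ker (M.ev l).mulVecLin := by
    intro a ha
    rw [LinearMap.mem_ker, Matrix.mulVecLin_apply]
    funext j
    have hj : j.val < L := by have := j.2; omega
    have h2 := M.W_eq_zero_of_mem (lp P0 l) ha (m := ⟨j.val, hj⟩) j.2
    have h3 : lp P0 l (⟨j.val, hj⟩ : Fin L) = l.get j := by simp [lp]
    rw [h3] at h2
    exact h2
  have h2 : M.W l.length (lp P0 l) = LinearMap.ker (M.ev l).mulVecLin := by
    apply Submodule.eq_of_le_of_finrank_eq h1
    have h3 := LinearMap.finrank_range_add_finrank_ker (M.ev l).mulVecLin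
    have h4 : Module.finrank K (LinearMap.range (M.ev l).mulVecLin) = l.length := by
      have := ((HH_ne_zero_iff v (M.ev l)).mp hH).rank_matrix
      rw [Fintype.card_fin] at this
      exact this
    rw [h4, Module.finrank_fintype_fun_eq_card] at h3
    have h5 := M.finrank_W' hl (lp P0 l)
    omega
  rw [h2, LinearMap.mem_ker, Matrix.mulVecLin_apply]

theorem HH_ev_cons (v : AbsoluteValue K ℝ) (Q : Pt) (l : List Pt) :
    HH v (M.ev (Q :: l)) = HH v (addRow (M.ev l) (M.E Q)) := by
  classical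
  let e : Fin (Q :: l).length ≃ Fin l.length ⊕ Unit :=
    { toFun := fun j => Fin.cases (Sum.inr ()) (fun i => Sum.inl i) j
      invFun := Sum.elim Fin.succ (fun _ => 0)
      left_inv := by
        intro j
        refine Fin.cases ?_ (fun i => ?_) j <;> simp
      right_inv := by
        rintro (i | i) <;> simp }
  rw [← HH_reindex v (addRow (M.ev l) (M.E Q)) e]
  congr 1
  funext j a
  refine Fin.cases ?_ (fun i => ?_) j
  · simp [ev, addRow, e]
  · simp [ev, addRow, e]

/-- (rho) -/
theorem exists_rho [IsAlgClosed K] [Nonempty Pt] (n : ℕ) (hn : n + 1 ≤ L) :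
    ∃ C : Vf.Λ → ℝ, IsMC C ∧ ∀ (v : Vf.Λ) (l : List Pt), l.Nodup → l.length = n →
      HH (Vf.av v) (M.ev l) ≤ C v * M.XX (Vf.av v) l ∧
      M.XX (Vf.av v) l ≤ C v * HH (Vf.av v) (M.ev l) := by
  classical
  induction n with
  | zero =>
    refine ⟨fun _ => 1, IsMC.one, fun v l _ hl => ?_⟩
    obtain rfl := List.length_eq_zero_iff.mp hl
    have h1 : M.XX (Vf.av v) ([] : List Pt) = 1 := by simp [XX, nn, pp]
    have h2 : HH (Vf.av v) (M.ev ([] : List Pt)) = 1 := by
      unfold HH
      have : ∀ f : Fin ([] : List Pt).length → κ,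
          Vf.av v ((M.ev ([] : List Pt)).submatrix id f).det = 1 := by
        intro f
        have hemp : IsEmpty (Fin ([] : List Pt).length) := ⟨fun i => i.elim0⟩
        have h3 : ((M.ev ([] : List Pt)).submatrix id f).det = 1 := Matrix.det_isEmpty
        rw [h3, map_one]
      simp only [this]
      have hne : Nonempty (Fin ([] : List Pt).length → κ) := ⟨fun i => i.elim0⟩
      exact ciSup_const
    rw [h1, h2]
    norm_num
  | succ n ih =>
    obtain ⟨P0⟩ := ‹Nonempty Pt›
    have hne : Nonempty Pt := ⟨P0⟩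
    obtain ⟨C, hC, hC'⟩ := ih (by omega)
    obtain ⟨C1, hC1, hC1'⟩ := M.exists_S_le Vf n (by omega)
    obtain ⟨C2, hC2, hC2'⟩ := M.exists_S_ge Vf
    refine ⟨fun v => (kap (Vf.av v) (Fintype.card (Equiv.Perm (Fin n ⊕ Unit))) *
        (C1 v * (kap (Vf.av v) 2 * kap (Vf.av v) n)) * C v) *
        (C v * (kap (Vf.av v) (Fintype.card κ) * C2 v)),
      (((Vf.kap_MC _).mul (hC1.mul ((Vf.kap_MC _).mul (Vf.kap_MC _)))).mul hC).mul
        (hC.mul ((Vf.kap_MC _).mul hC2)), fun v l hnd hl => ?_⟩
    obtain ⟨Q, l, rfl⟩ := List.exists_cons_of_length_eq_add_one hl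
    have hlen : l.length = n := by simpa using hl
    subst hlen
    rw [List.nodup_cons] at hnd
    obtain ⟨h1, h2⟩ := hC' v l hnd.2 rfl
    have hXpos := M.XX_pos (Vf.av v) hnd.2
    have hHpos : 0 < HH (Vf.av v) (M.ev l) := by
      by_contra hcon
      have : HH (Vf.av v) (M.ev l) = 0 := le_antisymm (not_lt.mp hcon) (HH_nonneg _ _)
      rw [this, mul_zero] at h2
      linarith
    have hker := M.ker_ev (Vf.av v) l P0 (by omega) hHpos.ne'
    set s := M.size (Vf.av v) l.length (lp P0 l) Q with hs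
    have hs0 : 0 ≤ s := M.size_nonneg _ _ _ _
    rw [HH_ev_cons, M.XX_cons (Vf.av v) l P0 Q (by omega), ← hs]
    set H' := HH (Vf.av v) (addRow (M.ev l) (M.E Q)) with hH'
    have hH'0 : 0 ≤ H' := HH_nonneg _ _
    -- constants
    have c1 := hC.1 v
    have c2 := hC1.1 v
    have c3 := hC2.1 v
    have k1 := one_le_kap (Vf.av v) (Fintype.card (Equiv.Perm (Fin l.length ⊕ Unit)))
    have k2 := one_le_kap (Vf.av v) 2
    have k3 := one_le_kap (Vf.av v) l.length
    have k4 := one_le_kap (Vf.av v) (Fintype.card κ)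
    set A := kap (Vf.av v) (Fintype.card (Equiv.Perm (Fin l.length ⊕ Unit))) *
        (C1 v * (kap (Vf.av v) 2 * kap (Vf.av v) l.length)) * C v with hA
    set B := C v * (kap (Vf.av v) (Fintype.card κ) * C2 v) with hB
    have hA1 : 1 ≤ A := by
      rw [hA]
      refine one_le_mul_of_one_le_of_one_le (one_le_mul_of_one_le_of_one_le k1
        (one_le_mul_of_one_le_of_one_le c2 (one_le_mul_of_one_le_of_one_le k2 k3))) c1
    have hB1 : 1 ≤ B := by
      rw [hB]
      exact one_le_mul_of_one_le_of_one_le c1 (one_le_mul_of_one_le_of_one_le k4 c3)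
    constructor
    · have hup := HH_row_upper (Vf.av v) (M.ev l) (M.E Q) hHpos.ne' (X := C1 v * s)
        (mul_nonneg (hC1.nonneg v) hs0) (fun a B hB0 ha hB => by
          have := hC1' v (lp P0 l) Q a ((hker a).mp ha) B hB0 hB
          rw [← hs] at this
          linarith [this])
      rw [Fintype.card_fin] at hup
      have h3 : kap (Vf.av v) (Fintype.card (Equiv.Perm (Fin l.length ⊕ Unit))) *
          (C1 v * s * (kap (Vf.av v) 2 * kap (Vf.av v) l.length)) * HH (Vf.av v) (M.ev l) ≤
          A * (s * M.XX (Vf.av v) l) := by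
        calc _ ≤ kap (Vf.av v) (Fintype.card (Equiv.Perm (Fin l.length ⊕ Unit))) *
          (C1 v * s * (kap (Vf.av v) 2 * kap (Vf.av v) l.length)) * (C v * M.XX (Vf.av v) l) := by
              refine mul_le_mul_of_nonneg_left h1 ?_
              have := hC1.nonneg v
              positivity
          _ = _ := by rw [hA]; ring
      have hX0 : 0 ≤ s * M.XX (Vf.av v) l := mul_nonneg hs0 hXpos.le
      calc H' ≤ _ := hup
        _ ≤ A * (s * M.XX (Vf.av v) l) := h3
        _ = (A * 1) * (s * M.XX (Vf.av v) l) := by ring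
        _ ≤ (A * B) * (s * M.XX (Vf.av v) l) := by
            refine mul_le_mul_of_nonneg_right ?_ hX0
            exact mul_le_mul_of_nonneg_left hB1 (by linarith)
    · obtain ⟨a, ha, hab, haE⟩ := hC2' v l.length (lp P0 l) Q
      have hlow := HH_row_lower (Vf.av v) (M.ev l) (M.E Q) a ((hker a).mpr ha) (hC2.nonneg v) hab
      rw [haE, ← hs, ← hH'] at hlow
      calc s * M.XX (Vf.av v) l ≤ s * (C v * HH (Vf.av v) (M.ev l)) :=
            mul_le_mul_of_nonneg_left h2 hs0
        _ = C v * (s * HH (Vf.av v) (M.ev l)) := by ring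
        _ ≤ C v * (kap (Vf.av v) (Fintype.card κ) * (C2 v * H')) :=
            mul_le_mul_of_nonneg_left hlow (hC.nonneg v)
        _ = (1 * B) * H' := by rw [hB]; ring
        _ ≤ (A * B) * H' := by
            refine mul_le_mul_of_nonneg_right ?_ hH'0
            exact mul_le_mul_of_nonneg_right hA1 (by linarith)

end PModel

end Fermat.Agent.MW
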