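import Fermat.Agent.MW.Gen
import Fermat.Agent.MW.Rho

/-!
# Mordell-Weil: evaluation functionals, products
-/

set_option autoImplicit false

noncomputable section

namespace Fermat.Agent.MW

open AlgebraicCurve Fermat.Agent.FF WithZero

variable {K F : Type*} [Field K] [Field F] [Algebra K F] [IsAlgClosed K] [FunField K F]
variable [CharZero K]

/-- functions with a pole of order at most `n` at `P0` only -/
abbrev VN (P0 : Place K F) (n : ℕ) : Submodule K F := LL (Finsupp.single P0 (n : ℤ))

theorem VN_mono (P0 : Place K F) {m n : ℕ} (h : m ≤ n) : VN P0 m ≤ VN P0 n := by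
  classical
  apply L_mono
  intro v
  rw [Finsupp.single_apply, Finsupp.single_apply]
  split_ifs
  · exact_mod_cast h
  · exact le_rfl

theorem one_mem_VN (P0 : Place K F) (n : ℕ) : (1 : F) ∈ VN P0 n := by
  have h : (1 : F) ∈ LL (0 : Divisor K F) := by
    rw [show LL (0 : Divisor K F) = Submodule.span K {(1 : F)} from L_zero]
    exact Submodule.mem_span_singleton_self 1
  refine VN_mono P0 (Nat.zero_le n) ?_
  rw [VN, Nat.cast_zero, Finsupp.single_zero]
  exact h

theorem mul_mem_VN {P0 : Place K F} {m n : ℕ} {f g : F} (hf : f ∈ VN P0 m) (hg : g ∈ VN P0 n) :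
    f * g ∈ VN P0 (m + n) := by
  have := mul_mem_L_add hf hg
  rw [← Finsupp.single_add] at this
  rw [VN, Nat.cast_add]
  exact this

theorem exists_exact (P0 : Place K F) {n : ℕ} (hn : 2 * genusFF K F + 1 ≤ n) :
    ∃ f ∈ VN P0 n, P0.adicValuation f = exp (n : ℤ) := by
  obtain ⟨f, hf, h⟩ := exists_avoid (D := Finsupp.single P0 (n : ℤ)) (by
    rw [degree_single_one]; exact_mod_cast hn) {P0} (Set.finite_singleton _)
  refine ⟨f, hf, ?_⟩
  have := h P0 rfl
  rwa [Finsupp.single_eq_same] at this

theorem mem_VN_of_lt {P0 : Place K F} {n : ℕ} {f : F} (hf : f ∈ VN P0 (n + 1))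
    (h : P0.adicValuation f ≤ exp (n : ℤ)) : f ∈ VN P0 n := by
  classical
  intro v
  rw [Finsupp.single_apply]
  split_ifs with hv
  · rw [← hv]; exact h
  · have := hf v
    rwa [Finsupp.single_apply, if_neg hv] at this

theorem VN_mul (P0 : Place K F) {a b : ℕ} (ha : 4 * genusFF K F + 2 ≤ a)
    (hb : 4 * genusFF K F + 2 ≤ b) : VN P0 a * VN P0 b = VN P0 (a + b) := by
  apply le_antisymm
  · rw [Submodule.mul_le]
    exact fun f hf g hg => mul_mem_VN hf hg
  · suffices h : ∀ n, n ≤ a + b → VN P0 n ≤ VN P0 a * VN P0 b from h _ le_rfl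
    intro n
    induction n with
    | zero =>
      intro _ f hf
      rw [← mul_one f]
      exact Submodule.mul_mem_mul (VN_mono P0 (Nat.zero_le _) hf) (one_mem_VN P0 b)
    | succ n ih =>
      intro hn
      by_cases hna : n + 1 ≤ a
      · intro f hf
        rw [← mul_one f]
        exact Submodule.mul_mem_mul (VN_mono P0 hna hf) (one_mem_VN P0 b)
      · obtain ⟨s, t, hst, hs, ht, hs', ht'⟩ : ∃ s t : ℕ, s + t = n + 1 ∧ s ≤ a ∧ t ≤ b ∧
            2 * genusFF K F + 1 ≤ s ∧ 2 * genusFF K F + 1 ≤ t := by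
          by_cases h : 2 * genusFF K F + 1 ≤ n + 1 - a
          · exact ⟨a, n + 1 - a, by omega, by omega, by omega, by omega, by omega⟩
          · exact ⟨n + 1 - (2 * genusFF K F + 1), 2 * genusFF K F + 1, by omega, by omega,
              by omega, by omega, by omega⟩
        obtain ⟨fs, hfs, hfs'⟩ := exists_exact P0 hs'
        obtain ⟨ft, hft, hft'⟩ := exists_exact P0 ht'
        have hmem : fs * ft ∈ VN P0 a * VN P0 b :=
          Submodule.mul_mem_mul (VN_mono P0 hs hfs) (VN_mono P0 ht hft)
        have hmem' : fs * ft ∈ VN P0 (n + 1) := by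
          rw [← hst]; exact mul_mem_VN hfs hft
        have hval : P0.adicValuation (fs * ft) = exp ((n : ℤ) + 1) := by
          rw [map_mul, hfs', hft', ← exp_add]
          congr 1
          exact_mod_cast hst
        intro f hf
        have hf1 : P0.adicValuation f ≤ exp ((n : ℤ) + 1) := by
          have := hf P0
          rw [Finsupp.single_eq_same] at this
          exact_mod_cast this
        obtain ⟨c, hc⟩ := exists_sub_smul hf1 hval
        have h1 : f - c • (fs * ft) ∈ VN P0 n :=
          mem_VN_of_lt (Submodule.sub_mem _ hf (Submodule.smul_mem _ _ hmem')) hc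
        have h2 := ih (by omega) h1
        have h3 : f = (f - c • (fs * ft)) + c • (fs * ft) := by ring
        rw [h3]
        exact Submodule.add_mem _ h2 (Submodule.smul_mem _ _ hmem)

theorem VN_zero (P0 : Place K F) : VN P0 0 = 1 := by
  rw [VN, Nat.cast_zero, Finsupp.single_zero, show LL (0 : Divisor K F) = Submodule.span K {(1 : F)}
    from L_zero, Submodule.one_eq_span]

theorem VN_pow (P0 : Place K F) {a : ℕ} (ha : 4 * genusFF K F + 2 ≤ a) (m : ℕ) :
    VN P0 a ^ m = VN P0 (m * a) := by
  induction m with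
  | zero => rw [pow_zero, zero_mul, VN_zero]
  | succ m ih =>
    rcases Nat.eq_zero_or_pos m with rfl | hm
    · simp
    · rw [pow_succ, ih, VN_mul P0 (by nlinarith) ha, Nat.succ_mul]

/-- the space for a slot -/
def slotSp (P0 : Place K F) (N0 : ℕ) {L : ℕ} (A : Finset (Fin L)) (P : Fin L → Place K F)
    (m : Fin L) : Submodule K F :=
  if m ∈ A then LL (Finsupp.single P0 (N0 : ℤ) - Finsupp.single (P m) 1) else VN P0 N0

theorem prod_slotSp (P0 : Place K F) {N0 : ℕ} (hN0 : 4 * genusFF K F + 2 ≤ N0) {L : ℕ}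
    (A : Finset (Fin L)) (hA : A.card + 2 ≤ L) (P : Fin L → Place K F) :
    ∏ m, slotSp P0 N0 A P m =
      LL (Finsupp.single P0 ((L * N0 : ℕ) : ℤ) - ∑ m ∈ A, Finsupp.single (P m) 1) := by
  classical
  rw [← Finset.prod_mul_prod_compl A]
  have h1 : ∏ m ∈ Aᶜ, slotSp P0 N0 A P m = VN P0 ((L - A.card) * N0) := by
    have : ∀ m ∈ Aᶜ, slotSp P0 N0 A P m = VN P0 N0 := fun m hm => by
      rw [slotSp, if_neg (Finset.mem_compl.mp hm)]
    rw [Finset.prod_congr rfl this, Finset.prod_const, Finset.card_compl, Fintype.card_fin,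
      VN_pow P0 hN0]
  rw [h1, mul_comm]
  have key : ∀ T : Finset (Fin L), T ⊆ A →
      VN P0 ((L - A.card) * N0) * ∏ m ∈ T, slotSp P0 N0 A P m =
      LL (Finsupp.single P0 (((L - A.card + T.card) * N0 : ℕ) : ℤ) -
        ∑ m ∈ T, Finsupp.single (P m) 1) := by
    intro T
    induction T using Finset.induction_on with
    | empty => intro _; simp [VN]
    | insert m T hm ih =>
      intro hT
      have hmA : m ∈ A := hT (Finset.mem_insert_self _ _)
      have hTA : T ⊆ A := fun x hx => hT (Finset.mem_insert_of_mem hx)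
      have hcardT : T.card + 1 ≤ A.card := by
        rw [← Finset.card_insert_of_notMem hm]
        exact Finset.card_le_card hT
      rw [Finset.prod_insert hm, mul_comm (slotSp P0 N0 A P m), ← mul_assoc, ih hTA]
      rw [slotSp, if_pos hmA]
      have hdeg : Divisor.degree (∑ m ∈ T, Finsupp.single (P m) (1 : ℤ) : Divisor K F) = T.card := by
        rw [map_sum]
        simp only [degree_single_one]
        simp
      have hLA : 2 ≤ L - A.card := by omega
      have hN0' : ((L - A.card + T.card) * N0 : ℕ) ≥ 2 * N0 + T.card * N0 := by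
        have : (L - A.card + T.card) * N0 ≥ (2 + T.card) * N0 := Nat.mul_le_mul_right _ (by omega)
        linarith [add_mul 2 T.card N0]
      have hTN : T.card ≤ T.card * N0 := Nat.le_mul_of_pos_right _ (by omega)
      rw [LL_mul]
      · congr 1
        rw [Finset.sum_insert hm, Finset.card_insert_of_notMem hm]
        have : (((L - A.card + (T.card + 1)) * N0 : ℕ) : ℤ) =
          (((L - A.card + T.card) * N0 : ℕ) : ℤ) + (N0 : ℤ) := by
          push_cast; ring
        rw [this, Finsupp.single_add]
        abel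
      · rw [map_sub, degree_single_one, degree_single_one]
        omega
      · rw [map_sub, map_sub, degree_single_one, degree_single_one, degree_single_one, hdeg]
        have h5 : (2 * (N0 : ℤ) + T.card * N0) ≤ (((L - A.card + T.card) * N0 : ℕ) : ℤ) := by
          exact_mod_cast hN0'
        have h6 : (T.card : ℤ) ≤ T.card * N0 := by exact_mod_cast hTN
        omega
  rw [key A (Finset.Subset.refl A)]
  have : L - A.card + A.card = L := by omega
  rw [this]

section Eval

variable (P0 : Place K F) (t : F)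

open scoped Classical in
/-- local twist -/
def tau (P : Place K F) : F := if P = P0 then t else 1

/-- evaluation at level `N` -/
def evv (N : ℕ) (P : Place K F) (f : F) : K := val P (f * tau P0 t P ^ N)

variable {P0 t} (ht : P0.adicValuation t = exp (-1 : ℤ))

include ht

theorem val_tau_pow (N : ℕ) (P : Place K F) :
    P.adicValuation (tau P0 t P ^ N) = exp (-(Finsupp.single P0 (N : ℤ) : Divisor K F) P) := by
  unfold tau
  split_ifs with h
  · subst h
    rw [map_pow, ht, Finsupp.single_eq_same, ← exp_nsmul]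
    simp
  · rw [one_pow, map_one, Finsupp.single_eq_of_ne h, neg_zero, exp_zero]

theorem tau_le {N : ℕ} {P : Place K F} {f : F} (hf : f ∈ VN P0 N) :
    P.adicValuation (f * tau P0 t P ^ N) ≤ 1 := by
  rw [map_mul, val_tau_pow ht, ← exp_zero]
  calc P.adicValuation f * exp (-(Finsupp.single P0 (N : ℤ) : Divisor K F) P) ≤
      exp ((Finsupp.single P0 (N : ℤ) : Divisor K F) P) *
        exp (-(Finsupp.single P0 (N : ℤ) : Divisor K F) P) := mul_le_mul' (hf P) le_rfl
    _ = exp 0 := by rw [← exp_add, add_neg_cancel]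

theorem evv_add {N : ℕ} (P : Place K F) {f g : F} (hf : f ∈ VN P0 N) (hg : g ∈ VN P0 N) :
    evv P0 t N P (f + g) = evv P0 t N P f + evv P0 t N P g := by
  unfold evv
  rw [add_mul, val_add (tau_le ht hf) (tau_le ht hg)]

theorem evv_smul {N : ℕ} (P : Place K F) (c : K) {f : F} (hf : f ∈ VN P0 N) :
    evv P0 t N P (c • f) = c * evv P0 t N P f := by
  unfold evv
  rw [smul_mul_assoc, val_smul c (tau_le ht hf)]

theorem evv_mul {N M : ℕ} (P : Place K F) {f g : F} (hf : f ∈ VN P0 N) (hg : g ∈ VN P0 M) :
    evv P0 t (N + M) P (f * g) = evv P0 t N P f * evv P0 t M P g := by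
  unfold evv
  rw [← val_mul (tau_le ht hf) (tau_le ht hg)]
  congr 1
  rw [pow_add]
  ring

theorem evv_zero' (N : ℕ) (P : Place K F) : evv P0 t N P (0 : F) = 0 := by
  have := evv_smul ht P 0 (Submodule.zero_mem (VN P0 N))
  simpa using this

theorem evv_ne_zero_iff {N : ℕ} {P : Place K F} {f : F} (hf : f ∈ VN P0 N) :
    evv P0 t N P f ≠ 0 ↔ P.adicValuation f = exp ((Finsupp.single P0 (N : ℤ) : Divisor K F) P) := by
  unfold evv
  rw [val_ne_zero_iff (tau_le ht hf), map_mul, val_tau_pow ht, exp_neg]
  rw [mul_inv_eq_one₀ exp_ne_zero]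

theorem evv_eq_zero_iff {N : ℕ} {P : Place K F} {f : F} (hf : f ∈ VN P0 N) :
    evv P0 t N P f = 0 ↔ f ∈ LL (Finsupp.single P0 (N : ℤ) - Finsupp.single P 1) := by
  rw [mem_LL_sub_single hf]
  constructor
  · intro h
    refine lt_of_le_of_ne (hf P) fun h' => ?_
    exact (evv_ne_zero_iff ht hf).mpr h' h
  · intro h
    by_contra hcon
    exact h.ne ((evv_ne_zero_iff ht hf).mp hcon)

/-- linear version -/
def evL (N : ℕ) (P : Place K F) : VN P0 N →ₗ[K] K where
  toFun f := evv P0 t N P f
  map_add' f g := evv_add ht P f.2 g.2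
  map_smul' c f := evv_smul ht P c f.2

end Eval

end Fermat.Agent.MW
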