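import Fermat.Agent.MW.Model

/-!
# Mordell-Weil: the estimates (S)
-/

set_option autoImplicit false

noncomputable section

namespace Fermat.Agent.MW

open Finset Filter

namespace PModel

variable {K : Type*} [Field K] {Pt ι κ : Type*} [Fintype ι] [DecidableEq ι] [Fintype κ]
    {L : ℕ} (M : PModel K Pt ι κ L) (Vf : AVF K)

theorem exists_VV_le : ∃ C : Vf.Λ → ℝ, IsMC C ∧ ∀ v (A : Finset (Fin L)) (z : Fin L → ι → K)
    (α : Fin L → ι × ι) (a : κ), (∀ m i, Vf.av v (z m i) ≤ 1) →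
    Vf.av v (VV M.c A z α a) ≤ C v := by
  obtain ⟨C, hC, hC2⟩ := Vf.exists_bound (fun p : (Fin L → ι) × κ => M.c p.1 p.2)
  refine ⟨fun v => kap (Vf.av v) (Fintype.card (Fin L → ι)) * (kap (Vf.av v) 2 ^ L * C v),
    (Vf.kap_MC _).mul (((Vf.kap_MC _).pow _).mul hC), fun v A z α a hz => ?_⟩
  have hk2 := kap_pos (Vf.av v) 2
  unfold VV pv
  refine abv_sum_univ_le _ _ (mul_nonneg (pow_nonneg hk2.le _) (hC.nonneg v)) fun s => ?_
  rw [(Vf.av v).map_mul, map_prod]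
  refine mul_le_mul ?_ ?_ ((Vf.av v).nonneg _) (pow_nonneg hk2.le _)
  · calc ∏ m, Vf.av v (slotVec A z α m (s m)) ≤ ∏ _m : Fin L, kap (Vf.av v) 2 := by
          refine Finset.prod_le_prod (fun _ _ => (Vf.av v).nonneg _) fun m _ => ?_
          unfold slotVec
          have h1 : ∀ (x : K) (q : Prop) [Decidable q], Vf.av v x ≤ 1 →
              Vf.av v (x * (if q then 1 else 0)) ≤ 1 := by
            intro x q _ hx
            split_ifs
            · rwa [mul_one]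
            · rw [mul_zero, map_zero]; exact zero_le_one
          by_cases h : m ∈ A
          · rw [if_pos h]
            have := abv_sub_le (Vf.av v) zero_le_one (h1 (z m (α m).2) (s m = (α m).1) (hz _ _))
              (h1 (z m (α m).1) (s m = (α m).2) (hz _ _))
            rwa [mul_one] at this
          · rw [if_neg h]
            split_ifs
            · rw [map_one]; exact one_le_kap _ _
            · rw [map_zero]; exact hk2.le
      _ = kap (Vf.av v) 2 ^ L := by rw [Finset.prod_const, Finset.card_univ, Fintype.card_fin]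
  · exact hC2 (s, a) v

theorem VV_zz_mem (k : ℕ) (P : Fin L → Pt) (i0 : Fin L → ι) (α : Fin L → ι × ι) :
    VV M.c (act L k) (M.zz k P i0) α ∈ M.W k P := by
  have h := VV_smul M.c (act L k) (M.zz k P i0) (fun m => M.e (P m))
    (fun m => (M.e (P m) (i0 m))⁻¹) (fun m hm => by simp [zz, hm]) α
  rw [h]
  exact Submodule.smul_mem _ _ (Submodule.subset_span ⟨α, rfl⟩)

theorem zz_le {v : AbsoluteValue K ℝ} {k : ℕ} {P : Fin L → Pt} {i0 : Fin L → ι}
    (h0 : ∀ m, v (M.e (P m) (i0 m)) = nrm v (M.e (P m))) (m : Fin L) (i : ι) :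
    v (M.zz k P i0 m i) ≤ 1 := by
  unfold zz
  split_ifs with h
  · rw [Pi.smul_apply, smul_eq_mul, v.map_mul, map_inv₀, h0 m]
    have h1 := nrm_pos v (M.e_ne (P m))
    rw [inv_mul_le_iff₀ h1, mul_one]
    exact le_nrm _ _ _
  · simp

theorem exists_i0 (v : AbsoluteValue K ℝ) (P : Fin L → Pt) :
    ∃ i0 : Fin L → ι, ∀ m, v (M.e (P m) (i0 m)) = nrm v (M.e (P m)) := by
  choose i0 h using fun m => exists_eq_nrm v (M.e_ne (P m))
  exact ⟨i0, h⟩

/-- factors -/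
def fac (v : AbsoluteValue K ℝ) (k : ℕ) (P : Fin L → Pt) (Q : Pt) (m : Fin L) : ℝ :=
  if m ∈ act L k then nrm v (M.e Q) * M.dist v (P m) Q else nrm v (M.e Q)

theorem prod_fac (v : AbsoluteValue K ℝ) (k : ℕ) (P : Fin L → Pt) (Q : Pt) :
    ∏ m, M.fac v k P Q m = M.size v k P Q := by
  have h : ∀ m, M.fac v k P Q m =
      nrm v (M.e Q) * (if m ∈ act L k then M.dist v (P m) Q else 1) := by
    intro m
    unfold fac
    split_ifs <;> simp
  simp only [h]
  rw [Finset.prod_mul_distrib, Finset.prod_const, Finset.card_univ, Fintype.card_fin,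
    Finset.prod_ite_mem, Finset.univ_inter]
  rfl

theorem abv_factor {v : AbsoluteValue K ℝ} {k : ℕ} {P : Fin L → Pt} {i0 : Fin L → ι}
    (h0 : ∀ m, v (M.e (P m) (i0 m)) = nrm v (M.e (P m))) (Q : Pt) (m : Fin L)
    (hm : m ∈ act L k) (p : ι × ι) :
    v (M.zz k P i0 m p.2 * M.e Q p.1 - M.zz k P i0 m p.1 * M.e Q p.2) =
      (nrm v (M.e (P m)))⁻¹ * v (M.e (P m) p.2 * M.e Q p.1 - M.e (P m) p.1 * M.e Q p.2) := by
  have : M.zz k P i0 m p.2 * M.e Q p.1 - M.zz k P i0 m p.1 * M.e Q p.2 =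
      (M.e (P m) (i0 m))⁻¹ * (M.e (P m) p.2 * M.e Q p.1 - M.e (P m) p.1 * M.e Q p.2) := by
    simp only [zz, if_pos hm, Pi.smul_apply, smul_eq_mul]
    ring
  rw [this, v.map_mul, map_inv₀, h0 m]

theorem inv_mul_ddv (v : AbsoluteValue K ℝ) (P Q : Pt) :
    (nrm v (M.e P))⁻¹ * ddv v (M.e P) (M.e Q) = nrm v (M.e Q) * M.dist v P Q := by
  rw [M.ddv_eq]
  have h1 := nrm_pos v (M.e_ne P)
  field_simp

theorem dot_VV_le {v : AbsoluteValue K ℝ} {k : ℕ} {P : Fin L → Pt} {i0 : Fin L → ι}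
    (h0 : ∀ m, v (M.e (P m) (i0 m)) = nrm v (M.e (P m))) (Q : Pt) (α : Fin L → ι × ι) :
    v (M.E Q ⬝ᵥ VV M.c (act L k) (M.zz k P i0) α) ≤ M.size v k P Q := by
  rw [M.dot_VV, ← M.prod_fac]
  refine abv_prod_le v _ _ _ fun m _ => ?_
  unfold fac
  split_ifs with hm
  · rw [M.abv_factor h0 Q m hm, ← M.inv_mul_ddv]
    exact mul_le_mul_of_nonneg_left (le_ddv _ _ _ _ _) (inv_nonneg.mpr (nrm_nonneg _ _))
  · exact le_nrm _ _ _

/-- (S), upper bound -/
theorem exists_S_le [IsAlgClosed K] [Nonempty Pt] (k : ℕ) (hk : k + 2 ≤ L) :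
    ∃ C : Vf.Λ → ℝ, IsMC C ∧ ∀ (v : Vf.Λ) (P : Fin L → Pt) (Q : Pt) (a : κ → K),
      a ∈ M.W k P → ∀ B : ℝ, 0 ≤ B → (∀ j, Vf.av v (a j) ≤ B) →
      Vf.av v (M.E Q ⬝ᵥ a) ≤ C v * (M.size (Vf.av v) k P Q * B) := by
  classical
  obtain ⟨C1, hC1, hC1'⟩ := M.exists_minor Vf k hk
  obtain ⟨C2, hC2, hC2'⟩ := M.exists_VV_le Vf
  set δ := Fintype.card κ - k with hδ
  refine ⟨fun v => kap (Vf.av v) δ * (C1 v * (kap (Vf.av v) δ *
    (kap (Vf.av v) (Fintype.card (Equiv.Perm (Fin δ))) * C2 v ^ δ))),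
    (Vf.kap_MC _).mul (hC1.mul ((Vf.kap_MC _).mul ((Vf.kap_MC _).mul (hC2.pow _)))),
    fun v P Q a ha B hB0 hB => ?_⟩
  obtain ⟨i0, h0⟩ := M.exists_i0 (Vf.av v) P
  obtain ⟨α, b, hab⟩ := hC1' v P i0 h0
  set D : Matrix (Fin δ) (Fin δ) K := Matrix.of fun r s =>
    VV M.c (act L k) (M.zz k P i0) (α r) (b s) with hD
  have hdet : D.det ≠ 0 := by
    intro h
    rw [h, map_zero, mul_zero] at hab
    exact absurd hab (by norm_num)
  let w : Fin δ → κ → K := fun r => VV M.c (act L k) (M.zz k P i0) (α r)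
  have hw : LinearIndependent K w :=
    row_linearIndependent_of_det_ne_zero (Matrix.of w) b hdet
  have hspan : Submodule.span K (Set.range w) = M.W k P := by
    apply Submodule.eq_of_le_of_finrank_eq
    · refine Submodule.span_le.mpr ?_
      rintro _ ⟨r, rfl⟩
      exact M.VV_zz_mem k P i0 _
    · rw [finrank_span_eq_card hw, Fintype.card_fin]
      have := M.finrank_W' hk P
      omega
  rw [← hspan, Submodule.mem_span_range_iff_exists_fun] at ha
  obtain ⟨x, hx⟩ := ha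
  have hxD : Matrix.vecMul x D = fun s => a (b s) := by
    funext s
    rw [← hx]
    simp only [Matrix.vecMul, dotProduct, hD, Matrix.of_apply, Finset.sum_apply, Pi.smul_apply,
      smul_eq_mul, w]
  have hxb := abv_solve_le (Vf.av v) D (hC2.1 v) (hC1.nonneg v) hB0
    (fun r s => hC2' v _ _ _ _ (fun m i => M.zz_le h0 m i)) hab x _ hxD (fun s => hB _)
  rw [Fintype.card_fin] at hxb
  have hEa : M.E Q ⬝ᵥ a = ∑ r, x r * (M.E Q ⬝ᵥ w r) := by
    rw [← hx, dotProduct_sum]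
    refine Finset.sum_congr rfl fun r _ => ?_
    rw [dotProduct_smul, smul_eq_mul]
  have hks : 0 ≤ M.size (Vf.av v) k P Q := M.size_nonneg _ _ _ _
  have hpos1 := hC1.pos v
  have hpos2 := hC2.pos v
  have hk1 := kap_pos (Vf.av v) δ
  have hk2 := kap_pos (Vf.av v) (Fintype.card (Equiv.Perm (Fin δ)))
  rw [hEa]
  refine (abv_sum_univ_le (Vf.av v) _ (B := (C1 v * (kap (Vf.av v) δ *
    (kap (Vf.av v) (Fintype.card (Equiv.Perm (Fin δ))) * C2 v ^ δ * B))) *
      M.size (Vf.av v) k P Q) (by positivity) fun r => ?_).trans_eq ?_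
  · rw [(Vf.av v).map_mul]
    exact mul_le_mul (hxb r) (M.dot_VV_le h0 Q (α r)) ((Vf.av v).nonneg _) (by positivity)
  · rw [Fintype.card_fin]
    ring

/-- (S), lower bound -/
theorem exists_S_ge : ∃ C : Vf.Λ → ℝ, IsMC C ∧ ∀ (v : Vf.Λ) (k : ℕ) (P : Fin L → Pt) (Q : Pt),
      ∃ a ∈ M.W k P, (∀ j, Vf.av v (a j) ≤ C v) ∧
      Vf.av v (M.E Q ⬝ᵥ a) = M.size (Vf.av v) k P Q := by
  classical
  obtain ⟨C2, hC2, hC2'⟩ := M.exists_VV_le Vf
  refine ⟨C2, hC2, fun v k P Q => ?_⟩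
  obtain ⟨i0, h0⟩ := M.exists_i0 (Vf.av v) P
  have : Nonempty ι := M.nonempty_ι Q
  choose p hp using fun m => exists_eq_ddv (Vf.av v) (M.e (P m)) (M.e Q)
  obtain ⟨i1, hi1⟩ := exists_eq_nrm (Vf.av v) (M.e_ne Q)
  let α : Fin L → ι × ι := fun m => if m ∈ act L k then p m else (i1, i1)
  refine ⟨VV M.c (act L k) (M.zz k P i0) α, M.VV_zz_mem k P i0 α,
    fun j => hC2' v _ _ _ _ (fun m i => M.zz_le h0 m i), ?_⟩
  rw [M.dot_VV, map_prod, ← M.prod_fac]
  refine Finset.prod_congr rfl fun m _ => ?_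
  unfold fac
  split_ifs with hm
  · have hα : α m = p m := by simp [α, hm]
    rw [hα, M.abv_factor h0 Q m hm, hp, M.inv_mul_ddv]
  · have hα : α m = (i1, i1) := by simp [α, hm]
    rw [hα, hi1]

end PModel

end Fermat.Agent.MW
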