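import Fermat.Agent.MW.Curve
import Fermat.Agent.MW.Model2

/-!
# Mordell-Weil: the projective model attached to a point and a uniformizer
-/

set_option autoImplicit false
set_option linter.unusedSectionVars false

noncomputable section

namespace Fermat.Agent.MW

open AlgebraicCurve Fermat.Agent.FF WithZero

variable {K F : Type*} [Field K] [Field F] [Algebra K F] [IsAlgClosed K] [FunField K F]
variable [CharZero K]

/-- evaluation of polynomials at a place -/
theorem val_aeval {σ : Type*} (P : Place K F) (x : σ → F) (hx : ∀ i, P.adicValuation (x i) ≤ 1)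
    (p : MvPolynomial σ K) : P.adicValuation (MvPolynomial.aeval x p) ≤ 1 ∧
      val P (MvPolynomial.aeval x p) = MvPolynomial.eval (fun i => val P (x i)) p := by
  induction p using MvPolynomial.induction_on with
  | C a =>
    rw [MvPolynomial.aeval_C, MvPolynomial.eval_C, val_algebraMap]
    exact ⟨P.adicValuation_algebraMap_le_one a, rfl⟩
  | add p q hp hq =>
    rw [map_add (MvPolynomial.aeval x), map_add (MvPolynomial.eval _), val_add hp.1 hq.1, hp.2,
      hq.2]
    exact ⟨(Valuation.map_add _ _ _).trans (max_le hp.1 hq.1), rfl⟩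
  | mul_X p i hp =>
    rw [map_mul (MvPolynomial.aeval x), map_mul (MvPolynomial.eval _), MvPolynomial.aeval_X,
      MvPolynomial.eval_X, val_mul hp.1 (hx i), hp.2]
    refine ⟨?_, rfl⟩
    rw [map_mul]
    exact mul_le_one' hp.1 (hx i)

/-- existence of a place with given values -/
theorem exists_place_of_point {σ : Type*} (x : σ → F) (z : σ → K)
    (hz : ∀ p : MvPolynomial σ K, MvPolynomial.aeval x p = 0 → MvPolynomial.eval z p = 0)
    (hnc : ∃ i, x i ∉ (algebraMap K F).range) :
    ∃ w : Place K F, ∀ i, w.adicValuation (x i) ≤ 1 ∧ val w (x i) = z i := by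
  let S : Subring F := (MvPolynomial.aeval x : MvPolynomial σ K →ₐ[K] F).range.toSubring
  let φ : MvPolynomial σ K →+* S :=
    (MvPolynomial.aeval x : MvPolynomial σ K →ₐ[K] F).toRingHom.codRestrict S (fun G => ⟨G, rfl⟩)
  let J : Ideal (MvPolynomial σ K) := RingHom.ker (MvPolynomial.eval z)
  have hφ : Function.Surjective φ := by
    rintro ⟨_, G, rfl⟩
    exact ⟨G, rfl⟩
  have hJ : J.map φ ≠ ⊤ := by
    rw [Ne, Ideal.eq_top_iff_one, Ideal.mem_map_iff_of_surjective φ hφ]
    rintro ⟨G, hG, hG1⟩
    have h1 : MvPolynomial.aeval x (G - 1) = 0 := by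
      rw [map_sub, map_one, sub_eq_zero]
      exact congrArg Subtype.val hG1
    have h2 := hz _ h1
    have h3 : MvPolynomial.eval z G = 0 := hG
    rw [map_sub, h3, map_one, zero_sub, neg_eq_zero] at h2
    exact one_ne_zero h2
  obtain ⟨V, hSV, hIV⟩ := Ideal.image_subset_nonunits_valuationSubring (A := S) (J.map φ) hJ
  have hmemV : ∀ G : MvPolynomial σ K, MvPolynomial.aeval x G ∈ V := fun G => hSV ⟨G, rfl⟩
  have hnon : ∀ G : MvPolynomial σ K, MvPolynomial.eval z G = 0 →
      MvPolynomial.aeval x G ∈ V.nonunits := by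
    intro G hG
    apply hIV
    exact ⟨φ G, Ideal.mem_map_of_mem φ hG, rfl⟩
  have hK : ∀ c : K, algebraMap K F c ∈ V := by
    intro c
    have := hmemV (MvPolynomial.C c)
    rwa [MvPolynomial.aeval_C] at this
  have hnon' : ∀ i, x i - algebraMap K F (z i) ∈ V.nonunits := by
    intro i
    have := hnon (MvPolynomial.X i - MvPolynomial.C (z i)) (by simp)
    rwa [map_sub, MvPolynomial.aeval_X, MvPolynomial.aeval_C] at this
  obtain ⟨i0, hi0⟩ := hnc
  have hne0 : x i0 - algebraMap K F (z i0) ≠ 0 := by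
    intro h
    exact hi0 ⟨z i0, (sub_eq_zero.mp h).symm⟩
  have hne : V ≠ ⊤ := by
    intro h
    have h1 := hnon' i0
    rw [ValuationSubring.mem_nonunits_iff_exists_mem_maximalIdeal] at h1
    obtain ⟨hmem, hmax⟩ := h1
    have hu : IsUnit (⟨x i0 - algebraMap K F (z i0), hmem⟩ : V) := by
      refine isUnit_iff_exists_inv.mpr ⟨⟨(x i0 - algebraMap K F (z i0))⁻¹, by rw [h]; trivial⟩, ?_⟩
      exact Subtype.ext (mul_inv_cancel₀ hne0)
    exact (IsLocalRing.mem_maximalIdeal _).mp hmax hu
  let w := placeOf V hK hne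
  have hle : ∀ f : F, f ∈ V → w.adicValuation f ≤ 1 := fun f hf => (mem_iff_val_le_one w f).mp hf
  have hlt : ∀ f : F, f ∈ V.nonunits → w.adicValuation f < 1 := by
    intro f hf
    rw [ValuationSubring.mem_nonunits_iff_exists_mem_maximalIdeal] at hf
    obtain ⟨hmem, hmax⟩ := hf
    refine lt_of_le_of_ne (hle f hmem) fun h1 => ?_
    have h2 : IsUnit (⟨f, hmem⟩ : w.toValuationSubring) :=
      (w.adicValuation_coe_eq_one_iff ⟨f, hmem⟩).mp h1
    exact (IsLocalRing.mem_maximalIdeal _).mp hmax h2
  refine ⟨w, fun i => ⟨hle _ ?_, val_eq_of_lt (hlt _ (hnon' i))⟩⟩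
  have := hmemV (MvPolynomial.X i)
  rwa [MvPolynomial.aeval_X] at this

section Homog

variable {R : Type*} [CommRing R] {σ : Type*}

/-- homogenization with respect to the variable `i0` -/
def hmg (i0 : σ) (p : MvPolynomial σ R) : MvPolynomial σ R :=
  ∑ s ∈ p.support, MvPolynomial.monomial s (p.coeff s) *
    MvPolynomial.X i0 ^ (p.totalDegree - s.degree)

theorem hmg_isHomogeneous (i0 : σ) (p : MvPolynomial σ R) :
    (hmg i0 p).IsHomogeneous p.totalDegree := by
  unfold hmg
  apply MvPolynomial.IsHomogeneous.sum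
  intro s hs
  have h1 : s.degree ≤ p.totalDegree := by
    exact MvPolynomial.le_totalDegree hs
  have h2 := (MvPolynomial.isHomogeneous_monomial (p.coeff s) (n := s.degree) rfl).mul
    ((MvPolynomial.isHomogeneous_X R i0).pow (p.totalDegree - s.degree))
  convert h2 using 1
  omega

theorem aeval_hmg {A : Type*} [CommRing A] [Algebra R A] (i0 : σ) (p : MvPolynomial σ R)
    (x y : σ → A) (hxy : ∀ i, x i = y i * x i0) :
    MvPolynomial.aeval x (hmg i0 p) = x i0 ^ p.totalDegree * MvPolynomial.aeval y p := by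
  have h0 : MvPolynomial.aeval y p =
      ∑ s ∈ p.support, MvPolynomial.aeval y (MvPolynomial.monomial s (p.coeff s)) := by
    rw [← map_sum, ← MvPolynomial.as_sum p]
  unfold hmg
  rw [map_sum, h0, Finset.mul_sum]
  refine Finset.sum_congr rfl fun s hs => ?_
  have h1 : s.degree ≤ p.totalDegree := by
    exact MvPolynomial.le_totalDegree hs
  rw [map_mul, map_pow, MvPolynomial.aeval_X, MvPolynomial.aeval_monomial,
    MvPolynomial.aeval_monomial]
  have h2 : (s.prod fun i k => x i ^ k) = (s.prod fun i k => y i ^ k) * x i0 ^ s.degree := by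
    rw [Finsupp.degree_apply, ← Finset.prod_pow_eq_pow_sum]
    unfold Finsupp.prod
    rw [← Finset.prod_mul_distrib]
    refine Finset.prod_congr rfl fun i _ => ?_
    rw [← mul_pow, ← hxy]
  rw [h2]
  have h3 : x i0 ^ p.totalDegree = x i0 ^ s.degree * x i0 ^ (p.totalDegree - s.degree) := by
    rw [← pow_add]; congr 1; omega
  rw [h3]
  ring

end Homog

end Fermat.Agent.MW
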