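import Fermat.Agent.MW.Curve2

/-!
# Mordell-Weil: the projective model attached to a point and a uniformizer
-/

set_option autoImplicit false
set_option linter.unusedSectionVars false

noncomputable section

namespace Fermat.Agent.MW

open AlgebraicCurve Fermat.Agent.FF WithZero

variable {K F : Type*} [Field K] [Field F] [Algebra K F] [IsAlgClosed K] [FunField K F]
variable [CharZero K]

theorem aeval_mul_homog {R A σ : Type*} [CommRing R] [CommRing A] [Algebra R A]
    {r : MvPolynomial σ R} {d : ℕ} (hr : r.IsHomogeneous d) (x : σ → A) (y : A) :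
    MvPolynomial.aeval (fun i => y * x i) r = y ^ d * MvPolynomial.aeval x r := by
  have h0 : ∀ x : σ → A, MvPolynomial.aeval x r =
      ∑ s ∈ r.support, MvPolynomial.aeval x (MvPolynomial.monomial s (r.coeff s)) := by
    intro x
    rw [← map_sum, ← MvPolynomial.as_sum r]
  rw [h0, h0, Finset.mul_sum]
  refine Finset.sum_congr rfl fun s hs => ?_
  rw [MvPolynomial.aeval_monomial, MvPolynomial.aeval_monomial]
  have h2 : (s.prod fun i k => (y * x i) ^ k) = y ^ s.degree * (s.prod fun i k => x i ^ k) := by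
    rw [Finsupp.degree_apply, ← Finset.prod_pow_eq_pow_sum]
    unfold Finsupp.prod
    rw [← Finset.prod_mul_distrib]
    exact Finset.prod_congr rfl fun i _ => mul_pow _ _ _
  have h3 : s.degree = d := by
    by_contra h
    exact (MvPolynomial.mem_support_iff.mp hs) (hr.coeff_eq_zero h)
  rw [h2, h3]
  ring

theorem prod_mem_VN' (P0 : Place K F) {N0 : ℕ} {σ : Type*} (s : Finset σ) (f : σ → F)
    (hf : ∀ m ∈ s, f m ∈ VN P0 N0) : ∏ m ∈ s, f m ∈ VN P0 (s.card * N0) := by
  classical
  induction s using Finset.induction_on with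
  | empty => simpa using one_mem_VN P0 0
  | insert m s hm ih =>
    rw [Finset.prod_insert hm, Finset.card_insert_of_notMem hm, add_mul, one_mul, add_comm]
    exact mul_mem_VN (hf m (Finset.mem_insert_self _ _))
      (ih fun x hx => hf x (Finset.mem_insert_of_mem hx))

theorem prod_mem_VN (P0 : Place K F) {N0 L : ℕ} (f : Fin L → F)
    (hf : ∀ m, f m ∈ VN P0 N0) : ∏ m, f m ∈ VN P0 (L * N0) := by
  have := prod_mem_VN' P0 Finset.univ f (fun m _ => hf m)
  rwa [Finset.card_univ, Fintype.card_fin] at this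

theorem evv_prod' {P0 : Place K F} {t : F} (ht : P0.adicValuation t = exp (-1 : ℤ)) {N0 : ℕ}
    (P : Place K F) {σ : Type*} (s : Finset σ) (f : σ → F)
    (hf : ∀ m ∈ s, f m ∈ VN P0 N0) :
    evv P0 t (s.card * N0) P (∏ m ∈ s, f m) = ∏ m ∈ s, evv P0 t N0 P (f m) := by
  classical
  induction s using Finset.induction_on with
  | empty => simp [evv]
  | insert m s hm ih =>
    have h1 := ih fun x hx => hf x (Finset.mem_insert_of_mem hx)
    rw [Finset.prod_insert hm, Finset.prod_insert hm, Finset.card_insert_of_notMem hm, add_mul,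
      one_mul, add_comm, evv_mul ht P (hf m (Finset.mem_insert_self _ _))
        (prod_mem_VN' P0 s f fun x hx => hf x (Finset.mem_insert_of_mem hx)), h1]

theorem evv_prod {P0 : Place K F} {t : F} (ht : P0.adicValuation t = exp (-1 : ℤ)) {N0 L : ℕ}
    (P : Place K F) (f : Fin L → F) (hf : ∀ m, f m ∈ VN P0 N0) :
    evv P0 t (L * N0) P (∏ m, f m) = ∏ m, evv P0 t N0 P (f m) := by
  have := evv_prod' ht P Finset.univ f (fun m _ => hf m)
  rwa [Finset.card_univ, Fintype.card_fin] at this

theorem evv_eq_sum {P0 : Place K F} {t : F} (ht : P0.adicValuation t = exp (-1 : ℤ)) {N : ℕ}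
    {ι : Type*} [Fintype ι] (b : Module.Basis ι K (VN P0 N)) (P : Place K F) (f : VN P0 N) :
    evv P0 t N P (f : F) = ∑ i, b.repr f i * evv P0 t N P (b i : F) := by
  have h1 : evv P0 t N P (f : F) = evL ht N P f := rfl
  have h2 := congrArg (evL ht N P) (b.sum_repr f)
  rw [h1, ← h2, map_sum]
  refine Finset.sum_congr rfl fun i _ => ?_
  rw [map_smul]
  rfl

theorem exists_evv_ne_zero {P0 : Place K F} {t : F} (ht : P0.adicValuation t = exp (-1 : ℤ)) {N : ℕ}
    (hN : 2 * genusFF K F + 1 ≤ N) (P : Place K F) : ∃ f ∈ VN P0 N, evv P0 t N P f ≠ 0 := by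
  obtain ⟨f, hf, h⟩ := exists_avoid (D := Finsupp.single P0 (N : ℤ)) (by
    rw [degree_single_one]; exact_mod_cast hN) {P} (Set.finite_singleton _)
  exact ⟨f, hf, (evv_ne_zero_iff ht hf).mpr (h P rfl)⟩

theorem exists_evv_sep {P0 : Place K F} {t : F} (ht : P0.adicValuation t = exp (-1 : ℤ)) {N : ℕ}
    (hN : 2 * genusFF K F + 2 ≤ N) {P Q : Place K F} (hPQ : P ≠ Q) :
    ∃ f ∈ VN P0 N, evv P0 t N P f = 0 ∧ evv P0 t N Q f ≠ 0 := by
  have hle : LL (Finsupp.single P0 (N : ℤ) - Finsupp.single P 1) ≤ VN P0 N := by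
    classical
    apply L_mono
    intro v
    rw [Finsupp.sub_apply]
    have : (0 : ℤ) ≤ (Finsupp.single P 1 : Place K F →₀ ℤ) v := by
      rw [Finsupp.single_apply]; split_ifs <;> norm_num
    linarith
  obtain ⟨f, hf, h⟩ := exists_avoid (D := Finsupp.single P0 (N : ℤ) - Finsupp.single P 1) (by
    rw [map_sub, degree_single_one, degree_single_one]; omega) {Q} (Set.finite_singleton _)
  refine ⟨f, hle hf, (evv_eq_zero_iff ht (hle hf)).mpr hf,
    (evv_ne_zero_iff ht (hle hf)).mpr ?_⟩
  rw [h Q rfl, Finsupp.sub_apply, Finsupp.single_eq_of_ne hPQ.symm, sub_zero]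

section Model

variable (P0 : Place K F) (t : F) (N0 L : ℕ)
  {ι κ : Type*} [Fintype ι] [DecidableEq ι] [Fintype κ]
  (b : Module.Basis ι K (VN P0 N0)) (bk : Module.Basis κ K (VN P0 (L * N0)))

/-- coordinates of points -/
def eMod (P : Place K F) (i : ι) : K := evv P0 t N0 P (b i : F)

/-- structure constants -/
def cMod (s : Fin L → ι) (a : κ) : K :=
  bk.repr ⟨∏ m, (b (s m) : F), prod_mem_VN P0 _ fun m => (b (s m)).2⟩ a

/-- relations -/
def relMod : Set (MvPolynomial ι K) :=
  {r | (∃ d, r.IsHomogeneous d) ∧ MvPolynomial.aeval (fun i => (b i : F)) r = 0}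

variable {P0 t N0 L}

theorem eMod_ne (ht : P0.adicValuation t = exp (-1 : ℤ)) (hN0 : 4 * genusFF K F + 2 ≤ N0)
    (P : Place K F) : eMod P0 t N0 b P ≠ 0 := by
  intro h
  obtain ⟨f, hf, hne⟩ := exists_evv_ne_zero ht (N := N0) (by omega) P
  apply hne
  have h1 := evv_eq_sum ht b P ⟨f, hf⟩
  simp only at h1
  rw [h1]
  refine Finset.sum_eq_zero fun i _ => ?_
  have : eMod P0 t N0 b P i = 0 := congrFun h i
  unfold eMod at this
  rw [this, mul_zero]

theorem rel_e_mod (ht : P0.adicValuation t = exp (-1 : ℤ)) (P : Place K F) (u : K)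
    {r : MvPolynomial ι K} (hr : r ∈ relMod P0 N0 b) :
    MvPolynomial.eval (u • eMod P0 t N0 b P) r = 0 := by
  obtain ⟨⟨d, hd⟩, h0⟩ := hr
  have h1 : MvPolynomial.eval (u • eMod P0 t N0 b P) r =
      u ^ d * MvPolynomial.eval (eMod P0 t N0 b P) r := by
    have := aeval_mul_homog hd (eMod P0 t N0 b P) u
    rw [MvPolynomial.aeval_eq_eval] at this
    exact this
  rw [h1]
  have h2 := (val_aeval P (fun i => (b i : F) * tau P0 t P ^ N0)
    (fun i => tau_le ht (b i).2) r).2
  have h3 : MvPolynomial.eval (eMod P0 t N0 b P) r =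
      val P (MvPolynomial.aeval (fun i => (b i : F) * tau P0 t P ^ N0) r) := h2.symm
  rw [h3]
  have h4 : MvPolynomial.aeval (fun i => (b i : F) * tau P0 t P ^ N0) r =
      (tau P0 t P ^ N0) ^ d * MvPolynomial.aeval (fun i => (b i : F)) r := by
    rw [← aeval_mul_homog hd]
    simp only [mul_comm]
  rw [h4, h0, mul_zero, val_zero, mul_zero]

theorem rel_pt_mod (ht : P0.adicValuation t = exp (-1 : ℤ)) (hN0 : 4 * genusFF K F + 2 ≤ N0)
    (z : ι → K) (hz : z ≠ 0) (hrel : ∀ r ∈ relMod P0 N0 b, MvPolynomial.eval z r = 0) :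
    ∃ (P : Place K F) (u : K), z = u • eMod P0 t N0 b P := by
  obtain ⟨i0, hi0⟩ := Function.ne_iff.mp hz
  rw [Pi.zero_apply] at hi0
  have hb0 : (b i0 : F) ≠ 0 := fun h => b.ne_zero i0 (Subtype.ext h)
  let x : ι → F := fun i => (b i : F) / (b i0 : F)
  let z' : ι → K := fun i => z i / z i0
  have hx : ∀ i, (b i : F) = x i * (b i0 : F) := fun i => (div_mul_cancel₀ _ hb0).symm
  have hz' : ∀ i, z i = z' i * z i0 := fun i => (div_mul_cancel₀ _ hi0).symm
  obtain ⟨w, hw⟩ := exists_place_of_point x z' (by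
    intro p hp
    have h1 : hmg i0 p ∈ relMod P0 N0 b := by
      refine ⟨⟨_, hmg_isHomogeneous i0 p⟩, ?_⟩
      rw [aeval_hmg i0 p (fun i => (b i : F)) x hx, hp, mul_zero]
    have h2 := hrel _ h1
    have h3 := aeval_hmg i0 p z z' hz'
    rw [MvPolynomial.aeval_eq_eval, MvPolynomial.aeval_eq_eval] at h3
    have h4 : MvPolynomial.eval z (hmg i0 p) = z i0 ^ p.totalDegree * MvPolynomial.eval z' p := h3
    rw [h2] at h4
    exact (mul_eq_zero.mp h4.symm).resolve_left (pow_ne_zero _ hi0)) (by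
    -- two basis elements are not proportional
    by_contra hcon
    push Not at hcon
    have hspan : ∀ f ∈ VN P0 N0, ∃ c : K, f = c • (b i0 : F) := by
      intro f hf
      choose c hc using hcon
      have h1 := congrArg Subtype.val (b.sum_repr ⟨f, hf⟩)
      simp only [Submodule.coe_sum, Submodule.coe_smul] at h1
      refine ⟨∑ i, b.repr ⟨f, hf⟩ i * c i, ?_⟩
      refine h1.symm.trans ?_
      rw [Finset.sum_smul]
      refine Finset.sum_congr rfl fun i _ => ?_
      rw [mul_smul]
      congr 1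
      rw [hx i, ← hc i, Algebra.smul_def]
    obtain ⟨c1, hc1⟩ := hspan 1 (one_mem_VN P0 N0)
    obtain ⟨f, hf, hfe⟩ := exists_exact P0 (n := N0) (by omega)
    obtain ⟨c2, hc2⟩ := hspan f hf
    have hc10 : c1 ≠ 0 := by
      rintro rfl
      rw [zero_smul] at hc1
      exact one_ne_zero hc1
    have : f = algebraMap K F (c2 / c1) := by
      have h5 : (b i0 : F) = c1⁻¹ • (1 : F) := by
        rw [hc1, smul_smul, inv_mul_cancel₀ hc10, one_smul]
      rw [hc2, h5, smul_smul, Algebra.smul_def, mul_one, div_eq_mul_inv]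
    have h6 := P0.adicValuation_algebraMap_le_one (K := K) (F := F) (c2 / c1)
    rw [← this, hfe, ← exp_zero, exp_le_exp] at h6
    omega)
  have hEe : ∀ i, eMod P0 t N0 b w i = z' i * eMod P0 t N0 b w i0 := by
    intro i
    unfold eMod evv
    rw [← (hw i).2, ← val_mul (hw i).1 (tau_le ht (b i0).2)]
    congr 1
    rw [← mul_assoc]
    congr 1
    exact hx i
  have he0 : eMod P0 t N0 b w i0 ≠ 0 := by
    intro h
    apply eMod_ne b ht hN0 w
    funext i
    rw [hEe i, h, mul_zero, Pi.zero_apply]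
  refine ⟨w, z i0 / eMod P0 t N0 b w i0, ?_⟩
  funext i
  rw [Pi.smul_apply, smul_eq_mul, hEe i]
  rw [hz' i]
  field_simp

theorem sep_mod (ht : P0.adicValuation t = exp (-1 : ℤ)) (hN0 : 4 * genusFF K F + 2 ≤ N0)
    (P Q : Place K F) (h : ∀ i j, eMod P0 t N0 b P j * eMod P0 t N0 b Q i -
      eMod P0 t N0 b P i * eMod P0 t N0 b Q j = 0) : P = Q := by
  by_contra hPQ
  obtain ⟨f, hf, h1, h2⟩ := exists_evv_sep ht (N := N0) (by omega) hPQ
  obtain ⟨j, hj⟩ := Function.ne_iff.mp (eMod_ne b ht hN0 P)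
  rw [Pi.zero_apply] at hj
  apply h2
  have e1 := evv_eq_sum ht b P ⟨f, hf⟩
  have e2 := evv_eq_sum ht b Q ⟨f, hf⟩
  simp only at e1 e2
  rw [h1] at e1
  apply mul_left_cancel₀ hj
  rw [mul_zero, e2, Finset.mul_sum]
  have : ∀ i, eMod P0 t N0 b P j * (b.repr ⟨f, hf⟩ i * evv P0 t N0 Q (b i : F)) =
      eMod P0 t N0 b Q j * (b.repr ⟨f, hf⟩ i * evv P0 t N0 P (b i : F)) := by
    intro i
    have := h i j
    unfold eMod at this ⊢
    linear_combination (b.repr ⟨f, hf⟩ i) * this
  rw [Finset.sum_congr rfl fun i _ => this i, ← Finset.mul_sum, ← e1, mul_zero]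

theorem E_c_mod (ht : P0.adicValuation t = exp (-1 : ℤ)) (P : Place K F) (s : Fin L → ι) :
    ∑ a, eMod P0 t (L * N0) bk P a * cMod P0 N0 L b bk s a = ∏ m, eMod P0 t N0 b P (s m) := by
  have h1 := evv_eq_sum ht bk P ⟨∏ m, (b (s m) : F), prod_mem_VN P0 _ fun m => (b (s m)).2⟩
  simp only at h1
  rw [evv_prod ht P _ fun m => (b (s m)).2] at h1
  unfold eMod
  rw [h1]
  unfold cMod
  exact Finset.sum_congr rfl fun a _ => mul_comm _ _

/-- slot elements -/
def slotElt (P0 : Place K F) (t : F) (N0 : ℕ) (b : Module.Basis ι K (VN P0 N0))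
    (A : Finset (Fin L)) (P : Fin L → Place K F) (m : Fin L) (p : ι × ι) : F :=
  if m ∈ A then eMod P0 t N0 b (P m) p.2 • (b p.1 : F) - eMod P0 t N0 b (P m) p.1 • (b p.2 : F)
  else (b p.1 : F)

theorem span_slotElt (ht : P0.adicValuation t = exp (-1 : ℤ)) (hN0 : 4 * genusFF K F + 2 ≤ N0)
    (A : Finset (Fin L)) (P : Fin L → Place K F) (m : Fin L) :
    Submodule.span K (Set.range (slotElt P0 t N0 b A P m)) = slotSp P0 N0 A P m := by
  unfold slotSp
  split_ifs with hm
  · apply le_antisymm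
    · refine Submodule.span_le.mpr ?_
      rintro _ ⟨p, rfl⟩
      have hmem : slotElt P0 t N0 b A P m p ∈ VN P0 N0 := by
        unfold slotElt
        rw [if_pos hm]
        exact Submodule.sub_mem _ (Submodule.smul_mem _ _ (b _).2) (Submodule.smul_mem _ _ (b _).2)
      rw [SetLike.mem_coe, ← evv_eq_zero_iff ht hmem]
      have h1 : evv P0 t N0 (P m) (slotElt P0 t N0 b A P m p) =
          evL ht N0 (P m) (eMod P0 t N0 b (P m) p.2 • b p.1 - eMod P0 t N0 b (P m) p.1 • b p.2) := by
        show evv P0 t N0 (P m) (slotElt P0 t N0 b A P m p) = evv P0 t N0 (P m) _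
        congr 1
        unfold slotElt
        rw [if_pos hm]
        rfl
      rw [h1, map_sub, map_smul, map_smul]
      show eMod P0 t N0 b (P m) p.2 * eMod P0 t N0 b (P m) p.1 -
        eMod P0 t N0 b (P m) p.1 * eMod P0 t N0 b (P m) p.2 = 0
      ring
    · intro f hf
      have hle : LL (Finsupp.single P0 (N0 : ℤ) - Finsupp.single (P m) 1) ≤ VN P0 N0 := by
        classical
        apply L_mono
        intro v
        rw [Finsupp.sub_apply]
        have : (0 : ℤ) ≤ (Finsupp.single (P m) 1 : Place K F →₀ ℤ) v := by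
          rw [Finsupp.single_apply]; split_ifs <;> norm_num
        linarith
      have hf0 := (evv_eq_zero_iff ht (hle hf)).mpr hf
      obtain ⟨j, hj⟩ := Function.ne_iff.mp (eMod_ne b ht hN0 (P m))
      rw [Pi.zero_apply] at hj
      have e1 := evv_eq_sum ht b (P m) ⟨f, hle hf⟩
      simp only at e1
      rw [hf0] at e1
      have h1 := congrArg Subtype.val (b.sum_repr ⟨f, hle hf⟩)
      simp only [Submodule.coe_sum, Submodule.coe_smul] at h1
      have h2 : f = ∑ i, (b.repr ⟨f, hle hf⟩ i / eMod P0 t N0 b (P m) j) •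
          slotElt P0 t N0 b A P m (i, j) := by
        have h3 : ∀ i, (b.repr ⟨f, hle hf⟩ i / eMod P0 t N0 b (P m) j) •
            slotElt P0 t N0 b A P m (i, j) = b.repr ⟨f, hle hf⟩ i • (b i : F) -
            ((eMod P0 t N0 b (P m) j)⁻¹ * (b.repr ⟨f, hle hf⟩ i * eMod P0 t N0 b (P m) i)) •
              (b j : F) := by
          intro i
          unfold slotElt
          rw [if_pos hm, smul_sub, smul_smul, smul_smul, div_mul_cancel₀ _ hj]
          congr 2
          field_simp
        rw [Finset.sum_congr rfl fun i _ => h3 i, Finset.sum_sub_distrib, h1, ← Finset.sum_smul,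
          ← Finset.mul_sum]
        have h4 : ∑ i, b.repr ⟨f, hle hf⟩ i * eMod P0 t N0 b (P m) i = 0 := e1.symm
        rw [h4, mul_zero, zero_smul, sub_zero]
      rw [h2]
      exact Submodule.sum_mem _ fun i _ => Submodule.smul_mem _ _
        (Submodule.subset_span ⟨(i, j), rfl⟩)
  · apply le_antisymm
    · refine Submodule.span_le.mpr ?_
      rintro _ ⟨p, rfl⟩
      unfold slotElt
      rw [if_neg hm]
      exact (b _).2
    · intro f hf
      have h1 := congrArg Subtype.val (b.sum_repr ⟨f, hf⟩)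
      simp only [Submodule.coe_sum, Submodule.coe_smul] at h1
      rw [← h1]
      refine Submodule.sum_mem _ fun i _ => Submodule.smul_mem _ _
        (Submodule.subset_span ⟨(i, i), ?_⟩)
      unfold slotElt
      rw [if_neg hm]

theorem span_prod_slotElt (ht : P0.adicValuation t = exp (-1 : ℤ))
    (hN0 : 4 * genusFF K F + 2 ≤ N0) (A : Finset (Fin L)) (hA : A.card + 2 ≤ L)
    (P : Fin L → Place K F) :
    Submodule.span K (Set.range fun α : Fin L → ι × ι => ∏ m, slotElt P0 t N0 b A P m (α m)) =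
      LL (Finsupp.single P0 ((L * N0 : ℕ) : ℤ) - ∑ m ∈ A, Finsupp.single (P m) 1) := by
  rw [← prod_slotSp P0 hN0 A hA P]
  have h1 : ∀ m ∈ (Finset.univ : Finset (Fin L)), slotSp P0 N0 A P m =
      Submodule.span K (Set.range (slotElt P0 t N0 b A P m)) :=
    fun m _ => (span_slotElt b ht hN0 A P m).symm
  rw [Finset.prod_congr rfl h1, Submodule.prod_span]
  congr 1
  ext f
  rw [Set.mem_fintype_prod]
  constructor
  · rintro ⟨α, rfl⟩
    exact ⟨fun m => slotElt P0 t N0 b A P m (α m), fun m => ⟨α m, rfl⟩, rfl⟩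
  · rintro ⟨g, hg, rfl⟩
    choose α hα using hg
    exact ⟨α, Finset.prod_congr rfl fun m _ => hα m⟩

theorem VV_mod (A : Finset (Fin L)) (P : Fin L → Place K F) (α : Fin L → ι × ι) (a : κ)
    (hmem : ∏ m, slotElt P0 t N0 b A P m (α m) ∈ VN P0 (L * N0)) :
    VV (cMod P0 N0 L b bk) A (fun m => eMod P0 t N0 b (P m)) α a =
      bk.repr ⟨∏ m, slotElt P0 t N0 b A P m (α m), hmem⟩ a := by
  have h1 : (⟨∏ m, slotElt P0 t N0 b A P m (α m), hmem⟩ : VN P0 (L * N0)) =
      ∑ s : Fin L → ι, (∏ m, slotVec A (fun m => eMod P0 t N0 b (P m)) α m (s m)) •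
        (⟨∏ m, (b (s m) : F), prod_mem_VN P0 _ fun m => (b (s m)).2⟩ : VN P0 (L * N0)) := by
    apply Subtype.ext
    rw [Submodule.coe_sum]
    simp only [Submodule.coe_smul]
    have h2 : ∀ m, slotElt P0 t N0 b A P m (α m) =
        ∑ i, slotVec A (fun m => eMod P0 t N0 b (P m)) α m i • (b i : F) := by
      intro m
      unfold slotElt slotVec
      split_ifs with hm
      · simp only [sub_smul, Finset.sum_sub_distrib]
        congr 1
        · rw [Finset.sum_eq_single (α m).1]
          · simp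
          · intro i _ hi; simp [hi]
          · intro h; exact absurd (Finset.mem_univ _) h
        · rw [Finset.sum_eq_single (α m).2]
          · simp
          · intro i _ hi; simp [hi]
          · intro h; exact absurd (Finset.mem_univ _) h
      · rw [Finset.sum_eq_single (α m).1]
        · simp
        · intro i _ hi; simp [hi]
        · intro h; exact absurd (Finset.mem_univ _) h
    rw [Finset.prod_congr rfl fun m _ => h2 m, Finset.prod_univ_sum, Fintype.piFinset_univ]
    refine Finset.sum_congr rfl fun s _ => ?_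
    simp only [Algebra.smul_def, Finset.prod_mul_distrib, map_prod]
  rw [h1, map_sum, Finsupp.finsetSum_apply]
  unfold VV pv
  refine Finset.sum_congr rfl fun s _ => ?_
  rw [map_smul, Finsupp.smul_apply, smul_eq_mul]
  rfl

theorem LL_sub_le (P0 : Place K F) (N : ℕ) {L : ℕ} (A : Finset (Fin L)) (P : Fin L → Place K F) :
    LL (Finsupp.single P0 (N : ℤ) - ∑ m ∈ A, Finsupp.single (P m) 1) ≤ VN P0 N := by
  classical
  apply L_mono
  intro v
  rw [Finsupp.sub_apply]
  have : (0 : ℤ) ≤ (∑ m ∈ A, Finsupp.single (P m) (1 : ℤ) : Place K F →₀ ℤ) v := by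
    rw [Finsupp.finsetSum_apply]
    refine Finset.sum_nonneg fun m _ => ?_
    rw [Finsupp.single_apply]; split_ifs <;> norm_num
  linarith

/-- the coordinates space of `W` -/
theorem span_VV_mod (ht : P0.adicValuation t = exp (-1 : ℤ))
    (hN0 : 4 * genusFF K F + 2 ≤ N0) (A : Finset (Fin L)) (hA : A.card + 2 ≤ L)
    (P : Fin L → Place K F) :
    Submodule.span K (Set.range (VV (cMod P0 N0 L b bk) A (fun m => eMod P0 t N0 b (P m)))) =
    ((LL (Finsupp.single P0 ((L * N0 : ℕ) : ℤ) - ∑ m ∈ A, Finsupp.single (P m) 1)).comap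
      (VN P0 (L * N0)).subtype).map (bk.equivFun : VN P0 (L * N0) →ₗ[K] (κ → K)) := by
  have hsp := span_prod_slotElt b ht hN0 A hA P
  have hmem : ∀ α : Fin L → ι × ι, ∏ m, slotElt P0 t N0 b A P m (α m) ∈
      LL (Finsupp.single P0 ((L * N0 : ℕ) : ℤ) - ∑ m ∈ A, Finsupp.single (P m) 1) := fun α => by
    rw [← hsp]; exact Submodule.subset_span ⟨α, rfl⟩
  have hmem' := fun α => LL_sub_le P0 (L * N0) A P (hmem α)
  have h1 : Set.range (VV (cMod P0 N0 L b bk) A (fun m => eMod P0 t N0 b (P m))) =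
      (bk.equivFun : VN P0 (L * N0) →ₗ[K] (κ → K)) '' (Set.range fun α : Fin L → ι × ι =>
        (⟨∏ m, slotElt P0 t N0 b A P m (α m), hmem' α⟩ : VN P0 (L * N0))) := by
    rw [← Set.range_comp]
    congr 1
    funext α
    funext a
    rw [VV_mod b bk A P α a (hmem' α)]
    rfl
  rw [h1, ← Submodule.map_span]
  congr 1
  apply Submodule.map_injective_of_injective (VN P0 (L * N0)).injective_subtype
  rw [Submodule.map_span, Submodule.map_comap_subtype, ← Set.range_comp]
  rw [show ((VN P0 (L * N0)).subtype ∘ fun α : Fin L → ι × ι =>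
        (⟨∏ m, slotElt P0 t N0 b A P m (α m), hmem' α⟩ : VN P0 (L * N0))) =
        fun α => ∏ m, slotElt P0 t N0 b A P m (α m) from rfl, hsp]
  exact (inf_eq_right.mpr (LL_sub_le P0 (L * N0) A P)).symm

theorem finrank_W_mod (ht : P0.adicValuation t = exp (-1 : ℤ))
    (hN0 : 4 * genusFF K F + 2 ≤ N0) (A : Finset (Fin L)) (hA : A.card + 2 ≤ L)
    (P : Fin L → Place K F) :
    Module.finrank K (Submodule.span K (Set.range
      (VV (cMod P0 N0 L b bk) A (fun m => eMod P0 t N0 b (P m))))) + A.card = Fintype.card κ := by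
  rw [span_VV_mod b bk ht hN0 A hA P]
  have hLN : (2 + A.card) * N0 ≤ L * N0 := Nat.mul_le_mul_right _ (by omega)
  have hAN : A.card ≤ A.card * N0 := Nat.le_mul_of_pos_right _ (by omega)
  have hexp : (2 + A.card) * N0 = 2 * N0 + A.card * N0 := by ring
  have hdeg : Divisor.degree (∑ m ∈ A, Finsupp.single (P m) (1 : ℤ) : Divisor K F) = A.card := by
    rw [map_sum]
    simp only [degree_single_one]
    simp
  rw [LinearEquiv.finrank_map_eq]
  have h1 : Module.finrank K ((LL (Finsupp.single P0 ((L * N0 : ℕ) : ℤ) -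
      ∑ m ∈ A, Finsupp.single (P m) 1)).comap (VN P0 (L * N0)).subtype) =
      ell (Finsupp.single P0 ((L * N0 : ℕ) : ℤ) - ∑ m ∈ A, Finsupp.single (P m) 1 :
        Divisor K F) :=
    (Submodule.comapSubtypeEquivOfLe (LL_sub_le P0 (L * N0) A P)).finrank_eq
  rw [h1]
  have h2 := ell_eq (D := (Finsupp.single P0 ((L * N0 : ℕ) : ℤ) -
      ∑ m ∈ A, Finsupp.single (P m) 1 : Divisor K F)) (by
    rw [map_sub, degree_single_one, hdeg]
    push_cast at *
    nlinarith)
  have h3 : Fintype.card κ = ell (Finsupp.single P0 ((L * N0 : ℕ) : ℤ) : Divisor K F) :=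
    (Module.finrank_eq_card_basis bk).symm
  have h4 := ell_eq (D := (Finsupp.single P0 ((L * N0 : ℕ) : ℤ) : Divisor K F)) (by
    rw [degree_single_one]
    push_cast at *
    nlinarith)
  rw [map_sub, degree_single_one, hdeg] at h2
  rw [degree_single_one] at h4
  omega

/-- the model -/
def mkModel (ht : P0.adicValuation t = exp (-1 : ℤ)) (hN0 : 4 * genusFF K F + 2 ≤ N0) :
    PModel K (Place K F) ι κ L where
  e := eMod P0 t N0 b
  E := eMod P0 t (L * N0) bk
  c := cMod P0 N0 L b bk
  Rel := relMod P0 N0 b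
  e_ne := eMod_ne b ht hN0
  rel_e := fun P u r hr => rel_e_mod b ht P u hr
  rel_pt := rel_pt_mod b ht hN0
  E_c := E_c_mod b bk ht
  sep := sep_mod b ht hN0
  finrank_W := fun k P hk => by
    have hcard : (Finset.univ.filter fun m : Fin L => m.val < k).card = k := by
      rw [Fin.card_filter_val_lt]
      omega
    have := finrank_W_mod b bk ht hN0 (Finset.univ.filter fun m : Fin L => m.val < k)
      (by rw [hcard]; exact hk) P
    rw [hcard] at this
    exact this

end Model

end Fermat.Agent.MW
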