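import Fermat.Agent.MW.North3

/-!
# Mordell-Weil: descent
-/

set_option autoImplicit false
set_option linter.unusedSectionVars false

noncomputable section

namespace Fermat.Agent.MW

open AlgebraicCurve Fermat.Agent.FF WithZero Matrix Fermat.Agent.H18.FixedClasses

variable {K F : Type*} [Field K] [Field F] [Algebra K F] [IsAlgClosed K] [FunField K F]
variable [CharZero K]

/-- fixed classes -/
def fixP (Γ : Subgroup (SemilinearAut K F)) : AddSubgroup (Pic0 K F) where
  carrier := {x | IsFix Γ x}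
  add_mem' {x y} hx hy g hg := by rw [smul_add, hx g hg, hy g hg]
  zero_mem' g _ := smul_zero (A := Pic0 K F) g
  neg_mem' {x} hx g hg := by rw [smul_neg, hx g hg]

namespace Ctx

variable (X : Ctx K F)

theorem fg_of_weak (h : (nsmulAddMonoidHom (α := fixP X.Γ) 2).range.FiniteIndex) :
    AddGroup.FG (fixP X.Γ) := by
  obtain ⟨Q, C, hQ, hcube⟩ := X.exists_cube
  obtain ⟨c, hc⟩ := X.exists_GG_ge
  have hQc : ∀ x, IsFix X.Γ x → c ≤ Q x := fun x hx => by
    obtain ⟨l, hl, h1⟩ := hQ x hx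
    rw [h1]
    exact hc x l hl
  have hneg : ∀ x : Pic0 K F, IsFix X.Γ x → IsFix X.Γ (-x) := fun x hx g hg => by
    rw [smul_neg, hx g hg]
  let ht : fixP X.Γ → ℝ := fun x => Q x + Q (-(x : Pic0 K F)) - 2 * c
  have hN : Northcott ht := by
    constructor
    intro B
    have hfin := X.finite_classes (B + c)
    have h2 : {x : fixP X.Γ | ht x ≤ B} ⊆ Subtype.val ⁻¹' {x : Pic0 K F | ∃ l, X.Rep x X.k1 l ∧
        X.GG X.L1 l ≤ B + c} := by
      intro x hx
      obtain ⟨l, hl, h1⟩ := hQ x x.2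
      refine ⟨l, hl, ?_⟩
      rw [← h1]
      have h3 : Q x + Q (-(x : Pic0 K F)) - 2 * c ≤ B := hx
      have h4 := hQc _ (hneg _ x.2)
      linarith
    exact (hfin.preimage Subtype.val_injective.injOn).subset h2
  refine AddCommGroup.fg_of_descent' (h := ht) (C := 2 * C + 2 * |Q 0| + 4 * |c|) h (fun x => ?_)
    (fun x y => ?_)
  · have h1 := hQc _ x.2
    have h2 := hQc _ (hneg _ x.2)
    show 0 ≤ Q x + Q (-(x : Pic0 K F)) - 2 * c
    linarith
  · have e1 := hcube (x : Pic0 K F) y (-y) x.2 y.2 (hneg _ y.2)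
    have e2 := hcube (-(x : Pic0 K F)) y (-y) (hneg _ x.2) y.2 (hneg _ y.2)
    rw [show (x : Pic0 K F) + y + -y = x by abel, show (x : Pic0 K F) + -y = x - y by abel,
      show (y : Pic0 K F) + -y = 0 by abel] at e1
    rw [show -(x : Pic0 K F) + y + -y = -x by abel, show -(x : Pic0 K F) + -y = -(x + y) by abel,
      show -(x : Pic0 K F) + y = -(x - y) by abel,
      show (y : Pic0 K F) + -y = 0 by abel] at e2
    show |(Q ((x : Pic0 K F) + y) + Q (-((x : Pic0 K F) + y)) - 2 * c) +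
      (Q ((x : Pic0 K F) - y) + Q (-((x : Pic0 K F) - y)) - 2 * c) -
      2 * ((Q x + Q (-(x : Pic0 K F)) - 2 * c) + (Q y + Q (-(y : Pic0 K F)) - 2 * c))| ≤ _
    have f1 := le_abs_self (Q 0)
    have f2 := neg_abs_le (Q 0)
    have f3 := le_abs_self c
    have f4 := neg_abs_le c
    rw [abs_le] at e1 e2 ⊢
    constructor <;> linarith [e1.1, e1.2, e2.1, e2.2]

end Ctx

end Fermat.Agent.MW
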