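import Fermat.Agent.MW.Inv
import Fermat.Agent.H02F.Unram
import Fermat.Agent.H18_FixedClasses

/-!
# Mordell-Weil: reduced rational divisors in general position
-/

set_option autoImplicit false
set_option linter.unusedSectionVars false

noncomputable section

namespace Fermat.Agent.MW

open AlgebraicCurve Fermat.Agent.FF WithZero Matrix
open scoped IntermediateField

variable {K F : Type*} [Field K] [Field F] [Algebra K F] [IsAlgClosed K] [FunField K F]
variable [CharZero K]

theorem crv (P0 : Place K F) : H02F.Crv K F :=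
  { (inferInstance : HasPrincipalDivisors K F) with
    deg_one := deg_eq_one
    ne := ⟨P0⟩ }

/-- finitely many critical points -/
theorem finite_crit (P0 : Place K F) {f : F} (hf : Transcendental K f) :
    {P : Place K F | ∃ c : K, 2 ≤ P.ord (f - algebraMap K F c)}.Finite := by
  have := crv P0
  have hpar := isParam_of_transcendental hf
  have := hpar.fin
  have : CharZero K⟮f⟯ := charZero_of_injective_algebraMap (algebraMap K K⟮f⟯).injective
  have : Algebra.IsSeparable K⟮f⟯ F := inferInstance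
  refine (H02F.finite_ramified hf).subset ?_
  rintro P ⟨c, hc⟩
  have hvan : H02F.Van P (f - algebraMap K F c) := Or.inr (by omega)
  have hreg : H02F.Reg P f := by
    have := hvan.reg.add (H02F.reg_alg P c)
    rwa [sub_add_cancel] at this
  refine ⟨hreg, ?_⟩
  rw [H02F.ev_unique hvan]
  omega

namespace Ctx

variable (X : Ctx K F)

theorem natCast_fix (n : ℕ) : (n : K) ∈ fixK X.Γ := natCast_mem _ n

/-- rational vectors avoiding finitely many proper subspaces -/
theorem exists_fixed_avoid (V : Submodule K F) [FiniteDimensional K V]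
    (hV : ∀ g ∈ X.Γ, ∀ f ∈ V, g • f ∈ V) (T : Set (Submodule K F)) (hT : T.Finite)
    (hTV : ∀ U ∈ T, ¬ V ≤ U) : ∃ f ∈ V, IsFix X.Γ f ∧ ∀ U ∈ T, f ∉ U := by
  classical
  obtain ⟨w, hw⟩ := exists_fixed_basis X.R V hV
  have hφ : ∀ U ∈ T, ∃ φ : V →ₗ[K] K, φ ≠ 0 ∧ ∀ x : V, (x : F) ∈ U → φ x = 0 := by
    intro U hU
    have hlt : U.comap V.subtype < ⊤ := by
      rw [lt_top_iff_ne_top]
      intro h
      apply hTV U hU
      intro x hx
      have : (⟨x, hx⟩ : V) ∈ U.comap V.subtype := by rw [h]; trivial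
      exact this
    obtain ⟨φ, hφ1, hφ2⟩ := Submodule.exists_le_ker_of_lt_top _ hlt
    exact ⟨φ, hφ1, fun x hx => hφ2 hx⟩
  choose! φ hφ1 hφ2 using hφ
  let p : Submodule K F → Polynomial K := fun U =>
    ∑ i : Fin (Module.finrank K V), Polynomial.monomial i.val (φ U (w i))
  have hp : ∀ U ∈ T, p U ≠ 0 := by
    intro U hU h0
    apply hφ1 U hU
    apply w.ext
    intro i
    have h1 := congrArg (fun q : Polynomial K => q.coeff i.val) h0
    simp only [p, Polynomial.finsetSum_coeff, Polynomial.coeff_monomial, Polynomial.coeff_zero] at h1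
    rw [Finset.sum_eq_single i] at h1
    · simpa using h1
    · intro j _ hj
      rw [if_neg (fun h => hj (Fin.ext h))]
    · intro h; exact absurd (Finset.mem_univ i) h
  have hfin : (⋃ U ∈ T, {c : K | (p U).IsRoot c}).Finite := by
    apply hT.biUnion
    intro U hU
    exact Polynomial.finite_setOfPred_isRoot (hp U hU)
  have hinf : (Set.range fun n : ℕ => (n : K)).Infinite :=
    Set.infinite_range_of_injective Nat.cast_injective
  obtain ⟨c, ⟨n, rfl⟩, hc⟩ := (hinf.sdiff hfin).nonempty
  refine ⟨∑ i : Fin (Module.finrank K V), ((n : K) ^ i.val) • (w i : F),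
    Submodule.sum_mem _ fun i _ => Submodule.smul_mem _ _ (w i).2, fun g hg => ?_, fun U hU h => ?_⟩
  · rw [Finset.smul_sum]
    refine Finset.sum_congr rfl fun i _ => ?_
    rw [smul_smul', hw i g hg, map_pow, X.natCast_fix n g hg]
  · apply hc
    simp only [Set.mem_iUnion]
    refine ⟨U, hU, ?_⟩
    show Polynomial.eval (n : K) (p U) = 0
    have h1 : φ U (∑ i : Fin (Module.finrank K V), ((n : K) ^ i.val) • w i) = 0 := by
      apply hφ2 U hU
      rw [Submodule.coe_sum]
      simpa using h
    simp only [p, Polynomial.eval_finsetSum, Polynomial.eval_monomial]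
    rw [map_sum] at h1
    rw [← h1]
    refine Finset.sum_congr rfl fun i _ => ?_
    rw [map_smul, smul_eq_mul, mul_comm]

/-- (GP) for divisors -/
theorem exists_GP {D : Divisor K F} (hD : IsFix X.Γ D)
    (hdeg : 2 * (genusFF K F : ℤ) + 1 ≤ Divisor.degree D) (T : Set (Place K F)) (hT : T.Finite) :
    ∃ l : List (Place K F), l.Nodup ∧ (∀ P ∈ l, P ∉ T) ∧ IsFix X.Γ (dvl l) ∧
      ∃ f : F, f ≠ 0 ∧ dvl l = D + div f := by
  classical
  have hst : ∀ g ∈ X.Γ, ∀ f ∈ LL D, g • f ∈ LL D := fun g hg f hf => LL_stable hD hg hf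
  obtain ⟨s1, hs1, hs1f, hs10⟩ := X.exists_fixed_avoid (LL D) hst {⊥} (Set.finite_singleton _)
    (by
      rintro U rfl hle
      apply LL_lt_of_degree hdeg X.P0
      rw [le_bot_iff] at hle
      rw [hle]
      apply le_bot_iff.mp
      rw [← hle]
      apply L_mono
      intro v
      rw [Finsupp.sub_apply]
      have : (0 : ℤ) ≤ (Finsupp.single X.P0 1 : Place K F →₀ ℤ) v := by
        rw [Finsupp.single_apply]; split_ifs <;> norm_num
      linarith)
  have hs1n : s1 ≠ 0 := fun h => hs10 ⊥ rfl (by rw [h]; exact zero_mem _)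
  set T1 : Set (Place K F) := T ∪ {P | (D + div s1 : Divisor K F) P ≠ 0} with hT1
  have hT1f : T1.Finite := hT.union (D + div s1 : Divisor K F).hasFiniteSupport
  obtain ⟨s2, hs2, hs2f, hs2a⟩ := X.exists_fixed_avoid (LL D) hst
    ((fun P => LL (D - Finsupp.single P 1)) '' (T1 ∪ {X.P0}))
    ((hT1f.union (Set.finite_singleton _)).image _) (by
      rintro U ⟨P, -, rfl⟩ hle
      apply LL_lt_of_degree hdeg P
      refine le_antisymm ?_ hle
      apply L_mono
      intro v
      rw [Finsupp.sub_apply]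
      have : (0 : ℤ) ≤ (Finsupp.single P 1 : Place K F →₀ ℤ) v := by
        rw [Finsupp.single_apply]; split_ifs <;> norm_num
      linarith)
  have hs2n : s2 ≠ 0 := by
    rintro rfl
    exact hs2a _ ⟨X.P0, Or.inr rfl, rfl⟩ (zero_mem _)
  have hE1 := (mem_LL_iff_div hs1n).mp hs1
  have hE2 := (mem_LL_iff_div hs2n).mp hs2
  have hs2T : ∀ P ∈ T1, P.ord s2 = - D P := by
    intro P hP
    have h1 := hs2a _ ⟨P, Or.inl hP, rfl⟩
    rw [mem_LL_sub_single hs2, not_lt] at h1
    exact (val_eq_exp_iff.mp (le_antisymm (hs2 P) h1)).2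
  set φ := s1 / s2 with hφ
  have hφf : IsFix X.Γ φ := fun g hg => by
    rw [hφ, div_eq_mul_inv, smul_mul', smul_inv'', hs1f g hg, hs2f g hg]
  have hφtr : Transcendental K φ := by
    apply transcendental_of_not_mem_range
    rintro ⟨c, hc⟩
    have hc0 : c ≠ 0 := by
      rintro rfl
      rw [map_zero] at hc
      exact (div_ne_zero hs1n hs2n) hc.symm
    have h1 : s1 = algebraMap K F c * s2 := by
      rw [hc, hφ, div_mul_cancel₀ _ hs2n]
    -- some zero of the section s1
    have h2 : ∃ P, (D + div s1 : Divisor K F) P ≠ 0 := by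
      by_contra hcon
      push Not at hcon
      have h3 : (D + div s1 : Divisor K F) = 0 := Finsupp.ext hcon
      have h4 := congrArg Divisor.degree h3
      rw [map_add, degree_div, map_zero] at h4
      omega
    obtain ⟨P, hP⟩ := h2
    have h3 := hs2T P (Or.inr hP)
    apply hP
    rw [Finsupp.add_apply, div_apply, h1, P.ord_mul (by simpa using hc0) hs2n,
      H18.ord_algebraMap, h3]
    omega
  have hcr := finite_crit X.P0 hφtr
  have := crv X.P0
  have hfin : ((fun P => H02F.ev P φ) '' (T ∪ {P : Place K F | ∃ c : K,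
      2 ≤ P.ord (φ - algebraMap K F c)})).Finite := (hT.union hcr).image _
  have hinf : (Set.range fun n : ℕ => (n : K)).Infinite :=
    Set.infinite_range_of_injective Nat.cast_injective
  obtain ⟨c, ⟨n, rfl⟩, hc⟩ := (hinf.sdiff hfin).nonempty
  set s := s1 - (n : K) • s2 with hs
  have hsf : IsFix X.Γ s := fun g hg => by
    rw [hs, smul_sub, smul_smul', hs1f g hg, hs2f g hg, X.natCast_fix n g hg]
  have hφn : φ - algebraMap K F (n : K) ≠ 0 := by
    intro h
    apply hφtr
    rw [sub_eq_zero.mp h]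
    exact isAlgebraic_algebraMap _
  have hsφ : s = s2 * (φ - algebraMap K F (n : K)) := by
    rw [hs, hφ, mul_sub, mul_div_cancel₀ _ hs2n, Algebra.smul_def]
    ring
  have hsn : s ≠ 0 := by
    rw [hsφ]; exact mul_ne_zero hs2n hφn
  have hsD : s ∈ LL D := Submodule.sub_mem _ hs1 (Submodule.smul_mem _ _ hs2)
  have hE := (mem_LL_iff_div hsn).mp hsD
  obtain ⟨l, hl⟩ := exists_dvl hE
  have hlP : ∀ P, dvl l P = P.ord s + D P := fun P => by
    rw [hl, Finsupp.add_apply, div_apply]
  -- points where s2 does not vanish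
  have key1 : ∀ P : Place K F, P.ord s2 = - D P → dvl l P = P.ord (φ - algebraMap K F (n : K)) := by
    intro P hP
    rw [hlP, hsφ, P.ord_mul hs2n hφn, hP]
    ring
  have key2 : ∀ P : Place K F, P.ord s2 ≠ - D P → dvl l P = 0 := by
    intro P hP
    have hP1 : P ∉ T1 := fun h => hP (hs2T P h)
    have h1 : (D + div s1 : Divisor K F) P = 0 := by
      by_contra h
      exact hP1 (Or.inr h)
    rw [Finsupp.add_apply, div_apply] at h1
    have h2 := hE2 P
    rw [Finsupp.zero_apply, Finsupp.add_apply, div_apply] at h2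
    by_cases hn0 : (n : K) = 0
    · rw [hlP, hs, hn0, zero_smul, sub_zero]
      omega
    rw [hlP, hs, sub_eq_add_neg]
    have h3 : P.ord (-((n : K) • s2)) = P.ord s2 := by
      rw [H18.ord_neg, Algebra.smul_def, P.ord_mul (by
        intro h; exact hn0 ((map_eq_zero _).mp h)) hs2n, H18.ord_algebraMap,
        zero_add]
    rw [(H18.ord_add_eq_of_lt P hs1n (by rw [h3]; omega)).1]
    omega
  refine ⟨l, ?_, ?_, ?_, s, hsn, by rw [hl]; abel⟩
  · rw [List.nodup_iff_count_le_one]
    intro P
    have h0 : (l.count P : ℤ) ≤ 1 := by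
      rw [← dvl_apply]
      by_cases hP : P.ord s2 = - D P
      · rw [key1 P hP]
        by_contra hcon
        apply hc
        refine ⟨P, Or.inr ⟨(n : K), by omega⟩, ?_⟩
        exact H02F.ev_unique (Or.inr (by show 0 < P.ord (φ - algebraMap K F (n : K)); omega))
      · rw [key2 P hP]; norm_num
    exact_mod_cast h0
  · intro P hPl hPT
    have h0 : 0 < (dvl l P : ℤ) := by
      rw [dvl_apply]
      exact_mod_cast List.count_pos_iff.mpr hPl
    rw [key1 P (hs2T P (Or.inl hPT))] at h0
    apply hc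
    exact ⟨P, Or.inl hPT, H02F.ev_unique (Or.inr h0)⟩
  · rw [hl]
    exact hsf.div.add hD

end Ctx

end Fermat.Agent.MW
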