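import Fermat.Agent.FF.T8

/-!
# Mordell-Weil: products of Riemann-Roch spaces
-/

set_option autoImplicit false

noncomputable section

namespace Fermat.Agent.MW

open AlgebraicCurve Fermat.Agent.FF WithZero

variable {K F : Type*} [Field K] [Field F] [Algebra K F] [IsAlgClosed K] [FunField K F]
variable [CharZero K]

/-- Riemann-Roch space -/
abbrev LL (D : Divisor K F) : Submodule K F := riemannRochSpace D

theorem ell_eq {D : Divisor K F} (hD : 2 * (genusFF K F : ℤ) ≤ Divisor.degree D) :
    (ell D : ℤ) = Divisor.degree D + 1 - genusFF K F :=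
  ell_of_hh_zero (hh_eq_zero_of_degree_ge hD)

theorem degree_single_one (P : Place K F) (n : ℤ) :
    Divisor.degree (Finsupp.single P n : Divisor K F) = n := by
  rw [Divisor.degree_single, deg_eq_one]; simp

theorem LL_lt_of_degree {D : Divisor K F} (hD : 2 * (genusFF K F : ℤ) + 1 ≤ Divisor.degree D)
    (P : Place K F) : LL (D - Finsupp.single P 1) ≠ LL D := by
  intro h
  have h1 := ell_eq (D := D) (by omega)
  have h2 := ell_eq (D := D - Finsupp.single P 1) (by
    rw [map_sub, degree_single_one]; omega)
  rw [map_sub, degree_single_one] at h2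
  have h3 : ell (D - Finsupp.single P 1) = ell D := by
    unfold ell; rw [show riemannRochSpace (D - Finsupp.single P 1) = riemannRochSpace D from h]
  omega

theorem mem_LL_sub_single {D : Divisor K F} {P : Place K F} {f : F} (hf : f ∈ LL D) :
    f ∈ LL (D - Finsupp.single P 1) ↔ P.adicValuation f < exp (D P) := by
  constructor
  · intro h
    have := h P
    rw [Finsupp.sub_apply, Finsupp.single_eq_same] at this
    exact lt_of_le_of_lt this (exp_lt_exp.mpr (by omega))
  · intro h v
    rcases eq_or_ne v P with rfl | hv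
    · rw [Finsupp.sub_apply, Finsupp.single_eq_same]
      have := (val_le_exp_iff_lt (v := v) (f := f) (n := D v - 1)).mpr (by simpa using h)
      exact this
    · rw [Finsupp.sub_apply, Finsupp.single_eq_of_ne hv, sub_zero]
      exact hf v

/-- avoiding finitely many base points simultaneously -/
theorem exists_avoid {D : Divisor K F} (hD : 2 * (genusFF K F : ℤ) + 1 ≤ Divisor.degree D)
    (T : Set (Place K F)) (hT : T.Finite) :
    ∃ f ∈ LL D, ∀ P ∈ T, P.adicValuation f = exp (D P) := by
  classical
  have hinf : Infinite K := IsAlgClosed.instInfinite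
  let s : Finset (Subspace K (LL D)) :=
    hT.toFinset.image fun P => (LL (D - Finsupp.single P 1)).comap (LL D).subtype
  have hs : (⊤ : Subspace K (LL D)) ∉ s := by
    intro htop
    obtain ⟨P, -, hP⟩ := Finset.mem_image.mp htop
    apply LL_lt_of_degree hD P
    apply le_antisymm
    · apply L_mono
      intro v
      rw [Finsupp.sub_apply]
      have : (0 : ℤ) ≤ (Finsupp.single P 1 : Place K F →₀ ℤ) v := by
        rw [Finsupp.single_apply]; split_ifs <;> norm_num
      linarith
    · intro f hf
      have : (⟨f, hf⟩ : LL D) ∈ (LL (D - Finsupp.single P 1)).comap (LL D).subtype := by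
        rw [hP]; trivial
      exact this
  have h1 := Subspace.biUnion_ne_univ_of_top_notMem hs
  obtain ⟨f, hf⟩ := (Set.ne_univ_iff_exists_notMem _).mp h1
  refine ⟨f, f.2, fun P hP => ?_⟩
  have h2 : f ∉ (LL (D - Finsupp.single P 1)).comap (LL D).subtype := by
    intro h
    apply hf
    simp only [Set.mem_iUnion]
    exact ⟨_, Finset.mem_image_of_mem _ (hT.mem_toFinset.mpr hP), h⟩
  have h3 : ¬ P.adicValuation (f : F) < exp (D P) := fun h =>
    h2 ((mem_LL_sub_single f.2).mpr h)
  exact le_antisymm (f.2 P) (not_lt.mp h3)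

/-- base point free pencil trick -/
theorem LL_mul {A B : Divisor K F} (hB : 2 * (genusFF K F : ℤ) + 1 ≤ Divisor.degree B)
    (hA : Divisor.degree B + 2 * (genusFF K F : ℤ) ≤ Divisor.degree A) :
    LL A * LL B = LL (A + B) := by
  classical
  have hle : LL A * LL B ≤ LL (A + B) := by
    rw [Submodule.mul_le]
    exact fun f hf g hg => mul_mem_L_add hf hg
  apply le_antisymm hle
  -- a first section
  obtain ⟨u, huB, -⟩ := exists_avoid hB ∅ Set.finite_empty
  have hnt : ∃ u ∈ LL B, u ≠ 0 := by
    have h1 := ell_eq (D := B) (by omega)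
    have h2 : 0 < ell B := by omega
    have hnt : Nontrivial (LL B) := Module.nontrivial_of_finrank_pos (R := K) h2
    obtain ⟨f, hf⟩ := exists_ne (0 : LL B)
    exact ⟨f, f.2, fun h => hf (Subtype.ext h)⟩
  obtain ⟨u, huB, hu0⟩ := hnt
  let T : Set (Place K F) := {P | (B + div u : Divisor K F) P ≠ 0}
  have hT : T.Finite := (B + div u : Divisor K F).hasFiniteSupport
  obtain ⟨w, hwB, hw⟩ := exists_avoid hB (T ∪ {P | B P ≠ 0}) (hT.union B.hasFiniteSupport)
  have hT' : ∀ P, P.adicValuation u = exp (B P) ∨ P.adicValuation w = exp (B P) := by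
    intro P
    by_cases hP : P ∈ T
    · exact Or.inr (hw P (Or.inl hP))
    · left
      rw [val_eq_exp_iff]
      refine ⟨hu0, ?_⟩
      have : (B + div u : Divisor K F) P = 0 := by
        by_contra h; exact hP h
      rw [Finsupp.add_apply, div_apply] at this
      omega
  have hw0 : w ≠ 0 := by
    by_contra h0
    have hall : ∀ P, P.adicValuation u = exp (B P) := fun P => by
      rcases hT' P with h | h
      · exact h
      · rw [h0, map_zero] at h; exact absurd h.symm exp_ne_zero
    have : (B + div u : Divisor K F) = 0 := by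
      ext P
      have := (val_eq_exp_iff.mp (hall P)).2
      rw [Finsupp.add_apply, div_apply, Finsupp.zero_apply]
      omega
    have h2 := congrArg Divisor.degree this
    rw [map_add, degree_div, map_zero] at h2
    omega
  let Φ : (LL A × LL A) →ₗ[K] F :=
    { toFun := fun p => (p.1 : F) * u + (p.2 : F) * w
      map_add' := fun p q => by
        show ((p.1 : F) + q.1) * u + ((p.2 : F) + q.2) * w = _
        ring
      map_smul' := fun c p => by
        show (c • (p.1 : F)) * u + (c • (p.2 : F)) * w = c • ((p.1 : F) * u + (p.2 : F) * w)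
        rw [smul_add, smul_mul_assoc, smul_mul_assoc] }
  have hrange : LinearMap.range Φ ≤ LL A * LL B := by
    rintro _ ⟨p, rfl⟩
    exact Submodule.add_mem _ (Submodule.mul_mem_mul p.1.2 huB) (Submodule.mul_mem_mul p.2.2 hwB)
  -- kernel
  have hker : Module.finrank K (LinearMap.ker Φ) ≤ ell (A - B) := by
    let Ψ : LinearMap.ker Φ →ₗ[K] LL (A - B) :=
      { toFun := fun p => ⟨(p.1.1 : F) * w⁻¹, by
          have hp : (p.1.1 : F) * u + (p.1.2 : F) * w = 0 := p.2
          have hp2 : (p.1.1 : F) * w⁻¹ = -((p.1.2 : F) * u⁻¹) := by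
            field_simp
            linear_combination hp
          intro P
          rw [Finsupp.sub_apply, exp_sub]
          rcases hT' P with h | h
          · rw [hp2, Valuation.map_neg, map_mul, map_inv₀, h, div_eq_mul_inv]
            exact mul_le_mul' (p.1.2.2 P) le_rfl
          · rw [map_mul, map_inv₀, h, div_eq_mul_inv]
            exact mul_le_mul' (p.1.1.2 P) le_rfl⟩
        map_add' := fun p q => by
          apply Subtype.ext
          show ((p.1.1 : F) + q.1.1) * w⁻¹ = (p.1.1 : F) * w⁻¹ + (q.1.1 : F) * w⁻¹
          ring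
        map_smul' := fun c p => by
          apply Subtype.ext
          show (c • (p.1.1 : F)) * w⁻¹ = c • ((p.1.1 : F) * w⁻¹)
          rw [smul_mul_assoc] }
    have hinj : Function.Injective Ψ := by
      intro p q hpq
      have h1 : (p.1.1 : F) * w⁻¹ = (q.1.1 : F) * w⁻¹ := congrArg Subtype.val hpq
      have h2 : (p.1.1 : F) = (q.1.1 : F) := mul_right_cancel₀ (inv_ne_zero hw0) h1
      have h3 : (p.1.1 : F) * u + (p.1.2 : F) * w = 0 := p.2
      have h3' : (q.1.1 : F) * u + (q.1.2 : F) * w = 0 := q.2
      have h4 : (p.1.2 : F) = (q.1.2 : F) := by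
        apply mul_right_cancel₀ hw0
        rw [h2] at h3
        linear_combination h3 - h3'
      apply Subtype.ext
      exact Prod.ext (Subtype.ext h2) (Subtype.ext h4)
    exact LinearMap.finrank_le_finrank_of_injective hinj
  have hrn := LinearMap.finrank_range_add_finrank_ker Φ
  rw [Module.finrank_prod] at hrn
  have e1 := ell_eq (D := A) (by omega)
  have e2 := ell_eq (D := A - B) (by rw [map_sub]; omega)
  have e3 := ell_eq (D := A + B) (by rw [map_add]; omega)
  rw [map_sub] at e2
  rw [map_add] at e3
  have hfin : Module.finrank K (LL (A + B)) ≤ Module.finrank K (LinearMap.range Φ) := by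
    have q1 : Module.finrank K (LL A) = ell A := rfl
    have q2 : Module.finrank K (LL (A + B)) = ell (A + B) := rfl
    rw [q1] at hrn
    rw [q2]
    omega
  have heq : LinearMap.range Φ = LL (A + B) :=
    Submodule.eq_of_le_of_finrank_le (hrange.trans hle) hfin
  rw [← heq]
  exact hrange

end Fermat.Agent.MW
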