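import Fermat.Agent.MW.Lead

/-!
# Mordell-Weil: global sums
-/

set_option autoImplicit false
set_option linter.unusedSectionVars false

noncomputable section

namespace Fermat.Agent.MW

open Filter

variable {Λ : Type}

/-- admissible families -/
def Adm (x : Λ → ℝ) : Prop := (∀ v, 0 < x v) ∧ ∀ᶠ v in cofinite, x v = 1

/-- the global sum of logarithms -/
def hh (x : Λ → ℝ) : ℝ := ∑ᶠ v, Real.log (x v)

namespace Adm

theorem fin_log {x : Λ → ℝ} (hx : Adm x) : (Function.support fun v => Real.log (x v)).Finite := by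
  have h := hx.2
  rw [Filter.eventually_cofinite] at h
  refine h.subset fun v hv h1 => hv ?_
  show Real.log (x v) = 0
  rw [h1, Real.log_one]

theorem one : Adm (fun _ : Λ => (1 : ℝ)) := ⟨fun _ => one_pos, Eventually.of_forall fun _ => rfl⟩

theorem mul {x y : Λ → ℝ} (hx : Adm x) (hy : Adm y) : Adm (fun v => x v * y v) := by
  refine ⟨fun v => mul_pos (hx.1 v) (hy.1 v), ?_⟩
  filter_upwards [hx.2, hy.2] with v h1 h2
  rw [h1, h2, one_mul]

theorem inv {x : Λ → ℝ} (hx : Adm x) : Adm (fun v => (x v)⁻¹) := by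
  refine ⟨fun v => inv_pos.mpr (hx.1 v), ?_⟩
  filter_upwards [hx.2] with v h1
  rw [h1, inv_one]

theorem div {x y : Λ → ℝ} (hx : Adm x) (hy : Adm y) : Adm (fun v => x v / y v) := by
  have := hx.mul hy.inv
  simpa only [div_eq_mul_inv] using this

theorem pow {x : Λ → ℝ} (hx : Adm x) (n : ℕ) : Adm (fun v => x v ^ n) := by
  refine ⟨fun v => pow_pos (hx.1 v) n, ?_⟩
  filter_upwards [hx.2] with v h1
  rw [h1, one_pow]

theorem ofMC {C : Λ → ℝ} (hC : IsMC C) : Adm C := ⟨hC.pos, hC.2⟩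

theorem listProd {α : Type*} (l : List α) (x : α → Λ → ℝ) (h : ∀ a ∈ l, Adm (x a)) :
    Adm (fun v => (l.map fun a => x a v).prod) := by
  induction l with
  | nil => simpa using one
  | cons a l ih =>
    simp only [List.map_cons, List.prod_cons]
    exact (h a List.mem_cons_self).mul (ih fun b hb => h b (List.mem_cons_of_mem _ hb))

end Adm

@[simp] theorem hh_one : hh (fun _ : Λ => (1 : ℝ)) = 0 := by simp [hh]

theorem hh_mul {x y : Λ → ℝ} (hx : Adm x) (hy : Adm y) : hh (fun v => x v * y v) = hh x + hh y := by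
  unfold hh
  rw [← finsum_add_distrib hx.fin_log hy.fin_log]
  exact finsum_congr fun v => Real.log_mul (hx.1 v).ne' (hy.1 v).ne'

theorem hh_inv (x : Λ → ℝ) : hh (fun v => (x v)⁻¹) = - hh x := by
  unfold hh
  rw [← finsum_neg_distrib]
  exact finsum_congr fun v => Real.log_inv _

theorem hh_div {x y : Λ → ℝ} (hx : Adm x) (hy : Adm y) :
    hh (fun v => x v / y v) = hh x - hh y := by
  simp only [div_eq_mul_inv]
  rw [hh_mul hx hy.inv, hh_inv, sub_eq_add_neg]

theorem hh_pow (x : Λ → ℝ) (n : ℕ) : hh (fun v => x v ^ n) = n * hh x := by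
  unfold hh
  rw [← smul_eq_mul, smul_finsum]
  exact finsum_congr fun v => by rw [Real.log_pow, smul_eq_mul]

theorem hh_le {x y : Λ → ℝ} (hx : Adm x) (hy : Adm y) (h : ∀ v, x v ≤ y v) : hh x ≤ hh y := by
  unfold hh
  exact finsum_le_finsum' hx.fin_log hy.fin_log fun v => Real.log_le_log (hx.1 v) (h v)

theorem hh_le_mul {x y C : Λ → ℝ} (hx : Adm x) (hy : Adm y) (hC : IsMC C)
    (h : ∀ v, x v ≤ C v * y v) : hh x ≤ hh C + hh y := by
  rw [← hh_mul (Adm.ofMC hC) hy]
  exact hh_le hx ((Adm.ofMC hC).mul hy) h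

theorem hh_nonneg_of_MC {C : Λ → ℝ} (hC : IsMC C) : 0 ≤ hh C := by
  rw [← hh_one (Λ := Λ)]
  exact hh_le Adm.one (Adm.ofMC hC) hC.1

theorem hh_listProd {α : Type*} (l : List α) (x : α → Λ → ℝ) (h : ∀ a ∈ l, Adm (x a)) :
    hh (fun v => (l.map fun a => x a v).prod) = (l.map fun a => hh (x a)).sum := by
  induction l with
  | nil => simp
  | cons a l ih =>
    simp only [List.map_cons, List.prod_cons, List.sum_cons]
    rw [hh_mul (h a List.mem_cons_self)
      (Adm.listProd l x fun b hb => h b (List.mem_cons_of_mem _ hb)),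
      ih fun b hb => h b (List.mem_cons_of_mem _ hb)]

section Adm2

variable {K : Type*} [Field K] (Vf : AVF K)

theorem adm_nrm {ι : Type*} [Finite ι] {x : ι → K} (hx : x ≠ 0) :
    Adm (fun v => nrm (Vf.av v) x) := by
  refine ⟨fun v => nrm_pos _ hx, ?_⟩
  have h1 : ∀ᶠ v in cofinite, ∀ i, x i ≠ 0 → Vf.av v (x i) = 1 := by
    rw [eventually_all]
    intro i
    by_cases hi : x i = 0
    · exact Eventually.of_forall fun v h => absurd hi h
    · filter_upwards [Vf.fin _ hi] with v hv _ using hv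
  filter_upwards [h1] with v hv
  apply le_antisymm
  · refine nrm_le _ _ zero_le_one fun i => ?_
    by_cases hi : x i = 0
    · rw [hi, map_zero]; exact zero_le_one
    · exact (hv i hi).le
  · obtain ⟨i, hi⟩ := Function.ne_iff.mp hx
    rw [← hv i hi]
    exact le_nrm _ _ _

theorem adm_av {x : K} (hx : x ≠ 0) : Adm (fun v => Vf.av v x) :=
  ⟨fun v => (Vf.av v).pos hx, Vf.fin x hx⟩

theorem HH_eq_nrm {m n : Type*} [Fintype m] [DecidableEq m] [Finite n] (v : AbsoluteValue K ℝ)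
    (A : Matrix m n K) : HH v A = nrm v (fun f : m → n => (A.submatrix id f).det) := rfl

theorem adm_HH {m n : Type*} [Fintype m] [DecidableEq m] [Fintype n] (A : Matrix m n K)
    (h : LinearIndependent K A.row) : Adm (fun v => HH (Vf.av v) A) := by
  simp only [HH_eq_nrm]
  apply adm_nrm
  obtain ⟨f, hf⟩ := exists_det_ne_zero A h
  exact fun h0 => hf (congrFun h0 f)

theorem adm_ddv {ι : Type*} [Finite ι] {x y : ι → K}
    (h : (fun p : ι × ι => x p.2 * y p.1 - x p.1 * y p.2) ≠ 0) :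
    Adm (fun v => ddv (Vf.av v) x y) := adm_nrm Vf h

theorem adm_dist {Pt ι κ : Type*} [Fintype ι] [DecidableEq ι] [Fintype κ] {L : ℕ}
    (M : PModel K Pt ι κ L) {P Q : Pt} (h : P ≠ Q) : Adm (fun v => M.dist (Vf.av v) P Q) := by
  unfold PModel.dist
  refine (adm_ddv Vf ?_).div ((adm_nrm Vf (M.e_ne P)).mul (adm_nrm Vf (M.e_ne Q)))
  intro h0
  exact h (M.sep P Q fun i j => congrFun h0 (i, j))

end Adm2

/-- global hypotheses on the family of absolute values -/
structure GAV {K : Type*} [Field K] (Vf : AVF K) (k0 : Subfield K) : Prop where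
  ne : Nonempty Vf.Λ
  pf : ∀ x ∈ k0, x ≠ 0 → hh (fun v => Vf.av v x) = 0
  north : ∀ B : ℝ, {x ∈ k0 | hh (fun v => max 1 (Vf.av v x)) ≤ B}.Finite
  siegel : ∀ (m n : ℕ), 0 < m → ∃ C : ℝ, ∀ (M : Matrix (Fin m) (Fin n) K),
    (∀ i j, M i j ∈ k0) → LinearIndependent K M.row →
    ∃ x : Fin m → K, (∀ i, x i ∈ k0) ∧ x ≠ 0 ∧
      m * hh (fun v => nrm (Vf.av v) (Matrix.vecMul x M)) ≤ hh (fun v => HH (Vf.av v) M) + C

end Fermat.Agent.MW
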