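import Fermat.Agent.MW.Ctx

/-!
# Mordell-Weil: invariance of the height function
-/

set_option autoImplicit false
set_option linter.unusedSectionVars false

noncomputable section

namespace Fermat.Agent.MW

open AlgebraicCurve Fermat.Agent.FF WithZero Matrix

namespace Ctx

variable {K F : Type*} [Field K] [Field F] [Algebra K F] [IsAlgClosed K] [FunField K F]
variable [CharZero K] (X : Ctx K F)

theorem nonneg_eq_zero {D : Divisor K F} (hD : 0 ≤ D) (hdeg : Divisor.degree D = 0) : D = 0 := by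
  obtain ⟨l, rfl⟩ := exists_dvl hD
  rw [degree_dvl] at hdeg
  have : l = [] := List.length_eq_zero_iff.mp (by exact_mod_cast hdeg)
  rw [this, dvl_nil]

/-- rational equivalence can be realised by a rational function -/
theorem exists_fixed_f {D : Divisor K F} (hD : IsFix X.Γ D) {f0 : F} (hf0 : f0 ≠ 0)
    (hdiv : div f0 = D) : ∃ f : F, f ≠ 0 ∧ IsFix X.Γ f ∧ div f = D := by
  obtain ⟨f, hf, hf2, hf3⟩ := exists_fixed_notMem X.R (LL (-D)) ⊥
    (fun g hg f hf => LL_stable (fun g hg => by rw [smul_neg, hD g hg]) hg hf) (by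
      intro h
      have h1 : f0 ∈ LL (-D) := by
        rw [mem_LL_iff_div hf0, hdiv, add_neg_cancel]
      exact hf0 ((Submodule.mem_bot K).mp (h h1)))
  have hf0' : f ≠ 0 := fun h => hf2 ((Submodule.mem_bot K).mpr h)
  refine ⟨f, hf0', hf3, ?_⟩
  have h2 := (mem_LL_iff_div hf0').mp hf
  have h3 : Divisor.degree (div f + -D) = 0 := by
    rw [map_add, map_neg, degree_div, ← hdiv, degree_div, neg_zero, add_zero]
  have h4 := nonneg_eq_zero h2 h3
  rw [← sub_eq_add_neg, sub_eq_zero] at h4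
  exact h4

/-- rational element of exact order avoiding the base point -/
theorem exists_fixed_exact {l : List (Place K F)} (hl : IsFix X.Γ (dvl l)) (hP0 : X.P0 ∉ l)
    {m : ℕ} (hm : l.length + 2 * genusFF K F + 1 ≤ m) :
    ∃ f : F, IsFix X.Γ f ∧ f ≠ 0 ∧ f ∈ LL (Finsupp.single X.P0 (m : ℤ) - dvl l) ∧
      X.P0.adicValuation f = exp (m : ℤ) := by
  classical
  set D : Divisor K F := Finsupp.single X.P0 (m : ℤ) - dvl l with hD
  have hDf : IsFix X.Γ D := (isFix_single X.hP0 _).sub hl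
  have hdeg : 2 * (genusFF K F : ℤ) + 1 ≤ Divisor.degree D := by
    rw [hD, map_sub, degree_single_one, degree_dvl]
    omega
  obtain ⟨f, hf, hf2, hf3⟩ := exists_fixed_notMem X.R (LL D) (LL (D - Finsupp.single X.P0 1))
    (fun g hg f hf => LL_stable hDf hg hf) (by
      intro h
      apply LL_lt_of_degree hdeg X.P0
      refine le_antisymm ?_ h
      apply L_mono
      intro v
      rw [Finsupp.sub_apply]
      have : (0 : ℤ) ≤ (Finsupp.single X.P0 1 : Place K F →₀ ℤ) v := by
        rw [Finsupp.single_apply]; split_ifs <;> norm_num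
      linarith)
  have hf0 : f ≠ 0 := by
    rintro rfl
    exact hf2 (zero_mem _)
  refine ⟨f, hf3, hf0, hf, ?_⟩
  rw [mem_LL_sub_single hf, not_lt] at hf2
  have h1 : D X.P0 = m := by
    rw [hD, Finsupp.sub_apply, Finsupp.single_eq_same, dvl_apply,
      List.count_eq_zero_of_not_mem hP0]
    simp
  have h2 := le_antisymm (hf X.P0) hf2
  rw [h2, h1]

theorem ell_sub_dvl {l : List (Place K F)} {n : ℕ} (hn : l.length + 2 * genusFF K F ≤ n) :
    ell (Finsupp.single X.P0 (n : ℤ) - dvl l : Divisor K F) + l.length + genusFF K F = n + 1 := by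
  have h := ell_eq (D := (Finsupp.single X.P0 (n : ℤ) - dvl l : Divisor K F)) (by
    rw [map_sub, degree_single_one, degree_dvl]; omega)
  rw [map_sub, degree_single_one, degree_dvl] at h
  omega

/-- the height of the evaluation matrix -/
theorem exists_GG_rho {L k : ℕ} (hkL : k + 1 ≤ L) :
    ∃ C : ℝ, ∀ l : List (Place K F), l.Nodup → l.length = k →
      LinearIndependent K ((X.M L).ev l).row ∧
      |hh (fun v => HH (X.Vf.av v) ((X.M L).ev l)) - (L * (l.map X.nh).sum + X.ppH l)| ≤ C := by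
  have hne : Nonempty (Place K F) := ⟨X.P0⟩
  obtain ⟨C, hC, hC'⟩ := (X.M L).exists_rho X.Vf k hkL
  refine ⟨hh C, fun l hl hlk => ?_⟩
  obtain ⟨h1, h2⟩ := X.adm_XX L hl
  have hli : LinearIndependent K ((X.M L).ev l).row := by
    obtain ⟨v⟩ := X.gav.ne
    rw [← HH_ne_zero_iff (X.Vf.av v)]
    intro h0
    have h3 := (hC' v l hl hlk).2
    rw [h0, mul_zero] at h3
    exact absurd h3 (not_le.mpr (h1.1 v))
  refine ⟨hli, ?_⟩
  have h3 := adm_HH X.Vf _ hli
  rw [← h2, abs_le]
  constructor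
  · have := hh_le_mul h1 h3 hC fun v => (hC' v l hl hlk).2
    linarith
  · have := hh_le_mul h3 h1 hC fun v => (hC' v l hl hlk).1
    linarith

/-- a rational basis of sections vanishing on `l` -/
theorem exists_rat_basis {l : List (Place K F)} (hl : IsFix X.Γ (dvl l)) {n : ℕ} {δ : ℕ}
    (hδ : ell (Finsupp.single X.P0 (n : ℤ) - dvl l : Divisor K F) = δ) :
    ∃ w : Fin δ → VN X.P0 n, (∀ i, IsFix X.Γ (w i : F)) ∧
      (∀ i, (w i : F) ∈ LL (Finsupp.single X.P0 (n : ℤ) - dvl l)) ∧ LinearIndependent K w := by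
  obtain ⟨w, hw⟩ := exists_fixed_basis X.R (LL (Finsupp.single X.P0 (n : ℤ) - dvl l))
    (fun g hg f hf => LL_stable ((isFix_single X.hP0 _).sub hl) hg hf)
  have hle : LL (Finsupp.single X.P0 (n : ℤ) - dvl l) ≤ VN X.P0 n := by
    apply L_mono
    intro v
    rw [Finsupp.sub_apply]
    have := dvl_nonneg l v
    rw [Finsupp.zero_apply] at this
    linarith
  refine ⟨fun i => Submodule.inclusion hle (w (Fin.cast hδ.symm i)), fun i => hw _,
    fun i => (w _).2, ?_⟩
  have h1 : LinearIndependent K (fun i : Fin δ => w (Fin.cast hδ.symm i)) :=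
    w.linearIndependent.comp _ (Fin.cast_injective _)
  exact h1.map' (Submodule.inclusion hle) (by
    rw [LinearMap.ker_eq_bot]
    exact Submodule.inclusion_injective hle)

/-- duality: the height of a rational basis of sections vanishing on `l` -/
theorem hh_dual {L : ℕ} {l : List (Place K F)} (hlL : l.length + 2 ≤ L) (hl : l.Nodup)
    (hfix : IsFix X.Γ (dvl l)) (hli : LinearIndependent K ((X.M L).ev l).row) {δ : ℕ}
    (hδ : δ + l.length = X.d (L * X.N0))
    (w : Fin δ → VN X.P0 (L * X.N0)) (hw : ∀ i, IsFix X.Γ (w i : F))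
    (hwl : ∀ i, (w i : F) ∈ LL (Finsupp.single X.P0 ((L * X.N0 : ℕ) : ℤ) - dvl l))
    (hwi : LinearIndependent K w) :
    hh (fun v => HH (X.Vf.av v) ((X.M L).ev l)) =
      hh (fun v => HH (X.Vf.av v) (matF (X.bb (L * X.N0)) w)) := by
  classical
  set bk := X.bb (L * X.N0) with hbk
  set A := (X.M L).ev l with hA
  set W := matF bk w with hW
  have hWli : LinearIndependent K W.row := by
    have : W.row = bk.equivFun.toLinearMap ∘ w := rfl
    rw [this]
    exact hwi.map' _ (by rw [LinearMap.ker_eq_bot]; exact bk.equivFun.injective)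
  have hAW : A * Wᵀ = 0 := by
    ext j i
    rw [Matrix.mul_apply, Matrix.zero_apply]
    have h1 : ∑ a, A j a * Wᵀ a i = (X.M L).E (l.get j) ⬝ᵥ bk.equivFun (w i) := rfl
    rw [h1]
    have h2 : bk.equivFun (w i) ∈ (X.M L).W l.length (PModel.lp X.P0 l) :=
      (mem_W_iff (X.bb X.N0) bk X.ht le_rfl hlL X.P0 (w i)).mpr (hwl i)
    have h3 := (X.M L).W_eq_zero_of_mem (PModel.lp X.P0 l) h2
      (m := ⟨j.val, by omega⟩) (by simp)
    have h4 : PModel.lp X.P0 l (⟨j.val, by omega⟩ : Fin L) = l.get j := by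
      simp [PModel.lp]
    rw [h4] at h3
    exact h3
  obtain ⟨f, hf⟩ := exists_det_ne_zero A hli
  have hcard : Fintype.card (Fin l.length) + Fintype.card (Fin δ) =
      Fintype.card (Fin (X.d (L * X.N0))) := by
    simp only [Fintype.card_fin]; omega
  have hfinj : Function.Injective f := by
    by_contra h
    exact hf (det_submatrix_eq_zero_of_not_injective A f h)
  obtain ⟨e, he⟩ := exists_equiv_extend (r := Fin δ) hcard f hfinj
  have hdual : ∀ v, HH (X.Vf.av v) A * X.Vf.av v (W.submatrix id (e ∘ Sum.inr)).det =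
      X.Vf.av v (A.submatrix id (e ∘ Sum.inl)).det * HH (X.Vf.av v) W := fun v =>
    HH_dual (X.Vf.av v) A W hAW hcard e
  have hAinl : (A.submatrix id (e ∘ Sum.inl)).det ≠ 0 := by
    rw [he]; exact hf
  have hWinr : (W.submatrix id (e ∘ Sum.inr)).det ≠ 0 := by
    intro h0
    obtain ⟨v⟩ := X.gav.ne
    have h1 := hdual v
    rw [h0, map_zero, mul_zero] at h1
    rcases mul_eq_zero.mp h1.symm with h2 | h2
    · exact hAinl ((X.Vf.av v).eq_zero.mp h2)
    · exact (HH_ne_zero_iff (X.Vf.av v) W).mpr hWli h2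
  have h1 := hh_mul (adm_HH X.Vf A hli) (adm_av X.Vf hWinr)
  have h2 := hh_mul (adm_av X.Vf hAinl) (adm_HH X.Vf W hWli)
  have h3 : hh (fun v => X.Vf.av v (W.submatrix id (e ∘ Sum.inr)).det) = 0 := by
    apply X.gav.pf _ _ hWinr
    have : ∀ i j, (W.submatrix id (e ∘ Sum.inr)) i j ∈ fixK X.Γ := fun i j =>
      coord_fixed bk (X.bb_fix _) (hw i) _
    intro g hg
    have h4 : SemilinearAut.baseAut g (W.submatrix id (e ∘ Sum.inr)).det =
      (SemilinearAut.baseAut g : K →+* K) (W.submatrix id (e ∘ Sum.inr)).det := rfl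
    rw [h4, RingHom.map_det]
    congr 1
    ext i j
    exact this i j g hg
  have h4 : hh (fun v => X.Vf.av v (A.submatrix id (e ∘ Sum.inl)).det) = 0 := by
    have h5 := X.gav.pf _ (det_sq_fixed X.ht X.hP0 X.htf bk (X.bb_fix _) hl hfix (e ∘ Sum.inl))
      (pow_ne_zero 2 hAinl)
    simp only [map_pow] at h5
    rw [hh_pow] at h5
    exact (mul_eq_zero.mp h5).resolve_left (by norm_num)
  simp only [hdual] at h1
  rw [h2, h3, h4] at h1
  linarith

theorem sum_dh_eq {l : List (Place K F)} (h : X.P0 ∉ l) :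
    Adm (fun v => (l.map fun P => X.ds v P X.P0).prod) ∧
    hh (fun v => (l.map fun P => X.ds v P X.P0).prod) = (l.map fun P => X.dh P X.P0).sum := by
  have h3 : ∀ P ∈ l, Adm (fun v => X.ds v P X.P0) := fun P hP => X.adm_ds (by
    rintro rfl; exact h hP)
  exact ⟨Adm.listProd l (fun P v => X.ds v P X.P0) h3, hh_listProd l _ h3⟩

theorem div_zeros {f : F} {m : ℕ} {l : List (Place K F)} (hf : f ≠ 0)
    (hfl : f ∈ LL (Finsupp.single X.P0 (m : ℤ) - dvl l)) :
    ∃ r : List (Place K F), dvl (l ++ r) = div f + Finsupp.single X.P0 (m : ℤ) ∧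
      (l ++ r).length = m := by
  rw [mem_LL_iff_div hf] at hfl
  obtain ⟨r, hr⟩ := exists_dvl hfl
  have h1 : dvl (l ++ r) = div f + Finsupp.single X.P0 (m : ℤ) := by
    rw [dvl_append, hr]; abel
  refine ⟨r, h1, ?_⟩
  have h2 := congrArg Divisor.degree h1
  rw [degree_dvl, map_add, degree_div, degree_single_one, zero_add] at h2
  exact_mod_cast h2

theorem P0_notMem {f : F} {m : ℕ} {l : List (Place K F)}
    (hdiv : dvl l = div f + Finsupp.single X.P0 (m : ℤ)) (hf : X.P0.adicValuation f = exp (m : ℤ)) :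
    X.P0 ∉ l := by
  classical
  intro h
  have h1 := congrArg (fun D : Divisor K F => D X.P0) hdiv
  simp only [Finsupp.add_apply, Finsupp.single_eq_same, div_apply, (val_eq_exp_iff.mp hf).2,
    dvl_apply] at h1
  have h2 := List.count_pos_iff.mpr h
  omega

/-- height of a rational function with exact order versus its zeros -/
theorem exists_hh_lead (m : ℕ) : ∃ C : ℝ, ∀ (f : VN X.P0 m) (l : List (Place K F)),
    IsFix X.Γ (f : F) → l.length = m → X.P0.adicValuation (f : F) = exp (m : ℤ) →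
    dvl l = div (f : F) + Finsupp.single X.P0 (m : ℤ) →
    |hh (fun v => nrm (X.Vf.av v) ((X.bb m).equivFun f)) + (l.map fun P => X.dh P X.P0).sum| ≤ C := by
  have hN0 : X.N0 = 4 * genusFF K F + 2 := rfl
  have hexp : (m + 2) * X.N0 = m * X.N0 + 2 * X.N0 := by ring
  have hmN : m ≤ m * X.N0 := Nat.le_mul_of_pos_right _ (by omega)
  obtain ⟨C, hC, hC'⟩ := exists_lead (L := m + 2) (m' := (m + 2) * X.N0 - m) X.Vf (X.bb X.N0)
    (X.bb m) X.ht le_rfl (by omega) (by omega) (by omega)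
  refine ⟨hh C, fun f l hff hlm hfe hdiv => ?_⟩
  have hf0 : f ≠ 0 := by
    rintro rfl
    rw [Submodule.coe_zero, map_zero] at hfe
    exact exp_ne_zero hfe.symm
  have hnot := X.P0_notMem hdiv hfe
  obtain ⟨h1, h2⟩ := X.sum_dh_eq hnot
  have hev : evv X.P0 X.t m X.P0 (f : F) ≠ 0 := by
    rw [evv_ne_zero_iff X.ht f.2, hfe, Finsupp.single_eq_same]
  have hpf := X.gav.pf _ (evv_fixed X.ht X.hP0 X.htf f.2 hff) hev
  have hc0 : (X.bb m).equivFun f ≠ 0 := fun h => hf0 ((X.bb m).equivFun.injective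
    (h.trans (map_zero _).symm))
  have h3 := adm_nrm X.Vf hc0
  have h4 := adm_av X.Vf hev
  rw [← h2, ← hh_mul h3 h1, abs_le]
  constructor
  · have := hh_le_mul h4 (h3.mul h1) hC fun v => (hC' v f l hf0 hlm hdiv).1
    linarith
  · have := hh_le_mul (h3.mul h1) h4 hC fun v => (hC' v f l hf0 hlm hdiv).2
    linarith

/-- (INV), one inequality -/
theorem exists_INV {L k : ℕ} (hkL : k + 2 ≤ L) :
    ∃ C : ℝ, ∀ l l' : List (Place K F), l.Nodup → l'.Nodup → l.length = k → l'.length = k →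
      X.P0 ∉ l → X.P0 ∉ l' → IsFix X.Γ (dvl l) → IsFix X.Γ (dvl l') →
      (∃ f : F, f ≠ 0 ∧ div f = dvl l' - dvl l) → X.GG L l' ≤ X.GG L l + C := by
  classical
  set N := L * X.N0 with hN
  have hN0 : X.N0 = 4 * genusFF K F + 2 := rfl
  have hNge : k + 2 * genusFF K F ≤ N := by
    have h1 : (k + 2) * X.N0 ≤ L * X.N0 := Nat.mul_le_mul_right _ hkL
    have h2 : (k + 2) * X.N0 = k * X.N0 + 2 * X.N0 := by ring
    have h3 : k ≤ k * X.N0 := Nat.le_mul_of_pos_right _ (by omega)
    omega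
  obtain ⟨δ, hδ⟩ : ∃ δ, δ + k = X.d N := ⟨X.d N - k, by
    have := X.d_eq (n := N) (by omega)
    omega⟩
  set m := k + 2 * genusFF K F + 1 with hm
  obtain ⟨C1, hC1⟩ := X.exists_GG_rho (L := L) (k := k) (by omega)
  obtain ⟨C2, hC2⟩ := X.exists_hh_lead m
  obtain ⟨C3, hC3, hC3'⟩ := exists_matF_mul (X.bb m) (X.bb N) (X.bb (m + N)) X.Vf rfl (Fin δ)
  refine ⟨2 * C1 + δ * (2 * C2) + 2 * hh C3, fun l l' hl hl' hlk hlk' hP hP' hfix hfix' hf => ?_⟩
  obtain ⟨f0, hf00, hf0d⟩ := hf
  obtain ⟨f, hf0, hff, hfd⟩ := X.exists_fixed_f (hfix'.sub hfix) hf00 hf0d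
  obtain ⟨b, hbf, hb0, hbl, hbe⟩ := X.exists_fixed_exact hfix hP (m := m) (by omega)
  -- the function `b' = f b`
  have hfP0 : X.P0.ord f = 0 := by
    have h1 := congrArg (fun D : Divisor K F => D X.P0) hfd
    simp only [div_apply, Finsupp.sub_apply, dvl_apply,
      List.count_eq_zero_of_not_mem hP, List.count_eq_zero_of_not_mem hP'] at h1
    simpa using h1
  have hb'0 : f * b ≠ 0 := mul_ne_zero hf0 hb0
  have hb'l : f * b ∈ LL (Finsupp.single X.P0 (m : ℤ) - dvl l') := by
    rw [mem_LL_iff_div hb'0, div_mul' hf0 hb0, hfd]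
    have := (mem_LL_iff_div hb0).mp hbl
    convert this using 1
    abel
  have hb'e : X.P0.adicValuation (f * b) = exp (m : ℤ) := by
    rw [val_eq_exp_iff]
    refine ⟨hb'0, ?_⟩
    rw [X.P0.ord_mul hf0 hb0, hfP0, (val_eq_exp_iff.mp hbe).2, zero_add]
  have hsub : ∀ (l : List (Place K F)) (n : ℕ),
      LL (Finsupp.single X.P0 (n : ℤ) - dvl l) ≤ VN X.P0 n := by
    intro l n
    apply L_mono
    intro v
    rw [Finsupp.sub_apply]
    have := dvl_nonneg l v
    rw [Finsupp.zero_apply] at this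
    linarith
  set B : VN X.P0 m := ⟨b, hsub _ _ hbl⟩ with hB
  set B' : VN X.P0 m := ⟨f * b, hsub _ _ hb'l⟩ with hB'
  have hBne : B ≠ 0 := fun h => hb0 (congrArg Subtype.val h)
  have hB'ne : B' ≠ 0 := fun h => hb'0 (congrArg Subtype.val h)
  obtain ⟨r, hr1, hr2⟩ := X.div_zeros hb0 hbl
  have hr1' : dvl (l' ++ r) = div (f * b) + Finsupp.single X.P0 (m : ℤ) := by
    rw [div_mul' hf0 hb0, hfd, add_assoc, ← hr1, dvl_append, dvl_append]
    abel
  have hr2' : (l' ++ r).length = m := by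
    rw [List.length_append] at hr2 ⊢
    omega
  have hH := hC2 B (l ++ r) hbf hr2 hbe hr1
  have hH' := hC2 B' (l' ++ r) (hff.mulF hbf) hr2' hb'e hr1'
  rw [List.map_append, List.sum_append] at hH hH'
  -- the bases
  have hell : ell (Finsupp.single X.P0 (N : ℤ) - dvl l : Divisor K F) = δ := by
    have h1 := X.ell_sub_dvl (l := l) (n := N) (by omega)
    have h2 := X.d_eq (n := N) (by omega)
    omega
  obtain ⟨w, hw1, hw2, hw3⟩ := X.exists_rat_basis hfix hell
  have hw'mem : ∀ i, f * (w i : F) ∈ LL (Finsupp.single X.P0 (N : ℤ) - dvl l') := by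
    intro i
    have hwi0 : (w i : F) ≠ 0 := fun h => hw3.ne_zero i (Subtype.ext h)
    rw [mem_LL_iff_div (mul_ne_zero hf0 hwi0), div_mul' hf0 hwi0, hfd]
    have := (mem_LL_iff_div hwi0).mp (hw2 i)
    convert this using 1
    abel
  set w' : Fin δ → VN X.P0 N := fun i => ⟨f * (w i : F), hsub _ _ (hw'mem i)⟩ with hw'
  have hw'3 : LinearIndependent K w' := by
    rw [Fintype.linearIndependent_iff] at hw3 ⊢
    intro a ha i
    apply hw3 a _ i
    apply Subtype.ext
    have h1 := congrArg Subtype.val ha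
    rw [Submodule.coe_sum] at h1 ⊢
    simp only [Submodule.coe_smul, hw', ← mul_smul_comm] at h1
    rw [← Finset.mul_sum] at h1
    rw [Submodule.coe_zero] at h1 ⊢
    rcases mul_eq_zero.mp h1 with h2 | h2
    · exact absurd h2 hf0
    · simpa using h2
  have hdu := X.hh_dual (l := l) (by omega) hl hfix (hC1 l hl hlk).1
    (show δ + l.length = X.d N by omega) w hw1 hw2 hw3
  have hdu' := X.hh_dual (l := l') (by omega) hl' hfix' (hC1 l' hl' hlk').1
    (show δ + l'.length = X.d N by omega) w'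
    (fun i => hff.mulF (hw1 i)) hw'mem hw'3
  have hmul : (fun i => mulL (K := K) rfl B (w' i)) = fun i => mulL (q := m + N) rfl B' (w i) := by
    funext i
    apply Subtype.ext
    show b * (f * (w i : F)) = f * b * (w i : F)
    ring
  have hAw : Adm (fun v => HH (X.Vf.av v) (matF (X.bb N) w)) := adm_HH X.Vf _ (by
    have : (matF (X.bb N) w).row = (X.bb N).equivFun.toLinearMap ∘ w := rfl
    rw [this]
    exact hw3.map' _ (by rw [LinearMap.ker_eq_bot]; exact (X.bb N).equivFun.injective))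
  have hAw' : Adm (fun v => HH (X.Vf.av v) (matF (X.bb N) w')) := adm_HH X.Vf _ (by
    have : (matF (X.bb N) w').row = (X.bb N).equivFun.toLinearMap ∘ w' := rfl
    rw [this]
    exact hw'3.map' _ (by rw [LinearMap.ker_eq_bot]; exact (X.bb N).equivFun.injective))
  have hAB : Adm (fun v => nrm (X.Vf.av v) ((X.bb m).equivFun B)) := adm_nrm X.Vf fun h =>
    hBne ((X.bb m).equivFun.injective (h.trans (map_zero _).symm))
  have hAB' : Adm (fun v => nrm (X.Vf.av v) ((X.bb m).equivFun B')) := adm_nrm X.Vf fun h =>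
    hB'ne ((X.bb m).equivFun.injective (h.trans (map_zero _).symm))
  have hkey : δ * hh (fun v => nrm (X.Vf.av v) ((X.bb m).equivFun B)) +
      hh (fun v => HH (X.Vf.av v) (matF (X.bb N) w')) ≤ 2 * hh C3 +
      (δ * hh (fun v => nrm (X.Vf.av v) ((X.bb m).equivFun B')) +
      hh (fun v => HH (X.Vf.av v) (matF (X.bb N) w))) := by
    have h1 := hh_le_mul (x := fun v => nrm (X.Vf.av v) ((X.bb m).equivFun B) ^ δ *
        HH (X.Vf.av v) (matF (X.bb N) w'))
      (y := fun v => nrm (X.Vf.av v) ((X.bb m).equivFun B') ^ δ *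
        HH (X.Vf.av v) (matF (X.bb N) w)) ((hAB.pow δ).mul hAw') ((hAB'.pow δ).mul hAw)
      (hC3.mul hC3) (fun v => by
        have h2 := (hC3' v B hBne w').2
        have h3 := (hC3' v B' hB'ne w).1
        rw [hmul] at h2
        rw [Fintype.card_fin] at h2 h3
        calc _ ≤ _ := h2
          _ ≤ C3 v * _ := mul_le_mul_of_nonneg_left h3 (hC3.nonneg v)
          _ = _ := by ring)
    rw [hh_mul (hAB.pow δ) hAw', hh_mul (hAB'.pow δ) hAw, hh_mul (Adm.ofMC hC3) (Adm.ofMC hC3),
      hh_pow, hh_pow] at h1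
    linarith
  have hG := (hC1 l hl hlk).2
  have hG' := (hC1 l' hl' hlk').2
  rw [hdu] at hG
  rw [hdu'] at hG'
  rw [abs_le] at hH hH' hG hG'
  unfold GG
  have hδR : ((X.d (L * X.N0) : ℝ) - l.length) = δ := by
    rw [← hN, ← hδ, hlk]; push_cast; ring
  have hδR' : ((X.d (L * X.N0) : ℝ) - l'.length) = δ := by
    rw [← hN, ← hδ, hlk']; push_cast; ring
  rw [hδR, hδR']
  have hδ0 : (0 : ℝ) ≤ δ := Nat.cast_nonneg δ
  have e1 := mul_le_mul_of_nonneg_left hH'.2 hδ0
  have e2 := mul_le_mul_of_nonneg_left hH.1 hδ0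
  ring_nf at e1 e2 hkey hG hG' ⊢
  nlinarith [e1, e2, hkey, hG.1, hG.2, hG'.1, hG'.2]

end Ctx

end Fermat.Agent.MW
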