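import Fermat.Agent.MW.Model2

/-!
# Mordell-Weil: norms of products
-/

set_option autoImplicit false

noncomputable section

namespace Fermat.Agent.MW

open Finset Filter

variable {K : Type*} [Field K] (Vf : AVF K)

section Bilin

variable {α m n p : Type*} [Fintype α] [Fintype m] [DecidableEq m] [Fintype n]
  [DecidableEq n] [Fintype p]

/-- linear combination of matrices -/
def TT {R : Type*} [CommRing R] (τ : α → Matrix n p R) (a : α → R) : Matrix n p R :=
  ∑ i, a i • τ i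

omit [Fintype n] [DecidableEq n] [Fintype p] in
theorem TT_apply {R : Type*} [CommRing R] (τ : α → Matrix n p R) (a : α → R) (i : n) (j : p) :
    TT τ a i j = ∑ k, a k * τ k i j := by
  unfold TT
  rw [Matrix.sum_apply]
  rfl

omit [Fintype n] [DecidableEq n] [Fintype p] in
theorem TT_smul {R : Type*} [CommRing R] (τ : α → Matrix n p R) (s : R) (a : α → R) :
    TT τ (s • a) = s • TT τ a := by
  unfold TT
  rw [Finset.smul_sum]
  exact Finset.sum_congr rfl fun i _ => by rw [Pi.smul_apply, smul_smul, smul_eq_mul]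

omit [Fintype α] in
theorem nrm_zero [Finite α] (v : AbsoluteValue K ℝ) : nrm v (0 : α → K) = 0 := by
  apply le_antisymm
  · exact nrm_le v _ le_rfl fun i => by simp
  · exact nrm_nonneg _ _

omit [DecidableEq n] in
theorem exists_TT_le (τ : α → Matrix n p K) :
    ∃ C : Vf.Λ → ℝ, IsMC C ∧ ∀ v (a : α → K) i j, Vf.av v (TT τ a i j) ≤ C v * nrm (Vf.av v) a := by
  obtain ⟨C, hC, hC'⟩ := Vf.exists_bound (fun q : α × n × p => τ q.1 q.2.1 q.2.2)
  refine ⟨fun v => kap (Vf.av v) (Fintype.card α) * C v, (Vf.kap_MC _).mul hC,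
    fun v a i j => ?_⟩
  rw [TT_apply, mul_assoc]
  refine abv_sum_univ_le _ _ (mul_nonneg (hC.nonneg v) (nrm_nonneg _ _)) fun k => ?_
  rw [(Vf.av v).map_mul, mul_comm (C v)]
  exact mul_le_mul (le_nrm _ _ _) (hC' (k, i, j) v) ((Vf.av v).nonneg _) (nrm_nonneg _ _)

theorem HH_smul (v : AbsoluteValue K ℝ) (s : K) (A : Matrix n p K) :
    HH v (s • A) = v s ^ Fintype.card n * HH v A := by
  have h1 : s • A = (s • (1 : Matrix n n K)) * A := by
    rw [Matrix.smul_mul, Matrix.one_mul]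
  rw [h1, HH_mul_left, Matrix.det_smul, Matrix.det_one, mul_one, map_pow]

theorem exists_TT_ge [IsAlgClosed K] (τ : α → Matrix n p K)
    (hτ : ∀ a, a ≠ 0 → LinearIndependent K (TT τ a).row) :
    ∃ C : Vf.Λ → ℝ, IsMC C ∧ ∀ v (a : α → K), a ≠ 0 →
      nrm (Vf.av v) a ^ Fintype.card n ≤ C v * HH (Vf.av v) (TT τ a) := by
  classical
  have key : ∀ i0 : α, ∃ C : Vf.Λ → ℝ, IsMC C ∧ ∀ v (a : α → K), (∀ i, Vf.av v (a i) ≤ 1) →
      a i0 = 1 → 1 ≤ C v * HH (Vf.av v) (TT τ a) := by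
    intro i0
    let t : (n → p) → MvPolynomial α K := fun f =>
      ((TT (fun k => (τ k).map MvPolynomial.C) (fun k => (MvPolynomial.X k : MvPolynomial α K))).submatrix id f).det
    have ht : ∀ (z : α → K) f, MvPolynomial.eval z (t f) = ((TT τ z).submatrix id f).det := by
      intro z f
      show MvPolynomial.eval z (Matrix.det _) = _
      rw [RingHom.map_det]
      congr 1
      ext i j
      rw [RingHom.mapMatrix_apply, Matrix.map_apply, Matrix.submatrix_apply,
        Matrix.submatrix_apply, TT_apply, TT_apply, map_sum]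
      simp
    obtain ⟨C, hC, hC'⟩ := Vf.nss ({MvPolynomial.X i0 - 1} : Set (MvPolynomial α K)) t (by
      intro z hz
      have h1 := hz _ rfl
      rw [map_sub, MvPolynomial.eval_X, map_one, sub_eq_zero] at h1
      have hz0 : z ≠ 0 := by
        intro h
        rw [h, Pi.zero_apply] at h1
        exact zero_ne_one h1
      obtain ⟨f, hf⟩ := exists_det_ne_zero _ (hτ z hz0)
      exact ⟨f, by rw [ht]; exact hf⟩)
    refine ⟨C, hC, fun v a ha ha1 => ?_⟩
    obtain ⟨f, hf⟩ := hC' v a ha (by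
      rintro e rfl
      rw [map_sub, MvPolynomial.eval_X, map_one, ha1, sub_self])
    rw [ht] at hf
    exact hf.trans (mul_le_mul_of_nonneg_left (le_HH _ _ _) (hC.nonneg v))
  obtain ⟨C, hC, hC2⟩ := exists_MC_of_finite
    (fun (i0 : α) (C : Vf.Λ → ℝ) => ∀ v (a : α → K), (∀ i, Vf.av v (a i) ≤ 1) →
      a i0 = 1 → 1 ≤ C v * HH (Vf.av v) (TT τ a))
    (fun i0 C D hCD h v a ha ha1 => (h v a ha ha1).trans
      (mul_le_mul_of_nonneg_right (hCD v) (HH_nonneg _ _))) key
  refine ⟨C, hC, fun v a ha => ?_⟩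
  obtain ⟨i0, hi0⟩ := exists_eq_nrm (Vf.av v) ha
  have hpos := nrm_pos (Vf.av v) ha
  have hne : a i0 ≠ 0 := by
    intro h
    rw [h, map_zero] at hi0
    exact hpos.ne hi0
  have h1 := hC2 i0 v ((a i0)⁻¹ • a) (fun i => by
    rw [Pi.smul_apply, smul_eq_mul, (Vf.av v).map_mul, map_inv₀, hi0, inv_mul_le_iff₀ hpos, mul_one]
    exact le_nrm _ _ _) (by
    rw [Pi.smul_apply, smul_eq_mul, inv_mul_cancel₀ hne])
  rw [TT_smul, HH_smul, map_inv₀, hi0, inv_pow] at h1
  have h2 : 0 < nrm (Vf.av v) a ^ Fintype.card n := pow_pos hpos _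
  calc nrm (Vf.av v) a ^ Fintype.card n = nrm (Vf.av v) a ^ Fintype.card n * 1 := (mul_one _).symm
    _ ≤ nrm (Vf.av v) a ^ Fintype.card n * (C v * ((nrm (Vf.av v) a ^ Fintype.card n)⁻¹ *
        HH (Vf.av v) (TT τ a))) := mul_le_mul_of_nonneg_left h1 h2.le
    _ = C v * HH (Vf.av v) (TT τ a) := by field_simp

theorem exists_HH_mul_le (τ : α → Matrix n p K) (m : Type*) [Fintype m] [DecidableEq m] :
    ∃ C : Vf.Λ → ℝ, IsMC C ∧ ∀ v (a : α → K) (M : Matrix m n K),
      HH (Vf.av v) (M * TT τ a) ≤ C v * (nrm (Vf.av v) a ^ Fintype.card m * HH (Vf.av v) M) := by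
  obtain ⟨C, hC, hC'⟩ := exists_TT_le Vf τ
  refine ⟨fun v => kap (Vf.av v) (Fintype.card (Equiv.Perm m)) *
    (kap (Vf.av v) (Fintype.card n) * C v) ^ (Fintype.card m),
    (Vf.kap_MC _).mul (((Vf.kap_MC _).mul hC).pow _), fun v a M => ?_⟩
  have := HH_mul_right_le (Vf.av v) M (TT τ a) (mul_nonneg (hC.nonneg v) (nrm_nonneg (Vf.av v) a))
    (hC' v a)
  refine this.trans (le_of_eq ?_)
  rw [← mul_assoc (kap (Vf.av v) (Fintype.card n)), mul_pow _ (nrm (Vf.av v) a)]
  ring

theorem exists_HH_mul_ge [IsAlgClosed K] (τ : α → Matrix n p K)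
    (hτ : ∀ a, a ≠ 0 → LinearIndependent K (TT τ a).row) (m : Type*) [Fintype m] [DecidableEq m] :
    ∃ C : Vf.Λ → ℝ, IsMC C ∧ ∀ v (a : α → K), a ≠ 0 → ∀ (M : Matrix m n K),
      nrm (Vf.av v) a ^ Fintype.card m * HH (Vf.av v) M ≤ C v * HH (Vf.av v) (M * TT τ a) := by
  obtain ⟨C1, hC1, hC1'⟩ := exists_TT_le Vf τ
  obtain ⟨C2, hC2, hC2'⟩ := exists_TT_ge Vf τ hτ
  refine ⟨fun v => C2 v * (kap (Vf.av v) (Fintype.card n).factorial *
    C1 v ^ (Fintype.card n - Fintype.card m)),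
    hC2.mul ((Vf.kap_MC _).mul (hC1.pow _)), fun v a ha M => ?_⟩
  rcases lt_or_ge (Fintype.card n) (Fintype.card m) with hlt | hle
  · have h0 : HH (Vf.av v) M = 0 := by
      by_contra h
      have h1 := (HH_ne_zero_iff (Vf.av v) M).mp h
      have h2 := h1.fintype_card_le_finrank
      rw [Module.finrank_fintype_fun_eq_card] at h2
      omega
    rw [h0, mul_zero]
    exact mul_nonneg (mul_nonneg (hC2.nonneg v) (mul_nonneg (kap_pos _ _).le
      (pow_nonneg (hC1.nonneg v) _))) (HH_nonneg _ _)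
  have hpos := nrm_pos (Vf.av v) ha
  have h1 := hC2' v a ha
  have h2 := HH_mul_right_ge (Vf.av v) M (TT τ a)
    (mul_nonneg (hC1.nonneg v) (nrm_nonneg (Vf.av v) a)) (hC1' v a)
  have h3 : 0 < nrm (Vf.av v) a ^ (Fintype.card n - Fintype.card m) := pow_pos hpos _
  have h4 : nrm (Vf.av v) a ^ Fintype.card n =
      nrm (Vf.av v) a ^ (Fintype.card n - Fintype.card m) * nrm (Vf.av v) a ^ Fintype.card m := by
    rw [← pow_add]; congr 1; omega
  apply le_of_mul_le_mul_left _ h3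
  calc nrm (Vf.av v) a ^ (Fintype.card n - Fintype.card m) *
        (nrm (Vf.av v) a ^ Fintype.card m * HH (Vf.av v) M) =
        nrm (Vf.av v) a ^ Fintype.card n * HH (Vf.av v) M := by rw [h4]; ring
    _ ≤ (C2 v * HH (Vf.av v) (TT τ a)) * HH (Vf.av v) M :=
        mul_le_mul_of_nonneg_right h1 (HH_nonneg _ _)
    _ = C2 v * (HH (Vf.av v) (TT τ a) * HH (Vf.av v) M) := by ring
    _ ≤ C2 v * (kap (Vf.av v) (Fintype.card n).factorial *
          (C1 v * nrm (Vf.av v) a) ^ (Fintype.card n - Fintype.card m) *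
          HH (Vf.av v) (M * TT τ a)) := mul_le_mul_of_nonneg_left h2 (hC2.nonneg v)
    _ = _ := by rw [mul_pow]; ring

end Bilin

section Row

variable {n p : Type*} [Fintype n] [Fintype p]

/-- one row matrix -/
def rowM (u : n → K) : Matrix Unit n K := Matrix.of fun _ j => u j

omit [Fintype n] in
theorem HH_rowM [Finite n] (v : AbsoluteValue K ℝ) (u : n → K) : HH v (rowM u) = nrm v u := by
  apply le_antisymm
  · refine HH_le v _ (nrm_nonneg _ _) fun f => ?_
    rw [Matrix.det_unique]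
    exact le_nrm v u _
  · refine nrm_le v _ (HH_nonneg _ _) fun i => ?_
    have := le_HH v (rowM u) (fun _ => i)
    rwa [Matrix.det_unique] at this

theorem rowM_mul [DecidableEq n] (u : n → K) (T : Matrix n p K) :
    rowM u * T = rowM (T.vecMulLinear u) := by
  ext i j
  simp [rowM, Matrix.mul_apply, Matrix.vecMul, dotProduct]

end Row

end Fermat.Agent.MW
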