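import Fermat.Agent.MW.Curve3
import Fermat.Agent.MW.Mult
import Fermat.Agent.MW.Rho

/-!
# Mordell-Weil: lists of places, norms on Riemann-Roch spaces, leading coefficients
-/

set_option autoImplicit false
set_option linter.unusedSectionVars false

noncomputable section

namespace Fermat.Agent.MW

open AlgebraicCurve Fermat.Agent.FF WithZero

variable {K F : Type*} [Field K] [Field F] [Algebra K F] [IsAlgClosed K] [FunField K F]
variable [CharZero K]

section Lists

/-- divisor of a list -/
def dvl (l : List (Place K F)) : Divisor K F := (l.map fun P => Finsupp.single P 1).sum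

@[simp] theorem dvl_nil : dvl ([] : List (Place K F)) = 0 := rfl

@[simp] theorem dvl_cons (P : Place K F) (l : List (Place K F)) :
    dvl (P :: l) = Finsupp.single P 1 + dvl l := rfl

theorem dvl_append (l l' : List (Place K F)) : dvl (l ++ l') = dvl l + dvl l' := by
  simp [dvl]

theorem degree_dvl (l : List (Place K F)) : Divisor.degree (dvl l) = l.length := by
  induction l with
  | nil => simp
  | cons P l ih =>
    rw [dvl_cons, map_add, degree_single_one, ih, List.length_cons]
    push_cast
    ring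

theorem dvl_apply [DecidableEq (Place K F)] (l : List (Place K F)) (P : Place K F) :
    dvl l P = l.count P := by
  induction l with
  | nil => simp
  | cons Q l ih =>
    rw [dvl_cons, Finsupp.add_apply, ih, Finsupp.single_apply, List.count_cons]
    simp only [beq_iff_eq]
    split_ifs <;> push_cast <;> ring

theorem dvl_nonneg (l : List (Place K F)) : 0 ≤ dvl l := by
  classical
  intro P
  rw [dvl_apply]
  simp

theorem dvl_perm {l l' : List (Place K F)} (h : dvl l = dvl l') : l.Perm l' := by
  classical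
  rw [List.perm_iff_count]
  intro P
  have := congrArg (fun D : Divisor K F => D P) h
  simp only [dvl_apply] at this
  exact_mod_cast this

theorem dvl_eq_of_perm {l l' : List (Place K F)} (h : l.Perm l') : dvl l = dvl l' :=
  (h.map _).sum_eq

theorem exists_dvl {E : Divisor K F} (hE : 0 ≤ E) : ∃ l : List (Place K F), dvl l = E := by
  classical
  induction E using Finsupp.induction with
  | zero => exact ⟨[], rfl⟩
  | single_add P n E hP hn ih =>
    have hEP : E P = 0 := by simpa using hP
    have h1 : 0 ≤ n := by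
      have := hE P
      rw [Finsupp.add_apply, Finsupp.single_eq_same, hEP, add_zero] at this
      exact this
    obtain ⟨l, hl⟩ := ih (by
      intro Q
      have h2 := hE Q
      rw [Finsupp.add_apply] at h2
      by_cases hQ : Q = P
      · rw [hQ, hEP]; exact le_rfl
      · rw [Finsupp.single_eq_of_ne hQ, zero_add] at h2
        exact h2)
    refine ⟨List.replicate n.toNat P ++ l, ?_⟩
    rw [dvl_append, hl]
    congr 1
    rw [dvl, List.map_replicate, List.sum_replicate, Finsupp.smul_single]
    congr 1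
    simp [h1]

theorem sum_act (L : ℕ) (l : List (Place K F)) (P0 : Place K F) (hl : l.length ≤ L) :
    ∑ m ∈ PModel.act L l.length, Finsupp.single (PModel.lp P0 l m : Place K F) (1 : ℤ) =
      dvl l := by
  have h1 : dvl l = ∑ j : Fin l.length, Finsupp.single (l.get j) (1 : ℤ) := by
    unfold dvl
    rw [← List.sum_ofFn]
    congr 1
    apply List.ext_getElem <;> simp
  rw [h1]
  symm
  refine Finset.sum_bij (fun j _ => Fin.castLE hl j) ?_ ?_ ?_ ?_
  · intro j _
    rw [PModel.mem_act]
    exact j.2
  · intro a _ b _ h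
    exact Fin.castLE_injective hl h
  · intro m hm
    rw [PModel.mem_act] at hm
    exact ⟨⟨m.val, hm⟩, Finset.mem_univ _, rfl⟩
  · intro j _
    congr 1
    simp [PModel.lp]

end Lists

section MemW

variable {P0 : Place K F} {t : F} {N0 L : ℕ} {ι κ : Type*} [Fintype ι] [DecidableEq ι] [Fintype κ]
  (b : Module.Basis ι K (VN P0 N0)) (bk : Module.Basis κ K (VN P0 (L * N0)))
  (ht : P0.adicValuation t = exp (-1 : ℤ)) (hN0 : 4 * genusFF K F + 2 ≤ N0)

theorem mem_W_iff {l : List (Place K F)} (hl : l.length + 2 ≤ L) (Q : Place K F)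
    (w : VN P0 (L * N0)) :
    bk.equivFun w ∈ (mkModel b bk ht hN0).W l.length (PModel.lp Q l) ↔
      (w : F) ∈ LL (Finsupp.single P0 ((L * N0 : ℕ) : ℤ) - dvl l) := by
  have hcard : (PModel.act L l.length).card = l.length := by
    rw [PModel.act, Fin.card_filter_val_lt]
    omega
  have h1 := span_VV_mod b bk ht hN0 (PModel.act L l.length) (by rw [hcard]; exact hl)
    (PModel.lp Q l)
  rw [sum_act L l Q (by omega)] at h1
  show bk.equivFun w ∈ Submodule.span K (Set.range _) ↔ _
  rw [show (mkModel b bk ht hN0).c = cMod P0 N0 L b bk from rfl,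
    show (fun m => (mkModel b bk ht hN0).e (PModel.lp Q l m)) =
      fun m => eMod P0 t N0 b (PModel.lp Q l m) from rfl, h1]
  constructor
  · rintro ⟨w', hw', h2⟩
    have : w' = w := bk.equivFun.injective h2
    rw [← this]
    exact hw'
  · intro h
    exact ⟨w, h, rfl⟩

theorem E_dot (P : Place K F) (w : VN P0 (L * N0)) :
    (mkModel b bk ht hN0).E P ⬝ᵥ bk.equivFun w = evv P0 t (L * N0) P (w : F) := by
  rw [evv_eq_sum ht bk P w]
  unfold dotProduct
  exact Finset.sum_congr rfl fun i _ => mul_comm _ _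

theorem E_dot' (P : Place K F) (a : κ → K) :
    (mkModel b bk ht hN0).E P ⬝ᵥ a = evv P0 t (L * N0) P (bk.equivFun.symm a : F) := by
  rw [← E_dot b bk ht hN0 P, LinearEquiv.apply_symm_apply]

end MemW

section MulF

variable {P0 : Place K F} {m n q : ℕ} {α ν π : Type*} [Fintype α] [Fintype ν]
  [Fintype π]

/-- multiplication -/
def mulL (h : m + n = q) (f : VN P0 m) : VN P0 n →ₗ[K] VN P0 q where
  toFun g := ⟨(f : F) * g, h ▸ mul_mem_VN f.2 g.2⟩
  map_add' g g' := Subtype.ext (mul_add _ _ _)
  map_smul' c g := Subtype.ext (by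
    show (f : F) * (c • (g : F)) = c • ((f : F) * g)
    rw [mul_smul_comm])

theorem mulL_injective (h : m + n = q) {f : VN P0 m} (hf : f ≠ 0) :
    Function.Injective (mulL (K := K) h f) := by
  intro g g' hgg
  have h1 : (f : F) * g = (f : F) * g' := congrArg Subtype.val hgg
  have h2 : (f : F) ≠ 0 := fun h => hf (Subtype.ext h)
  exact Subtype.ext (mul_left_cancel₀ h2 h1)

variable (ba : Module.Basis α K (VN P0 m)) (bn : Module.Basis ν K (VN P0 n))
  (bp : Module.Basis π K (VN P0 q))

/-- structure constants of multiplication -/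
def tauF (h : m + n = q) (i : α) : Matrix ν π K :=
  Matrix.of fun j => bp.equivFun (mulL h (ba i) (bn j))

theorem TT_tauF (h : m + n = q) (f : VN P0 m) (j : ν) :
    TT (tauF ba bn bp h) (ba.equivFun f) j = bp.equivFun (mulL h f (bn j)) := by
  funext k
  rw [TT_apply]
  have h1 : mulL h f (bn j) = ∑ i, ba.equivFun f i • mulL h (ba i) (bn j) := by
    apply Subtype.ext
    rw [Submodule.coe_sum]
    simp only [Submodule.coe_smul]
    show (f : F) * (bn j : F) = ∑ i, ba.equivFun f i • ((ba i : F) * (bn j : F))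
    have h2 := congrArg Subtype.val (ba.sum_equivFun f)
    simp only [Submodule.coe_sum, Submodule.coe_smul] at h2
    conv_lhs => rw [← h2]
    rw [Finset.sum_mul]
    exact Finset.sum_congr rfl fun i _ => smul_mul_assoc _ _ _
  rw [h1, map_sum, Finset.sum_apply]
  refine Finset.sum_congr rfl fun i _ => ?_
  rw [map_smul, Pi.smul_apply, smul_eq_mul]
  rfl

theorem TT_tauF_li (h : m + n = q) (a : α → K) (ha : a ≠ 0) :
    LinearIndependent K (TT (tauF ba bn bp h) a).row := by
  obtain ⟨f, rfl⟩ := ba.equivFun.surjective a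
  have hf : f ≠ 0 := by
    rintro rfl
    exact ha (map_zero _)
  have h1 : (TT (tauF ba bn bp h) (ba.equivFun f)).row =
      (bp.equivFun.toLinearMap ∘ₗ mulL h f) ∘ bn := by
    funext j
    exact TT_tauF ba bn bp h f j
  rw [h1]
  apply bn.linearIndependent.map'
  rw [LinearMap.ker_eq_bot]
  exact bp.equivFun.injective.comp (mulL_injective h hf)

/-- matrix of coordinates -/
def matF {r : Type*} {n : ℕ} {ν : Type*} [Finite ν] (bn : Module.Basis ν K (VN P0 n))
    (w : r → VN P0 n) : Matrix r ν K := Matrix.of fun i => bn.equivFun (w i)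

theorem matF_mul {r : Type*} (h : m + n = q) (f : VN P0 m) (w : r → VN P0 n) :
    matF bp (fun i => mulL h f (w i)) = matF bn w * TT (tauF ba bn bp h) (ba.equivFun f) := by
  ext i k
  rw [Matrix.mul_apply]
  show bp.equivFun (mulL h f (w i)) k = ∑ j, bn.equivFun (w i) j * _
  simp only [TT_tauF]
  have h2 := bn.sum_equivFun (w i)
  conv_lhs => rw [← h2]
  rw [map_sum, map_sum, Finset.sum_apply]
  refine Finset.sum_congr rfl fun j _ => ?_
  rw [map_smul, map_smul, Pi.smul_apply, smul_eq_mul]

variable (Vf : AVF K)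

/-- (B2) -/
theorem exists_matF_mul [DecidableEq ν] (h : m + n = q) (r : Type*) [Fintype r] [DecidableEq r] :
    ∃ C : Vf.Λ → ℝ, IsMC C ∧ ∀ v (f : VN P0 m), f ≠ 0 → ∀ (w : r → VN P0 n),
      HH (Vf.av v) (matF bp (fun i => mulL h f (w i))) ≤
        C v * (nrm (Vf.av v) (ba.equivFun f) ^ Fintype.card r * HH (Vf.av v) (matF bn w)) ∧
      nrm (Vf.av v) (ba.equivFun f) ^ Fintype.card r * HH (Vf.av v) (matF bn w) ≤
        C v * HH (Vf.av v) (matF bp (fun i => mulL h f (w i))) := by
  obtain ⟨C1, hC1, hC1'⟩ := exists_HH_mul_le Vf (tauF ba bn bp h) r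
  obtain ⟨C2, hC2, hC2'⟩ := exists_HH_mul_ge Vf (tauF ba bn bp h) (TT_tauF_li ba bn bp h) r
  refine ⟨fun v => max (C1 v) (C2 v), hC1.max hC2, fun v f hf w => ?_⟩
  rw [matF_mul ba bn bp h f w]
  constructor
  · exact (hC1' v _ _).trans (mul_le_mul_of_nonneg_right (le_max_left _ _)
      (mul_nonneg (pow_nonneg (nrm_nonneg _ _) _) (HH_nonneg _ _)))
  · refine (hC2' v _ (fun h0 => hf ?_) _).trans (mul_le_mul_of_nonneg_right (le_max_right _ _)
      (HH_nonneg _ _))
    exact ba.equivFun.injective (h0.trans (map_zero _).symm)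

/-- (B1) -/
theorem exists_nrm_mul (h : m + n = q) :
    ∃ C : Vf.Λ → ℝ, IsMC C ∧ ∀ v (f : VN P0 m), f ≠ 0 → ∀ (g : VN P0 n),
      nrm (Vf.av v) (bp.equivFun (mulL h f g)) ≤
        C v * (nrm (Vf.av v) (ba.equivFun f) * nrm (Vf.av v) (bn.equivFun g)) ∧
      nrm (Vf.av v) (ba.equivFun f) * nrm (Vf.av v) (bn.equivFun g) ≤
        C v * nrm (Vf.av v) (bp.equivFun (mulL h f g)) := by
  classical
  obtain ⟨C, hC, hC'⟩ := exists_matF_mul ba bn bp Vf h Unit
  refine ⟨C, hC, fun v f hf g => ?_⟩
  have := hC' v f hf (fun _ => g)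
  have h1 : matF bp (fun _ : Unit => mulL h f g) = rowM (bp.equivFun (mulL h f g)) := rfl
  have h2 : matF bn (fun _ : Unit => g) = rowM (bn.equivFun g) := rfl
  rw [h1, h2, HH_rowM, HH_rowM, Fintype.card_unit, pow_one] at this
  exact this

end MulF

end Fermat.Agent.MW
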