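import Fermat.Agent.MW.LF

/-!
# Mordell-Weil: leading coefficients and distances to the base point
-/

set_option autoImplicit false
set_option linter.unusedSectionVars false

noncomputable section

namespace Fermat.Agent.MW

open AlgebraicCurve Fermat.Agent.FF WithZero

section Aux

variable {K : Type*} [Field K] (Vf : AVF K)

theorem exists_inv_bound {x : K} (hx : x ≠ 0) :
    ∃ C : Vf.Λ → ℝ, IsMC C ∧ ∀ v, 1 ≤ C v * Vf.av v x := by
  obtain ⟨C, hC, hC'⟩ := Vf.exists_bound (fun _ : Unit => x⁻¹)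
  refine ⟨C, hC, fun v => ?_⟩
  have h1 := hC' () v
  rw [map_inv₀] at h1
  have h2 : 0 < Vf.av v x := (Vf.av v).pos hx
  rwa [inv_le_iff_one_le_mul₀ h2] at h1

theorem exists_nrm_inv_bound {ι : Type*} [Finite ι] {x : ι → K} (hx : x ≠ 0) :
    ∃ C : Vf.Λ → ℝ, IsMC C ∧ ∀ v, 1 ≤ C v * nrm (Vf.av v) x := by
  obtain ⟨i, hi⟩ := Function.ne_iff.mp hx
  obtain ⟨C, hC, hC'⟩ := exists_inv_bound Vf hi
  exact ⟨C, hC, fun v => (hC' v).trans (mul_le_mul_of_nonneg_left (le_nrm _ _ _) (hC.nonneg v))⟩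

theorem exists_nrm_bound {ι : Type*} [Finite ι] (x : ι → K) :
    ∃ C : Vf.Λ → ℝ, IsMC C ∧ ∀ v, nrm (Vf.av v) x ≤ C v := by
  obtain ⟨C, hC, hC'⟩ := Vf.exists_bound x
  exact ⟨C, hC, fun v => nrm_le _ _ (hC.nonneg v) fun i => hC' i v⟩

end Aux

variable {K F : Type*} [Field K] [Field F] [Algebra K F] [IsAlgClosed K] [FunField K F]
variable [CharZero K] (Vf : AVF K)

theorem exists_evv_le {P0 : Place K F} {t : F} (ht : P0.adicValuation t = exp (-1 : ℤ)) {N : ℕ}
    {ι : Type*} [Fintype ι] (b : Module.Basis ι K (VN P0 N)) (P : Place K F) :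
    ∃ C : Vf.Λ → ℝ, IsMC C ∧ ∀ v (f : VN P0 N),
      Vf.av v (evv P0 t N P (f : F)) ≤ C v * nrm (Vf.av v) (b.equivFun f) := by
  obtain ⟨C, hC, hC'⟩ := Vf.exists_bound (fun i => evv P0 t N P (b i : F))
  refine ⟨fun v => kap (Vf.av v) (Fintype.card ι) * C v, (Vf.kap_MC _).mul hC, fun v f => ?_⟩
  rw [evv_eq_sum ht b P f, mul_assoc]
  refine abv_sum_univ_le _ _ (mul_nonneg (hC.nonneg v) (nrm_nonneg _ _)) fun i => ?_
  rw [(Vf.av v).map_mul, mul_comm]
  exact mul_le_mul (hC' i v) (le_nrm _ (b.equivFun f) i) ((Vf.av v).nonneg _) (hC.nonneg v)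

section Lead

variable {P0 : Place K F} {t : F} {N0 L m m' : ℕ} {ι κ α β : Type*} [Fintype ι] [DecidableEq ι]
  [Fintype κ] [Fintype α] [Fintype β]
  (b : Module.Basis ι K (VN P0 N0)) (bk : Module.Basis κ K (VN P0 (L * N0)))
  (ba : Module.Basis α K (VN P0 m))
  (ht : P0.adicValuation t = exp (-1 : ℤ)) (hN0 : 4 * genusFF K F + 2 ≤ N0)

/-- distance in the model (only depends on `b`) -/
def dst (P0 : Place K F) (t : F) {N0 : ℕ} (b : Module.Basis ι K (VN P0 N0))
    (v : AbsoluteValue K ℝ) (P Q : Place K F) : ℝ :=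
  ddv v (eMod P0 t N0 b P) (eMod P0 t N0 b Q) /
    (nrm v (eMod P0 t N0 b P) * nrm v (eMod P0 t N0 b Q))

theorem dist_eq_dst (v : AbsoluteValue K ℝ) (P Q : Place K F) :
    (mkModel b bk ht hN0).dist v P Q = dst P0 t b v P Q := rfl

theorem mem_LL_iff_div {f : F} (hf : f ≠ 0) {D : Divisor K F} :
    f ∈ LL D ↔ 0 ≤ div f + D := by
  rw [mem_L_iff]
  refine forall_congr' fun v => ?_
  rw [v.adicValuation_le_exp_iff, Finsupp.add_apply, div_apply, Finsupp.zero_apply]
  constructor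
  · rintro (h | h)
    · exact absurd h hf
    · omega
  · intro h
    right; omega

theorem div_mul' {f g : F} (hf : f ≠ 0) (hg : g ≠ 0) :
    (div (f * g) : Divisor K F) = div f + div g := by
  ext v
  rw [Finsupp.add_apply, div_apply, div_apply, div_apply, v.ord_mul hf hg]

theorem div_inv' (f : F) : (div (f⁻¹) : Divisor K F) = - div f := by
  ext v
  rw [Finsupp.neg_apply, div_apply, div_apply, v.ord_inv]

include ht hN0 in
theorem exists_lead (hm : m + m' = L * N0) (hmL : m + 2 ≤ L) (hm' : 2 * genusFF K F + 1 ≤ m') :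
    ∃ C : Vf.Λ → ℝ, IsMC C ∧ ∀ v (f : VN P0 m) (l : List (Place K F)), f ≠ 0 → l.length = m →
      dvl l = div (f : F) + Finsupp.single P0 (m : ℤ) →
      Vf.av v (evv P0 t m P0 (f : F)) ≤ C v * (nrm (Vf.av v) (ba.equivFun f) *
        (l.map fun P => dst P0 t b (Vf.av v) P P0).prod) ∧
      nrm (Vf.av v) (ba.equivFun f) * (l.map fun P => dst P0 t b (Vf.av v) P P0).prod ≤
        C v * Vf.av v (evv P0 t m P0 (f : F)) := by
  classical
  have hne : Nonempty (Place K F) := ⟨P0⟩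
  have bk := Module.finBasis K (VN P0 (L * N0))
  have bc := Module.finBasis K (VN P0 m')
  set M := mkModel b bk ht hN0 with hM
  -- fixed function
  obtain ⟨u1, hu1, hu1'⟩ := exists_evv_ne_zero ht (N := m') hm' P0
  set u0 : VN P0 m' := (evv P0 t m' P0 u1)⁻¹ • ⟨u1, hu1⟩ with hu0
  have hu0' : evv P0 t m' P0 (u0 : F) = 1 := by
    show evv P0 t m' P0 ((evv P0 t m' P0 u1)⁻¹ • u1) = 1
    rw [evv_smul ht P0 _ hu1, inv_mul_cancel₀ hu1']
  obtain ⟨C1, hC1, hC1'⟩ := exists_nrm_mul ba bc bk Vf hm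
  obtain ⟨C2, hC2, hC2'⟩ := exists_nrm_bound Vf (bc.equivFun u0)
  obtain ⟨C3, hC3, hC3'⟩ := M.exists_S_le Vf m hmL
  obtain ⟨C4, hC4, hC4'⟩ := exists_nrm_bound Vf (M.e P0)
  obtain ⟨C5, hC5, hC5'⟩ := M.exists_S_ge Vf
  obtain ⟨C6, hC6, hC6'⟩ := exists_nrm_inv_bound Vf (M.e_ne P0)
  obtain ⟨C7, hC7, hC7'⟩ := exists_evv_le Vf ht bc P0
  refine ⟨fun v => max (C3 v * (C4 v ^ L * (C1 v * C2 v))) (C6 v ^ L * (C7 v * (C1 v * C5 v))),
    (hC3.mul ((hC4.pow _).mul (hC1.mul hC2))).max ((hC6.pow _).mul (hC7.mul (hC1.mul hC5))),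
    fun v f l hf hl hdiv => ?_⟩
  have hf0 : (f : F) ≠ 0 := fun h => hf (Subtype.ext h)
  set pr := (l.map fun P => dst P0 t b (Vf.av v) P P0).prod with hpr
  have hpr0 : 0 ≤ pr := by
    apply List.prod_nonneg
    intro x hx
    obtain ⟨P, -, rfl⟩ := List.mem_map.mp hx
    exact M.dist_nonneg _ _ _
  have hsize : M.size (Vf.av v) m (PModel.lp P0 l) P0 = nrm (Vf.av v) (M.e P0) ^ L * pr := by
    subst hl
    exact M.size_lp (Vf.av v) l P0 P0 (by omega)
  have hW : ∀ w : VN P0 (L * N0), bk.equivFun w ∈ M.W m (PModel.lp P0 l) ↔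
      (w : F) ∈ LL (Finsupp.single P0 ((L * N0 : ℕ) : ℤ) - dvl l) := by
    subst hl
    exact fun w => mem_W_iff b bk ht hN0 hmL P0 w
  have hmm : (Finsupp.single P0 ((L * N0 : ℕ) : ℤ) : Divisor K F) =
      Finsupp.single P0 (m : ℤ) + Finsupp.single P0 (m' : ℤ) := by
    rw [← Finsupp.single_add, ← hm, Nat.cast_add]
  have hnf : 0 < nrm (Vf.av v) (ba.equivFun f) := nrm_pos _ (fun h => hf (by
    exact ba.equivFun.injective (h.trans (map_zero _).symm)))
  have hepos : 0 < nrm (Vf.av v) (M.e P0) := nrm_pos _ (M.e_ne P0)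
  constructor
  · -- upper bound
    have hw : bk.equivFun (mulL hm f u0) ∈ M.W m (PModel.lp P0 l) := by
      rw [hW]
      show (f : F) * (u0 : F) ∈ _
      have hu00 : (u0 : F) ≠ 0 := by
        intro h
        rw [h, evv_zero' ht] at hu0'
        exact zero_ne_one hu0'
      rw [mem_LL_iff_div (mul_ne_zero hf0 hu00), div_mul' hf0 hu00, hmm, hdiv]
      have h1 : (0 : Divisor K F) ≤ div (u0 : F) + Finsupp.single P0 (m' : ℤ) :=
        (mem_LL_iff_div hu00).mp u0.2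
      convert h1 using 1
      abel
    have h1 := hC3' v (PModel.lp P0 l) P0 _ hw (nrm (Vf.av v) (bk.equivFun (mulL hm f u0)))
      (nrm_nonneg _ _) (fun j => le_nrm _ _ j)
    rw [hM, E_dot b bk ht hN0 P0, ← hM] at h1
    have h2 : evv P0 t (L * N0) P0 ((mulL hm f u0 : VN P0 (L * N0)) : F) =
        evv P0 t m P0 (f : F) := by
      show evv P0 t (L * N0) P0 ((f : F) * (u0 : F)) = _
      rw [← hm, evv_mul ht P0 f.2 u0.2, hu0', mul_one]
    rw [h2, hsize] at h1
    have h3 := (hC1' v f hf u0).1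
    refine h1.trans ?_
    calc C3 v * (nrm (Vf.av v) (M.e P0) ^ L * pr * nrm (Vf.av v) (bk.equivFun (mulL hm f u0))) ≤
        C3 v * (C4 v ^ L * pr * (C1 v * (nrm (Vf.av v) (ba.equivFun f) * C2 v))) := by
          refine mul_le_mul_of_nonneg_left ?_ (hC3.nonneg v)
          refine mul_le_mul ?_ ?_ (nrm_nonneg _ _) (mul_nonneg (pow_nonneg (hC4.nonneg v) _) hpr0)
          · exact mul_le_mul_of_nonneg_right (pow_le_pow_left₀ hepos.le (hC4' v) _) hpr0
          · refine h3.trans (mul_le_mul_of_nonneg_left ?_ (hC1.nonneg v))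
            exact mul_le_mul_of_nonneg_left (hC2' v) hnf.le
      _ = C3 v * (C4 v ^ L * (C1 v * C2 v)) * (nrm (Vf.av v) (ba.equivFun f) * pr) := by ring
      _ ≤ _ := mul_le_mul_of_nonneg_right (le_max_left _ _) (mul_nonneg hnf.le hpr0)
  · -- lower bound
    obtain ⟨a, ha, ha1, ha2⟩ := hC5' v m (PModel.lp P0 l) P0
    set w := bk.equivFun.symm a with hw
    have hwa : bk.equivFun w = a := LinearEquiv.apply_symm_apply _ _
    rw [← hwa, hW] at ha
    rw [hM, E_dot' b bk ht hN0 P0, ← hM, ← hw, hsize] at ha2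
    have hu : (w : F) / (f : F) ∈ VN P0 m' := by
      by_cases hw0 : (w : F) = 0
      · rw [hw0, zero_div]; exact zero_mem _
      · rw [VN, mem_LL_iff_div (div_ne_zero hw0 hf0), div_eq_mul_inv, div_mul' hw0
          (inv_ne_zero hf0), div_inv']
        rw [mem_LL_iff_div hw0, hmm, hdiv] at ha
        convert ha using 1
        abel
    set u : VN P0 m' := ⟨(w : F) / (f : F), hu⟩ with hudef
    have hfu : mulL hm f u = w := Subtype.ext (mul_div_cancel₀ _ hf0)
    have h1 : evv P0 t (L * N0) P0 (w : F) = evv P0 t m P0 (f : F) * evv P0 t m' P0 (u : F) := by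
      rw [← hfu]
      show evv P0 t (L * N0) P0 ((f : F) * (u : F)) = _
      rw [← hm, evv_mul ht P0 f.2 u.2]
    have h2 := (hC1' v f hf u).2
    rw [hfu, hwa] at h2
    have h3 : nrm (Vf.av v) a ≤ C5 v := nrm_le _ _ (hC5.nonneg v) ha1
    have h4 := hC7' v u
    rw [h1, (Vf.av v).map_mul] at ha2
    have h5 : pr ≤ C6 v ^ L * (nrm (Vf.av v) (M.e P0) ^ L * pr) := by
      have : 1 ≤ (C6 v * nrm (Vf.av v) (M.e P0)) ^ L := one_le_pow₀ (hC6' v)
      rw [mul_pow] at this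
      calc pr = 1 * pr := (one_mul _).symm
        _ ≤ (C6 v ^ L * nrm (Vf.av v) (M.e P0) ^ L) * pr := mul_le_mul_of_nonneg_right this hpr0
        _ = _ := by ring
    calc nrm (Vf.av v) (ba.equivFun f) * pr ≤
        nrm (Vf.av v) (ba.equivFun f) * (C6 v ^ L * (Vf.av v (evv P0 t m P0 (f : F)) *
          (C7 v * nrm (Vf.av v) (bc.equivFun u)))) := by
          refine mul_le_mul_of_nonneg_left (h5.trans ?_) hnf.le
          refine mul_le_mul_of_nonneg_left ?_ (pow_nonneg (hC6.nonneg v) _)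
          rw [← ha2]
          exact mul_le_mul_of_nonneg_left h4 ((Vf.av v).nonneg _)
      _ = C6 v ^ L * (C7 v * (nrm (Vf.av v) (ba.equivFun f) * nrm (Vf.av v) (bc.equivFun u))) *
          Vf.av v (evv P0 t m P0 (f : F)) := by ring
      _ ≤ C6 v ^ L * (C7 v * (C1 v * C5 v)) * Vf.av v (evv P0 t m P0 (f : F)) := by
          refine mul_le_mul_of_nonneg_right ?_ ((Vf.av v).nonneg _)
          refine mul_le_mul_of_nonneg_left ?_ (pow_nonneg (hC6.nonneg v) _)
          refine mul_le_mul_of_nonneg_left ?_ (hC7.nonneg v)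
          exact h2.trans (mul_le_mul_of_nonneg_left h3 (hC1.nonneg v))
      _ ≤ _ := mul_le_mul_of_nonneg_right (le_max_right _ _) ((Vf.av v).nonneg _)

end Lead

end Fermat.Agent.MW
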