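import Mathlib

/-!
# Mordell-Weil: local linear algebra over a field with an absolute value
-/

set_option autoImplicit false

noncomputable section

namespace Fermat.Agent.MW

open Finset

variable {K : Type*} [Field K]

open scoped Classical in
/-- archimedean fudge factor -/
def kap (v : AbsoluteValue K ℝ) (n : ℕ) : ℝ := if IsNonarchimedean v then 1 else max 1 (n : ℝ)

theorem one_le_kap (v : AbsoluteValue K ℝ) (n : ℕ) : 1 ≤ kap v n := by
  unfold kap; split_ifs
  · exact le_rfl
  · exact le_max_left _ _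

theorem kap_pos (v : AbsoluteValue K ℝ) (n : ℕ) : 0 < kap v n := lt_of_lt_of_le one_pos (one_le_kap v n)

theorem kap_of_nonarch {v : AbsoluteValue K ℝ} (hv : IsNonarchimedean v) (n : ℕ) : kap v n = 1 := by
  simp [kap, hv]

theorem abv_sum_le {α : Type*} (v : AbsoluteValue K ℝ) (s : Finset α) (f : α → K) {B : ℝ}
    (hB0 : 0 ≤ B) (hB : ∀ i ∈ s, v (f i) ≤ B) : v (∑ i ∈ s, f i) ≤ kap v s.card * B := by
  classical
  unfold kap
  split_ifs with hv
  · rw [one_mul]
    induction s using Finset.induction_on with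
    | empty => simpa using hB0
    | insert a s ha ih =>
      rw [Finset.sum_insert ha]
      refine (hv _ _).trans (max_le (hB a (Finset.mem_insert_self a s)) ?_)
      exact ih fun i hi => hB i (Finset.mem_insert_of_mem hi)
  · calc v (∑ i ∈ s, f i) ≤ ∑ i ∈ s, v (f i) := v.sum_le _ _
      _ ≤ ∑ _i ∈ s, B := Finset.sum_le_sum hB
      _ = s.card * B := by rw [Finset.sum_const, nsmul_eq_mul]
      _ ≤ max 1 (s.card : ℝ) * B := mul_le_mul_of_nonneg_right (le_max_right _ _) hB0

theorem abv_add_le (v : AbsoluteValue K ℝ) {x y : K} {B : ℝ} (hB0 : 0 ≤ B) (hx : v x ≤ B)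
    (hy : v y ≤ B) : v (x + y) ≤ kap v 2 * B := by
  have := abv_sum_le v (Finset.univ : Finset (Fin 2)) ![x, y] hB0 (by
    intro i _
    fin_cases i
    · exact hx
    · exact hy)
  simpa using this

theorem abv_sub_le (v : AbsoluteValue K ℝ) {x y : K} {B : ℝ} (hB0 : 0 ≤ B) (hx : v x ≤ B)
    (hy : v y ≤ B) : v (x - y) ≤ kap v 2 * B := by
  rw [sub_eq_add_neg]
  exact abv_add_le v hB0 hx (by rwa [v.map_neg])

theorem abv_sum_univ_le {α : Type*} [Fintype α] (v : AbsoluteValue K ℝ) (f : α → K) {B : ℝ}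
    (hB0 : 0 ≤ B) (hB : ∀ i, v (f i) ≤ B) : v (∑ i, f i) ≤ kap v (Fintype.card α) * B :=
  abv_sum_le v _ f hB0 fun i _ => hB i

theorem abv_prod_le {α : Type*} (v : AbsoluteValue K ℝ) (s : Finset α) (f : α → K) (b : α → ℝ)
    (hB : ∀ i ∈ s, v (f i) ≤ b i) : v (∏ i ∈ s, f i) ≤ ∏ i ∈ s, b i := by
  rw [map_prod]
  exact Finset.prod_le_prod (fun i _ => v.nonneg _) hB

section Det

variable {m : Type*} [Fintype m] [DecidableEq m]

theorem abv_det_le (v : AbsoluteValue K ℝ) (A : Matrix m m K) (b : m → ℝ) (hb : ∀ i, 0 ≤ b i)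
    (hA : ∀ i j, v (A i j) ≤ b i) :
    v A.det ≤ kap v (Fintype.card (Equiv.Perm m)) * ∏ i, b i := by
  rw [← Matrix.det_transpose, Matrix.det_apply]
  refine abv_sum_univ_le v _ (Finset.prod_nonneg fun i _ => hb i) fun σ => ?_
  have hs : ∀ x : K, v (Equiv.Perm.sign σ • x) = v x := by
    intro x
    rcases Int.units_eq_one_or (Equiv.Perm.sign σ) with h | h <;> rw [h] <;> simp
  rw [hs]
  exact abv_prod_le v _ _ _ fun i _ => by
    rw [Matrix.transpose_apply]; exact hA _ _

theorem abv_det_le' (v : AbsoluteValue K ℝ) (A : Matrix m m K) {B : ℝ} (hB : 0 ≤ B)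
    (hA : ∀ i j, v (A i j) ≤ B) :
    v A.det ≤ kap v (Fintype.card (Equiv.Perm m)) * B ^ Fintype.card m := by
  refine (abv_det_le v A (fun _ => B) (fun _ => hB) hA).trans_eq ?_
  rw [Finset.prod_const, Finset.card_univ]

theorem abv_adjugate_le (v : AbsoluteValue K ℝ) (A : Matrix m m K) {B : ℝ} (hB : 1 ≤ B)
    (hA : ∀ i j, v (A i j) ≤ B) (i j : m) :
    v (A.adjugate i j) ≤ kap v (Fintype.card (Equiv.Perm m)) * B ^ Fintype.card m := by
  rw [Matrix.adjugate_apply]
  refine abv_det_le' v _ (by linarith) fun a b => ?_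
  rw [Matrix.updateRow_apply]
  split_ifs with h
  · rw [Pi.single_apply]
    split_ifs
    · rw [map_one]; exact hB
    · rw [map_zero]; linarith
  · exact hA a b

/-- solving a linear system -/
theorem abv_solve_le (v : AbsoluteValue K ℝ) (A : Matrix m m K) {B C D : ℝ} (hB : 1 ≤ B)
    (hC : 0 ≤ C) (hD : 0 ≤ D)
    (hA : ∀ i j, v (A i j) ≤ B) (hdet : 1 ≤ C * v A.det) (x y : m → K)
    (hxy : Matrix.vecMul x A = y) (hy : ∀ i, v (y i) ≤ D) (i : m) :
    v (x i) ≤ C * (kap v (Fintype.card m) *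
      (kap v (Fintype.card (Equiv.Perm m)) * B ^ Fintype.card m * D)) := by
  have h1 : A.det • x = Matrix.vecMul y A.adjugate := by
    rw [← hxy, Matrix.vecMul_vecMul, Matrix.mul_adjugate, Matrix.vecMul_smul, Matrix.vecMul_one]
  have h2 : A.det * x i = ∑ j, y j * A.adjugate j i := by
    have := congrFun h1 i
    simpa [Matrix.vecMul, dotProduct] using this
  have h3 : v (A.det * x i) ≤ kap v (Fintype.card m) *
      (kap v (Fintype.card (Equiv.Perm m)) * B ^ Fintype.card m * D) := by
    rw [h2]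
    refine abv_sum_univ_le v _ (by have := kap_pos v (Fintype.card (Equiv.Perm m)); positivity)
      fun j => ?_
    rw [v.map_mul, mul_comm]
    exact mul_le_mul (abv_adjugate_le v A hB hA j i) (hy j) (v.nonneg _)
      (by have := kap_pos v (Fintype.card (Equiv.Perm m)); positivity)
  rw [v.map_mul] at h3
  calc v (x i) = 1 * v (x i) := (one_mul _).symm
    _ ≤ (C * v A.det) * v (x i) := mul_le_mul_of_nonneg_right hdet (v.nonneg _)
    _ = C * (v A.det * v (x i)) := by ring
    _ ≤ _ := mul_le_mul_of_nonneg_left h3 hC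

end Det

/-! ### maximal minors -/

section Minors

variable {m n : Type*} [Fintype m] [DecidableEq m] [Finite n]

/-- maximum of the absolute values of the maximal minors -/
def HH (v : AbsoluteValue K ℝ) (A : Matrix m n K) : ℝ := ⨆ f : m → n, v (A.submatrix id f).det

theorem le_HH (v : AbsoluteValue K ℝ) (A : Matrix m n K) (f : m → n) :
    v (A.submatrix id f).det ≤ HH v A :=
  le_ciSup (f := fun f : m → n => v (A.submatrix id f).det) (Set.finite_range _).bddAbove f

theorem HH_nonneg (v : AbsoluteValue K ℝ) (A : Matrix m n K) : 0 ≤ HH v A :=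
  Real.iSup_nonneg fun _ => v.nonneg _

theorem HH_le (v : AbsoluteValue K ℝ) (A : Matrix m n K) {B : ℝ} (hB : 0 ≤ B)
    (h : ∀ f : m → n, v (A.submatrix id f).det ≤ B) : HH v A ≤ B :=
  Real.iSup_le h hB

theorem exists_eq_HH (v : AbsoluteValue K ℝ) (A : Matrix m n K) (h : HH v A ≠ 0) :
    ∃ f : m → n, v (A.submatrix id f).det = HH v A := by
  have : Nonempty (m → n) := by
    by_contra hne
    rw [not_nonempty_iff] at hne
    exact h (Real.iSup_of_isEmpty _)
  exact exists_eq_ciSup_of_finite (f := fun f : m → n => v (A.submatrix id f).det)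

theorem HH_mul_left (v : AbsoluteValue K ℝ) (g : Matrix m m K) (A : Matrix m n K) :
    HH v (g * A) = v g.det * HH v A := by
  have h : ∀ f : m → n, v ((g * A).submatrix id f).det = v g.det * v (A.submatrix id f).det := by
    intro f
    have : (g * A).submatrix id f = g * A.submatrix id f := by
      ext i j; simp [Matrix.mul_apply]
    rw [this, Matrix.det_mul, v.map_mul]
  unfold HH
  simp_rw [h]
  rw [Real.mul_iSup_of_nonneg (v.nonneg _)]

/-- Cramer normal form -/
theorem exists_cramer (v : AbsoluteValue K ℝ) (A : Matrix m n K) (h : HH v A ≠ 0) :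
    ∃ (f : m → n) (C : Matrix m n K), v (A.submatrix id f).det = HH v A ∧
      A = A.submatrix id f * C ∧ C.submatrix id f = 1 ∧ ∀ i j, v (C i j) ≤ 1 := by
  obtain ⟨f, hf⟩ := exists_eq_HH v A h
  set B := A.submatrix id f with hB
  have hdet : B.det ≠ 0 := by
    intro h0
    rw [h0, map_zero] at hf
    exact h hf.symm
  have hu : IsUnit B.det := isUnit_iff_ne_zero.mpr hdet
  refine ⟨f, B⁻¹ * A, hf, ?_, ?_, ?_⟩
  · rw [← Matrix.mul_assoc, Matrix.mul_nonsing_inv B hu, Matrix.one_mul]
  · have : (B⁻¹ * A).submatrix id f = B⁻¹ * B := by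
      ext i j; simp [Matrix.mul_apply, hB]
    rw [this, Matrix.nonsing_inv_mul B hu]
  · intro i j
    have h1 : (B⁻¹ * A) i j = (B.det)⁻¹ * (B.updateCol i (fun k => A k j)).det := by
      rw [Matrix.inv_def, Ring.inverse_eq_inv', Matrix.smul_mul, Matrix.smul_apply, smul_eq_mul]
      congr 1
      rw [← Matrix.cramer_apply, Matrix.cramer_eq_adjugate_mulVec]
      rfl
    have h2 : B.updateCol i (fun k => A k j) = A.submatrix id (Function.update f i j) := by
      ext a b
      rw [Matrix.updateCol_apply, Matrix.submatrix_apply, id]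
      by_cases hb : b = i
      · subst hb; simp
      · rw [if_neg hb, Function.update_of_ne hb]; rfl
    rw [h1, h2, v.map_mul, map_inv₀, hf]
    have hpos : 0 < HH v A := lt_of_le_of_ne (HH_nonneg v A) (Ne.symm h)
    rw [inv_mul_le_iff₀ hpos, mul_one]
    exact le_HH v A _

theorem HH_le_of_entries (v : AbsoluteValue K ℝ) (A : Matrix m n K) (b : m → ℝ)
    (hb : ∀ i, 0 ≤ b i) (hA : ∀ i j, v (A i j) ≤ b i) :
    HH v A ≤ kap v (Fintype.card (Equiv.Perm m)) * ∏ i, b i :=
  HH_le v A (mul_nonneg (kap_pos _ _).le (Finset.prod_nonneg fun i _ => hb i)) fun f =>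
    abv_det_le v _ b hb fun i j => hA i (f j)

end Minors

end Fermat.Agent.MW
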