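import Fermat.Agent.MW.Loc

/-!
# Mordell-Weil: maximal minors, continued
-/

set_option autoImplicit false

noncomputable section

namespace Fermat.Agent.MW

open Finset Matrix

variable {K : Type*} [Field K]

section

variable {m n : Type*} [Fintype m] [DecidableEq m] [Fintype n]

theorem exists_det_ne_zero (A : Matrix m n K) (h : LinearIndependent K A.row) :
    ∃ f : m → n, (A.submatrix id f).det ≠ 0 := by
  have hr : A.rank = Fintype.card m := h.rank_matrix
  have hspan : Submodule.span K (Set.range A.col) = ⊤ := by
    apply Submodule.eq_top_of_finrank_eq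
    rw [← Matrix.rank_eq_finrank_span_cols, hr, Module.finrank_fintype_fun_eq_card]
  obtain ⟨g, hg1, hg2, hg3⟩ := Submodule.exists_fun_fin_finrank_span_eq K (Set.range A.col)
  have hcard : Module.finrank K (Submodule.span K (Set.range A.col)) = Fintype.card m := by
    rw [← Matrix.rank_eq_finrank_span_cols, hr]
  choose c hc using hg1
  let e : m ≃ Fin (Module.finrank K (Submodule.span K (Set.range A.col))) :=
    (Fintype.equivFin m).trans (finCongr hcard.symm)
  refine ⟨fun i => c (e i), ?_⟩
  rw [← isUnit_iff_ne_zero, ← Matrix.isUnit_iff_isUnit_det, ← Matrix.linearIndependent_cols_iff_isUnit]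
  have : (A.submatrix id fun i => c (e i)).col = g ∘ e := by
    funext i
    rw [Function.comp_apply, ← hc (e i)]
    rfl
  rw [this]
  exact hg3.comp _ e.injective

theorem row_linearIndependent_of_det_ne_zero (A : Matrix m n K) (f : m → n)
    (h : (A.submatrix id f).det ≠ 0) : LinearIndependent K A.row := by
  rw [← isUnit_iff_ne_zero, ← Matrix.isUnit_iff_isUnit_det, ← Matrix.linearIndependent_rows_iff_isUnit] at h
  have : (A.submatrix id f).row = (LinearMap.funLeft K K f) ∘ A.row := by
    funext i j
    rfl
  rw [this] at h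
  exact h.of_comp _

theorem HH_ne_zero_iff (v : AbsoluteValue K ℝ) (A : Matrix m n K) :
    HH v A ≠ 0 ↔ LinearIndependent K A.row := by
  constructor
  · intro h
    obtain ⟨f, hf⟩ := exists_eq_HH v A h
    refine row_linearIndependent_of_det_ne_zero A f fun h0 => h ?_
    rw [← hf, h0, map_zero]
  · intro h
    obtain ⟨f, hf⟩ := exists_det_ne_zero A h
    have h1 := le_HH v A f
    have h2 : 0 < v (A.submatrix id f).det := v.pos hf
    linarith

theorem HH_pos (v : AbsoluteValue K ℝ) (A : Matrix m n K) (h : LinearIndependent K A.row) :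
    0 < HH v A :=
  lt_of_le_of_ne (HH_nonneg v A) (Ne.symm ((HH_ne_zero_iff v A).mpr h))

/-- reindexing of rows -/
theorem HH_reindex {m' : Type*} [Fintype m'] [DecidableEq m'] (v : AbsoluteValue K ℝ)
    (A : Matrix m n K) (e : m' ≃ m) : HH v (A.submatrix e id) = HH v A := by
  apply le_antisymm
  · refine HH_le v _ (HH_nonneg v A) fun f => ?_
    have : ((A.submatrix e id).submatrix id f) = (A.submatrix id (f ∘ e.symm)).submatrix e e := by
      ext i j; simp
    rw [this, Matrix.det_submatrix_equiv_self]
    exact le_HH v A _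
  · refine HH_le v _ (HH_nonneg v _) fun f => ?_
    have : (A.submatrix id f) = ((A.submatrix e id).submatrix id (f ∘ e)).submatrix e.symm e.symm := by
      ext i j; simp
    rw [this, Matrix.det_submatrix_equiv_self]
    exact le_HH v (A.submatrix e id) _

/-- injective column selection extends to a square unimodular matrix -/
theorem injective_of_submatrix_eq_one (C : Matrix m n K) (f : m → n) (h : C.submatrix id f = 1) :
    Function.Injective f := by
  intro i j hij
  by_contra hne
  have h1 : C i (f i) = 1 := by have := congrFun (congrFun h i) i; simpa using this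
  have h2 : C i (f j) = 0 := by have := congrFun (congrFun h i) j; simpa [hne] using this
  rw [← hij, h1] at h2
  exact one_ne_zero h2

end

section Stack

variable {m r n : Type*} [Fintype m] [DecidableEq m] [Fintype r] [DecidableEq r] [Fintype n]

/-- stacking -/
theorem HH_fromRows_le (v : AbsoluteValue K ℝ) (A : Matrix m n K) (R : Matrix r n K) (b : r → ℝ)
    (hb : ∀ i, 0 ≤ b i) (hR : ∀ i j, v (R i j) ≤ b i) :
    HH v (Matrix.fromRows A R) ≤
      kap v (Fintype.card (Equiv.Perm (m ⊕ r))) * (HH v A * ∏ i, b i) := by
  have hb' : 0 ≤ ∏ i, b i := Finset.prod_nonneg fun i _ => hb i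
  by_cases h : HH v A = 0
  · rw [h, zero_mul, mul_zero]
    by_contra hcon
    push Not at hcon
    have h1 := (HH_ne_zero_iff v (Matrix.fromRows A R)).mp hcon.ne'
    have h2 : LinearIndependent K A.row := by
      have := h1.comp (Sum.inl : m → m ⊕ r) Sum.inl_injective
      exact this
    exact (HH_ne_zero_iff v A).mpr h2 h
  · obtain ⟨f, C, hf, hAC, hC1, hC2⟩ := exists_cramer v A h
    let X : Matrix (m ⊕ r) (m ⊕ r) K := Matrix.fromBlocks (A.submatrix id f) 0 0 1
    let Y : Matrix (m ⊕ r) n K := Matrix.fromRows C R
    have h1 : Matrix.fromRows A R = X * Y := by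
      show Matrix.fromRows A R = (Matrix.fromBlocks (A.submatrix id f) 0 0 1 : Matrix (m ⊕ r) (m ⊕ r) K) * Y
      rw [Matrix.fromBlocks_mul_fromRows]
      rw [← hAC]
      simp
    have hX : X.det = (A.submatrix id f).det := by
      show (Matrix.fromBlocks (A.submatrix id f) 0 0 1 : Matrix (m ⊕ r) (m ⊕ r) K).det = _
      rw [Matrix.det_fromBlocks_zero₂₁, Matrix.det_one, mul_one]
    rw [h1, HH_mul_left, hX, hf]
    have h2 : HH v (Matrix.fromRows C R) ≤
        kap v (Fintype.card (Equiv.Perm (m ⊕ r))) * ∏ i : m ⊕ r, Sum.elim (fun _ => (1 : ℝ)) b i :=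
      HH_le_of_entries v _ _ (by
        rintro (i | i)
        · exact zero_le_one
        · exact hb i) (by
        rintro (i | i) j
        · exact hC2 i j
        · exact hR i j)
    rw [Fintype.prod_sum_type] at h2
    simp only [Sum.elim_inl, Sum.elim_inr, Finset.prod_const_one, one_mul] at h2
    calc HH v A * HH v (Matrix.fromRows C R) ≤
        HH v A * (kap v (Fintype.card (Equiv.Perm (m ⊕ r))) * ∏ i, b i) :=
          mul_le_mul_of_nonneg_left h2 (HH_nonneg v A)
      _ = _ := by ring

end Stack

end Fermat.Agent.MW
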