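import Fermat.Agent.MW.Loc2

/-!
# Mordell-Weil: adding rows, multiplication on the right, duality
-/

set_option autoImplicit false

noncomputable section

namespace Fermat.Agent.MW

open Finset Matrix

variable {K : Type*} [Field K]

section Row

variable {m n : Type*} [Fintype m] [DecidableEq m] [Fintype n]

/-- add a row -/
def addRow (A : Matrix m n K) (u : n → K) : Matrix (m ⊕ Unit) n K :=
  Matrix.fromRows A (Matrix.of fun _ => u)

theorem HH_row_lower (v : AbsoluteValue K ℝ) (A : Matrix m n K) (u a : n → K)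
    (ha : A *ᵥ a = 0) {B : ℝ} (hB0 : 0 ≤ B) (hB : ∀ j, v (a j) ≤ B) :
    v (u ⬝ᵥ a) * HH v A ≤ kap v (Fintype.card n) * (B * HH v (addRow A u)) := by
  by_cases h : HH v A = 0
  · rw [h, mul_zero]
    exact mul_nonneg (kap_pos _ _).le (mul_nonneg hB0 (HH_nonneg _ _))
  obtain ⟨f, C, hf, hAC, hC1, hC2⟩ := exists_cramer v A h
  have hdet : (A.submatrix id f).det ≠ 0 := by
    intro h0
    rw [h0, map_zero] at hf
    exact h hf.symm
  have hCa : C *ᵥ a = 0 := by
    have h1 : A.submatrix id f *ᵥ (C *ᵥ a) = 0 := by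
      rw [Matrix.mulVec_mulVec, ← hAC, ha]
    exact Matrix.eq_zero_of_mulVec_eq_zero hdet h1
  let u' : n → K := fun j => u j - ∑ i, u (f i) * C i j
  have hu' : u' ⬝ᵥ a = u ⬝ᵥ a := by
    have h2 : ∑ j, (∑ i, u (f i) * C i j) * a j = 0 := by
      have : ∑ j, (∑ i, u (f i) * C i j) * a j = ∑ i, u (f i) * (C *ᵥ a) i := by
        simp only [Matrix.mulVec, dotProduct, Finset.sum_mul, Finset.mul_sum]
        rw [Finset.sum_comm]
        refine Finset.sum_congr rfl fun i _ => Finset.sum_congr rfl fun j _ => by ring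
      rw [this, hCa]
      simp
    simp only [dotProduct, u', sub_mul, Finset.sum_sub_distrib, h2, sub_zero]
  have key : ∀ j, v (u' j) * HH v A ≤ HH v (addRow A u) := by
    intro j
    let S : Matrix (m ⊕ Unit) (m ⊕ Unit) K :=
      (addRow A u).submatrix id (Sum.elim f fun _ => j)
    let X : Matrix (m ⊕ Unit) (m ⊕ Unit) K := Matrix.fromBlocks (A.submatrix id f) 0 0 1
    let Y : Matrix (m ⊕ Unit) (m ⊕ Unit) K :=
      Matrix.fromBlocks 1 (Matrix.of fun i _ => C i j) (Matrix.of fun _ i => u (f i))
        (Matrix.of fun _ _ => u j)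
    have hS : S = X * Y := by
      show S = (Matrix.fromBlocks (A.submatrix id f) 0 0 1 : Matrix (m ⊕ Unit) (m ⊕ Unit) K) *
        Matrix.fromBlocks 1 (Matrix.of fun i _ => C i j) (Matrix.of fun _ i => u (f i))
        (Matrix.of fun _ _ => u j)
      rw [Matrix.fromBlocks_multiply]
      ext a b
      rcases a with a | a <;> rcases b with b | b
      · simp [S, addRow]
      · simp only [S, addRow, Matrix.submatrix_apply, id, Sum.elim_inr, Matrix.fromRows_apply_inl,
          Matrix.fromBlocks_apply₁₂, Matrix.zero_mul, add_zero]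
        conv_lhs => rw [hAC]
        simp [Matrix.mul_apply]
      · simp [S, addRow]
      · simp [S, addRow]
    have hX : X.det = (A.submatrix id f).det := by
      show (Matrix.fromBlocks (A.submatrix id f) 0 0 1 : Matrix (m ⊕ Unit) (m ⊕ Unit) K).det = _
      rw [Matrix.det_fromBlocks_zero₂₁, Matrix.det_one, mul_one]
    have hY : Y.det = u' j := by
      show (Matrix.fromBlocks 1 (Matrix.of fun i _ => C i j) (Matrix.of fun _ i => u (f i))
        (Matrix.of fun _ _ => u j) : Matrix (m ⊕ Unit) (m ⊕ Unit) K).det = _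
      rw [Matrix.det_fromBlocks_one₁₁, Matrix.det_unique]
      simp [u', Matrix.mul_apply]
    have h3 := le_HH v (addRow A u) (Sum.elim f fun _ => j)
    change v S.det ≤ _ at h3
    rw [hS, Matrix.det_mul, hX, hY, v.map_mul, hf, mul_comm] at h3
    exact h3
  have hpos : 0 < HH v A := lt_of_le_of_ne (HH_nonneg v A) (Ne.symm h)
  have h4 : v (u ⬝ᵥ a) ≤ kap v (Fintype.card n) * (HH v (addRow A u) / HH v A * B) := by
    rw [← hu', dotProduct]
    refine abv_sum_univ_le v _ (mul_nonneg (div_nonneg (HH_nonneg _ _) hpos.le) hB0) fun j => ?_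
    rw [v.map_mul]
    exact mul_le_mul ((le_div_iff₀ hpos).mpr (key j)) (hB j) (v.nonneg _)
      (div_nonneg (HH_nonneg _ _) hpos.le)
  calc v (u ⬝ᵥ a) * HH v A ≤
      kap v (Fintype.card n) * (HH v (addRow A u) / HH v A * B) * HH v A :=
        mul_le_mul_of_nonneg_right h4 hpos.le
    _ = _ := by field_simp

theorem HH_row_upper (v : AbsoluteValue K ℝ) (A : Matrix m n K) (u : n → K) (h : HH v A ≠ 0)
    {X : ℝ} (hX : 0 ≤ X)
    (hu : ∀ (a : n → K) (B : ℝ), 0 ≤ B → A *ᵥ a = 0 → (∀ j, v (a j) ≤ B) →
      v (u ⬝ᵥ a) ≤ X * B) :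
    HH v (addRow A u) ≤ kap v (Fintype.card (Equiv.Perm (m ⊕ Unit))) *
      (X * (kap v 2 * kap v (Fintype.card m))) * HH v A := by
  classical
  obtain ⟨f, C, hf, hAC, hC1, hC2⟩ := exists_cramer v A h
  have hdet : (A.submatrix id f).det ≠ 0 := by
    intro h0
    rw [h0, map_zero] at hf
    exact h hf.symm
  have hCf : ∀ i k, C i (f k) = if i = k then 1 else 0 := by
    intro i k
    have := congrFun (congrFun hC1 i) k
    simpa [Matrix.one_apply] using this
  let u' : n → K := fun j => u j - ∑ i, u (f i) * C i j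
  -- the kernel vector
  let a : n → n → K := fun l j => (if j = l then 1 else 0) - ∑ i, C i l * (if f i = j then 1 else 0)
  have hCa : ∀ l, C *ᵥ a l = 0 := by
    intro l
    funext i
    simp only [Matrix.mulVec, dotProduct, a, mul_sub, Finset.sum_sub_distrib, Pi.zero_apply]
    have h1 : ∑ j, C i j * (if j = l then 1 else 0) = C i l := by simp
    have h2 : ∑ j, C i j * ∑ k, C k l * (if f k = j then 1 else 0) = C i l := by
      simp only [Finset.mul_sum]
      rw [Finset.sum_comm]
      have : ∀ k, ∑ j, C i j * (C k l * (if f k = j then 1 else 0)) = C i (f k) * C k l := by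
        intro k
        simp
      simp only [this, hCf]
      simp
    rw [h1, h2, sub_self]
  have hAa : ∀ l, A *ᵥ a l = 0 := by
    intro l
    rw [hAC, ← Matrix.mulVec_mulVec, hCa, Matrix.mulVec_zero]
  have hua : ∀ l, u ⬝ᵥ a l = u' l := by
    intro l
    simp only [dotProduct, a, u', mul_sub, Finset.sum_sub_distrib]
    congr 1
    · simp
    · simp only [Finset.mul_sum]
      rw [Finset.sum_comm]
      refine Finset.sum_congr rfl fun i _ => ?_
      simp
  have hab : ∀ l j, v (a l j) ≤ kap v 2 * kap v (Fintype.card m) := by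
    intro l j
    refine (abv_sub_le v (B := kap v (Fintype.card m)) (kap_pos _ _).le ?_ ?_)
    · split_ifs
      · rw [map_one]; exact one_le_kap _ _
      · rw [map_zero]; exact (kap_pos _ _).le
    · have := abv_sum_univ_le v (fun i => C i l * (if f i = j then 1 else 0)) (B := 1) zero_le_one
        (fun i => by
          rw [v.map_mul]
          split_ifs
          · rw [map_one, mul_one]; exact hC2 _ _
          · rw [map_zero, mul_zero]; exact zero_le_one)
      rwa [mul_one] at this
  have hkk : (0 : ℝ) ≤ kap v 2 * kap v (Fintype.card m) := mul_nonneg (kap_pos _ _).le (kap_pos _ _).le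
  have hu'b : ∀ l, v (u' l) ≤ X * (kap v 2 * kap v (Fintype.card m)) := by
    intro l
    rw [← hua]
    exact hu _ _ hkk (hAa l) (hab l)
  let P : Matrix (m ⊕ Unit) (m ⊕ Unit) K :=
    Matrix.fromBlocks (A.submatrix id f) 0 (Matrix.of fun _ i => u (f i)) 1
  let Q : Matrix (m ⊕ Unit) n K := Matrix.fromRows C (Matrix.of fun _ => u')
  have hPQ : addRow A u = P * Q := by
    show addRow A u = (Matrix.fromBlocks (A.submatrix id f) 0 (Matrix.of fun _ i => u (f i)) 1 :
      Matrix (m ⊕ Unit) (m ⊕ Unit) K) * Matrix.fromRows C (Matrix.of fun _ => u')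
    rw [Matrix.fromBlocks_mul_fromRows, ← hAC]
    ext i j
    rcases i with i | i
    · simp [addRow]
    · simp [addRow, u', Matrix.mul_apply]
  have hP : P.det = (A.submatrix id f).det := by
    show (Matrix.fromBlocks (A.submatrix id f) 0 (Matrix.of fun _ i => u (f i)) 1 :
      Matrix (m ⊕ Unit) (m ⊕ Unit) K).det = _
    rw [Matrix.det_fromBlocks_zero₁₂, Matrix.det_one, mul_one]
  rw [hPQ, HH_mul_left, hP, hf]
  have h2 : HH v Q ≤ kap v (Fintype.card (Equiv.Perm (m ⊕ Unit))) *
      ∏ i : m ⊕ Unit, Sum.elim (fun _ => (1 : ℝ))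
        (fun _ => X * (kap v 2 * kap v (Fintype.card m))) i :=
    HH_le_of_entries v _ _ (by
      rintro (i | i)
      · exact zero_le_one
      · exact mul_nonneg hX hkk) (by
      rintro (i | i) j
      · exact hC2 i j
      · exact hu'b j)
  rw [Fintype.prod_sum_type] at h2
  simp only [Sum.elim_inl, Sum.elim_inr, Finset.prod_const_one, one_mul, Finset.univ_unique,
    Finset.prod_singleton] at h2
  calc HH v A * HH v Q ≤ HH v A * (kap v (Fintype.card (Equiv.Perm (m ⊕ Unit))) *
        (X * (kap v 2 * kap v (Fintype.card m)))) :=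
          mul_le_mul_of_nonneg_left h2 (HH_nonneg v A)
    _ = _ := by ring

end Row

section MulRight

variable {m n p : Type*} [Fintype m] [DecidableEq m] [Fintype n] [DecidableEq n] [Fintype p]

theorem HH_mul_right_le (v : AbsoluteValue K ℝ) (A : Matrix m n K) (T : Matrix n p K) {B : ℝ}
    (hB : 0 ≤ B) (hT : ∀ i j, v (T i j) ≤ B) :
    HH v (A * T) ≤ kap v (Fintype.card (Equiv.Perm m)) *
      (kap v (Fintype.card n) * B) ^ (Fintype.card m) * HH v A := by
  by_cases h : HH v A = 0
  · rw [h, mul_zero]
    by_contra hcon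
    push Not at hcon
    have h1 := (HH_ne_zero_iff v (A * T)).mp hcon.ne'
    have h2 : (A * T).row = T.vecMulLinear ∘ A.row := by
      funext i
      rfl
    rw [h2] at h1
    exact (HH_ne_zero_iff v A).mpr h1.of_comp h
  · obtain ⟨f, C, hf, hAC, hC1, hC2⟩ := exists_cramer v A h
    have h1 : A * T = A.submatrix id f * (C * T) := by
      rw [← Matrix.mul_assoc, ← hAC]
    rw [h1, HH_mul_left, hf]
    have h2 : HH v (C * T) ≤ kap v (Fintype.card (Equiv.Perm m)) *
        ∏ _i : m, (kap v (Fintype.card n) * B) :=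
      HH_le_of_entries v _ _ (fun _ => mul_nonneg (kap_pos _ _).le hB) fun i j => by
        rw [Matrix.mul_apply]
        refine abv_sum_univ_le v _ hB fun k => ?_
        rw [v.map_mul]
        calc v (C i k) * v (T k j) ≤ 1 * B :=
              mul_le_mul (hC2 _ _) (hT _ _) (v.nonneg _) zero_le_one
          _ = B := one_mul B
    rw [Finset.prod_const, Finset.card_univ] at h2
    calc HH v A * HH v (C * T) ≤ HH v A * _ := mul_le_mul_of_nonneg_left h2 (HH_nonneg v A)
      _ = _ := by ring

theorem HH_mul_right_ge (v : AbsoluteValue K ℝ) (A : Matrix m n K) (T : Matrix n p K) {B : ℝ}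
    (hB : 0 ≤ B) (hT : ∀ i j, v (T i j) ≤ B) :
    HH v T * HH v A ≤ kap v (Fintype.card n).factorial *
      B ^ (Fintype.card n - Fintype.card m) * HH v (A * T) := by
  classical
  by_cases h : HH v A = 0
  · rw [h, mul_zero]
    exact mul_nonneg (mul_nonneg (kap_pos _ _).le (pow_nonneg hB _)) (HH_nonneg _ _)
  obtain ⟨f, C, hf, hAC, hC1, hC2⟩ := exists_cramer v A h
  have hinj : Function.Injective f := injective_of_submatrix_eq_one C f hC1
  let r := {j : n // j ∉ Set.range f}
  let e : m ⊕ r ≃ n :=
    ((Equiv.ofInjective f hinj).sumCongr (Equiv.refl _)).trans (Equiv.Set.sumCompl (Set.range f))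
  have he1 : ∀ i, e (Sum.inl i) = f i := fun i => Equiv.Set.sumCompl_apply_inl (Set.range f) ⟨f i, ⟨i, rfl⟩⟩
  have he2 : ∀ j : r, e (Sum.inr j) = j.1 := fun j => Equiv.Set.sumCompl_apply_inr (Set.range f) j
  have hcard : Fintype.card r = Fintype.card n - Fintype.card m := by
    have := Fintype.card_congr e
    rw [Fintype.card_sum] at this
    omega
  have hcard2 : Fintype.card (Equiv.Perm (m ⊕ r)) = (Fintype.card n).factorial := by
    rw [Fintype.card_perm, Fintype.card_congr e]
  let R : Matrix r n K := (1 : Matrix n n K).submatrix Subtype.val id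
  let X : Matrix (m ⊕ r) n K := Matrix.fromRows C R
  have hXdet : (X.submatrix id e).det = 1 := by
    have : X.submatrix id e = Matrix.fromBlocks 1 (C.submatrix id Subtype.val) 0 1 := by
      ext a b
      rcases a with a | a <;> rcases b with b | b
      · simp only [X, Matrix.submatrix_apply, id, he1, Matrix.fromRows_apply_inl,
          Matrix.fromBlocks_apply₁₁]
        have := congrFun (congrFun hC1 a) b
        simpa using this
      · simp [X, he2]
      · simp only [X, Matrix.submatrix_apply, id, he1, Matrix.fromRows_apply_inr,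
          Matrix.fromBlocks_apply₂₁, Matrix.zero_apply, R]
        rw [Matrix.one_apply_ne]
        intro h3
        exact a.2 ⟨b, h3.symm⟩
      · simp only [X, Matrix.submatrix_apply, id, he2, Matrix.fromRows_apply_inr,
          Matrix.fromBlocks_apply₂₂, R]
        rw [Matrix.one_apply, Matrix.one_apply]
        by_cases hab : a = b
        · subst hab; simp
        · have : (a : n) ≠ (b : n) := fun h => hab (Subtype.ext h)
          simp [hab, this]
    rw [this, Matrix.det_fromBlocks_zero₂₁, Matrix.det_one, Matrix.det_one, one_mul]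
  have hXT : X * T = Matrix.fromRows (C * T) (T.submatrix Subtype.val id) := by
    show Matrix.fromRows C R * T = _
    rw [Matrix.fromRows_mul]
    congr 1
    show (1 : Matrix n n K).submatrix Subtype.val id * T = _
    ext i j
    simp [Matrix.mul_apply, Matrix.one_apply]
  have hXT2 : X * T = X.submatrix id e * T.submatrix e id := by
    rw [Matrix.submatrix_mul_equiv]
    simp
  have h1 : HH v (X * T) = HH v T := by
    rw [hXT2, HH_mul_left, hXdet, map_one, one_mul, HH_reindex]
  have h2 : HH v (X * T) ≤ kap v (Fintype.card (Equiv.Perm (m ⊕ r))) *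
      (HH v (C * T) * ∏ _i : r, B) := by
    rw [hXT]
    exact HH_fromRows_le v _ _ (fun _ => B) (fun _ => hB) fun i j => hT _ _
  have h3 : HH v (A * T) = HH v A * HH v (C * T) := by
    have : A * T = A.submatrix id f * (C * T) := by rw [← Matrix.mul_assoc, ← hAC]
    rw [this, HH_mul_left, hf]
  rw [h3, ← h1]
  rw [Finset.prod_const, Finset.card_univ, hcard, hcard2] at h2
  calc HH v (X * T) * HH v A ≤ (kap v (Fintype.card n).factorial *
        (HH v (C * T) * B ^ (Fintype.card n - Fintype.card m))) * HH v A :=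
          mul_le_mul_of_nonneg_right h2 (HH_nonneg v A)
    _ = _ := by ring

end MulRight

section Dual

variable {m r n : Type*} [Fintype m] [DecidableEq m] [Fintype r] [DecidableEq r] [Fintype n]
  [DecidableEq n]

theorem abv_det_submatrix_perm (v : AbsoluteValue K ℝ) {a : Type*} [Fintype a] [DecidableEq a]
    (X : Matrix a n K) (e e' : a ≃ n) :
    v (X.submatrix id e).det = v (X.submatrix id e').det := by
  have h : X.submatrix id e = (X.submatrix id e').submatrix id (e.trans e'.symm) := by
    ext i j; simp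
  rw [h, Matrix.det_permute', v.map_mul]
  rcases Int.units_eq_one_or (Equiv.Perm.sign (e.trans e'.symm)) with h | h <;> rw [h] <;> simp

theorem dual_minors (v : AbsoluteValue K ℝ) (A : Matrix m n K) (M : Matrix r n K)
    (hAM : A * Mᵀ = 0) (e e' : m ⊕ r ≃ n) :
    v (A.submatrix id (e ∘ Sum.inl)).det * v (M.submatrix id (e' ∘ Sum.inr)).det =
      v (A.submatrix id (e' ∘ Sum.inl)).det * v (M.submatrix id (e ∘ Sum.inr)).det := by
  let X : Matrix (m ⊕ r) n K :=
    Matrix.fromRows A ((1 : Matrix n n K).submatrix (e' ∘ Sum.inr) id)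
  let Y : Matrix n (m ⊕ r) K :=
    Matrix.fromCols ((1 : Matrix n n K).submatrix id (e ∘ Sum.inl)) Mᵀ
  have h1 : X * Y = Matrix.fromBlocks (A.submatrix id (e ∘ Sum.inl)) 0
      ((1 : Matrix n n K).submatrix (e' ∘ Sum.inr) (e ∘ Sum.inl))
      (M.submatrix id (e' ∘ Sum.inr))ᵀ := by
    show Matrix.fromRows A ((1 : Matrix n n K).submatrix (e' ∘ Sum.inr) id) *
      Matrix.fromCols ((1 : Matrix n n K).submatrix id (e ∘ Sum.inl)) Mᵀ = _
    rw [Matrix.fromRows_mul_fromCols]
    congr 1
    · ext i j; simp [Matrix.mul_apply, Matrix.one_apply]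
    · ext i j; simp [Matrix.mul_apply, Matrix.one_apply]
    · ext i j; simp [Matrix.mul_apply, Matrix.one_apply]
  have h2 : v (X * Y).det = v (A.submatrix id (e ∘ Sum.inl)).det *
      v (M.submatrix id (e' ∘ Sum.inr)).det := by
    rw [h1, Matrix.det_fromBlocks_zero₁₂, v.map_mul, Matrix.det_transpose]
  have h3 : X * Y = X.submatrix id e * Y.submatrix e id := by
    rw [Matrix.submatrix_mul_equiv]
    simp
  have h4 : v (X.submatrix id e).det = v (A.submatrix id (e' ∘ Sum.inl)).det := by
    rw [abv_det_submatrix_perm v X e e']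
    have : X.submatrix id e' = Matrix.fromBlocks (A.submatrix id (e' ∘ Sum.inl))
        (A.submatrix id (e' ∘ Sum.inr)) 0 1 := by
      ext a b
      rcases a with a | a <;> rcases b with b | b <;> simp [X, Matrix.one_apply]
    rw [this, Matrix.det_fromBlocks_zero₂₁, Matrix.det_one, mul_one]
  have h5 : v (Y.submatrix e id).det = v (M.submatrix id (e ∘ Sum.inr)).det := by
    have : Y.submatrix e id = Matrix.fromBlocks 1 (M.submatrix id (e ∘ Sum.inl))ᵀ 0
        (M.submatrix id (e ∘ Sum.inr))ᵀ := by
      ext a b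
      rcases a with a | a <;> rcases b with b | b <;> simp [Y, Matrix.one_apply]
    rw [this, Matrix.det_fromBlocks_zero₂₁, Matrix.det_one, one_mul, Matrix.det_transpose]
  rw [← h2, h3, Matrix.det_mul, v.map_mul, h4, h5]

theorem det_submatrix_eq_zero_of_not_injective (A : Matrix m n K) (f : m → n)
    (hf : ¬ Function.Injective f) : (A.submatrix id f).det = 0 := by
  rw [Function.Injective] at hf
  push Not at hf
  obtain ⟨i, j, hij, hne⟩ := hf
  exact Matrix.det_zero_of_column_eq hne fun k => by simp [hij]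

theorem exists_equiv_extend (hcard : Fintype.card m + Fintype.card r = Fintype.card n) (f : m → n)
    (hf : Function.Injective f) : ∃ e : m ⊕ r ≃ n, e ∘ Sum.inl = f := by
  classical
  have h1 : Fintype.card r = Fintype.card {j : n // j ∉ Set.range f} := by
    have h2 := Fintype.card_congr (((Equiv.ofInjective f hf).sumCongr (Equiv.refl _)).trans
      (Equiv.Set.sumCompl (Set.range f)) : m ⊕ {j : n // j ∉ Set.range f} ≃ n)
    rw [Fintype.card_sum] at h2
    omega
  let e0 : r ≃ {j : n // j ∉ Set.range f} := Fintype.equivOfCardEq h1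
  refine ⟨((Equiv.ofInjective f hf).sumCongr e0).trans (Equiv.Set.sumCompl (Set.range f)), ?_⟩
  funext i
  exact Equiv.Set.sumCompl_apply_inl (Set.range f) ⟨f i, ⟨i, rfl⟩⟩

/-- duality between the maximal minors of a matrix and of its kernel -/
theorem HH_dual (v : AbsoluteValue K ℝ) (A : Matrix m n K) (M : Matrix r n K)
    (hAM : A * Mᵀ = 0) (hcard : Fintype.card m + Fintype.card r = Fintype.card n)
    (e : m ⊕ r ≃ n) :
    HH v A * v (M.submatrix id (e ∘ Sum.inr)).det =
      v (A.submatrix id (e ∘ Sum.inl)).det * HH v M := by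
  apply le_antisymm
  · rcases eq_or_ne (v (M.submatrix id (e ∘ Sum.inr)).det) 0 with h0 | h0
    · rw [h0, mul_zero]
      exact mul_nonneg (v.nonneg _) (HH_nonneg _ _)
    have hpos : 0 < v (M.submatrix id (e ∘ Sum.inr)).det := lt_of_le_of_ne (v.nonneg _) (Ne.symm h0)
    rw [← le_div_iff₀ hpos]
    refine HH_le v A (div_nonneg (mul_nonneg (v.nonneg _) (HH_nonneg _ _)) hpos.le) fun f => ?_
    by_cases hf : Function.Injective f
    · obtain ⟨e', rfl⟩ := exists_equiv_extend (r := r) hcard f hf
      rw [le_div_iff₀ hpos, ← dual_minors v A M hAM e e']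
      exact mul_le_mul_of_nonneg_left (le_HH v M _) (v.nonneg _)
    · rw [det_submatrix_eq_zero_of_not_injective A f hf, map_zero]
      exact div_nonneg (mul_nonneg (v.nonneg _) (HH_nonneg _ _)) hpos.le
  · rcases eq_or_ne (v (A.submatrix id (e ∘ Sum.inl)).det) 0 with h0 | h0
    · rw [h0, zero_mul]
      exact mul_nonneg (HH_nonneg _ _) (v.nonneg _)
    have hpos : 0 < v (A.submatrix id (e ∘ Sum.inl)).det := lt_of_le_of_ne (v.nonneg _) (Ne.symm h0)
    rw [mul_comm, ← le_div_iff₀ hpos]
    refine HH_le v M (div_nonneg (mul_nonneg (HH_nonneg _ _) (v.nonneg _)) hpos.le) fun g => ?_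
    by_cases hg : Function.Injective g
    · obtain ⟨e1, he1⟩ := exists_equiv_extend (m := r) (r := m) (by omega) g hg
      let e' : m ⊕ r ≃ n := (Equiv.sumComm m r).trans e1
      have he' : e' ∘ Sum.inr = g := by rw [← he1]; rfl
      rw [le_div_iff₀ hpos, ← he', mul_comm, dual_minors v A M hAM e e']
      exact mul_le_mul_of_nonneg_right (le_HH v A _) (v.nonneg _)
    · rw [det_submatrix_eq_zero_of_not_injective M g hg, map_zero]
      exact div_nonneg (mul_nonneg (HH_nonneg _ _) (v.nonneg _)) hpos.le

end Dual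

end Fermat.Agent.MW
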