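import Fermat.Agent.MW.NSS

/-!
# Mordell-Weil: projective models and the local estimates
-/

set_option autoImplicit false

noncomputable section

namespace Fermat.Agent.MW

open Finset Filter

section Nrm

variable {K : Type*} [Field K] {ι : Type*} [Finite ι]

/-- sup norm -/
def nrm (v : AbsoluteValue K ℝ) (x : ι → K) : ℝ := ⨆ i, v (x i)

theorem le_nrm (v : AbsoluteValue K ℝ) (x : ι → K) (i : ι) : v (x i) ≤ nrm v x :=
  le_ciSup (f := fun i => v (x i)) (Set.finite_range _).bddAbove i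

omit [Finite ι] in
theorem nrm_nonneg (v : AbsoluteValue K ℝ) (x : ι → K) : 0 ≤ nrm v x :=
  Real.iSup_nonneg fun _ => v.nonneg _

omit [Finite ι] in
theorem nrm_le (v : AbsoluteValue K ℝ) (x : ι → K) {B : ℝ} (hB : 0 ≤ B) (h : ∀ i, v (x i) ≤ B) :
    nrm v x ≤ B := Real.iSup_le h hB

theorem nrm_pos (v : AbsoluteValue K ℝ) {x : ι → K} (hx : x ≠ 0) : 0 < nrm v x := by
  obtain ⟨i, hi⟩ := Function.ne_iff.mp hx
  exact lt_of_lt_of_le (v.pos hi) (le_nrm v x i)

theorem exists_eq_nrm (v : AbsoluteValue K ℝ) {x : ι → K} (hx : x ≠ 0) :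
    ∃ i, v (x i) = nrm v x := by
  obtain ⟨i, -⟩ := Function.ne_iff.mp hx
  have : Nonempty ι := ⟨i⟩
  exact exists_eq_ciSup_of_finite (f := fun i => v (x i))

omit [Finite ι] in
theorem nrm_smul (v : AbsoluteValue K ℝ) (t : K) (x : ι → K) : nrm v (t • x) = v t * nrm v x := by
  unfold nrm
  rw [Real.mul_iSup_of_nonneg (v.nonneg _)]
  simp [v.map_mul]

/-- max of 2x2 minors -/
def ddv (v : AbsoluteValue K ℝ) (x y : ι → K) : ℝ :=
  ⨆ p : ι × ι, v (x p.2 * y p.1 - x p.1 * y p.2)

theorem le_ddv (v : AbsoluteValue K ℝ) (x y : ι → K) (i l : ι) :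
    v (x l * y i - x i * y l) ≤ ddv v x y :=
  le_ciSup (f := fun p : ι × ι => v (x p.2 * y p.1 - x p.1 * y p.2))
    (Set.finite_range _).bddAbove (i, l)

omit [Finite ι] in
theorem ddv_nonneg (v : AbsoluteValue K ℝ) (x y : ι → K) : 0 ≤ ddv v x y :=
  Real.iSup_nonneg fun _ => v.nonneg _

theorem exists_eq_ddv [Nonempty ι] (v : AbsoluteValue K ℝ) (x y : ι → K) :
    ∃ p : ι × ι, v (x p.2 * y p.1 - x p.1 * y p.2) = ddv v x y :=
  exists_eq_ciSup_of_finite (f := fun p : ι × ι => v (x p.2 * y p.1 - x p.1 * y p.2))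

theorem ddv_le (v : AbsoluteValue K ℝ) (x y : ι → K) :
    ddv v x y ≤ kap v 2 * (nrm v x * nrm v y) := by
  have h0 : 0 ≤ nrm v x * nrm v y := mul_nonneg (nrm_nonneg _ _) (nrm_nonneg _ _)
  refine Real.iSup_le (fun p => ?_) (mul_nonneg (kap_pos _ _).le h0)
  refine abv_sub_le v h0 ?_ ?_ <;>
  · rw [v.map_mul]
    exact mul_le_mul (le_nrm _ _ _) (le_nrm _ _ _) (v.nonneg _) (nrm_nonneg _ _)

end Nrm

section PV

variable {K : Type*} [Field K] {ι κ : Type*} [Fintype ι] [DecidableEq ι] {L : ℕ}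

/-- multilinear extension of the structure constants -/
def pv (c : (Fin L → ι) → κ → K) {R : Type*} [CommRing R] [Algebra K R] (x : Fin L → ι → R) :
    κ → R := fun a => ∑ s : Fin L → ι, (∏ m, x m (s m)) * algebraMap K R (c s a)

/-- slot vectors -/
def slotVec (A : Finset (Fin L)) {R : Type*} [CommRing R] (z : Fin L → ι → R)
    (α : Fin L → ι × ι) (m : Fin L) : ι → R := fun j =>
  if m ∈ A then z m (α m).2 * (if j = (α m).1 then 1 else 0) -
    z m (α m).1 * (if j = (α m).2 then 1 else 0)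
  else (if j = (α m).1 then 1 else 0)

/-- the spanning vectors -/
def VV (c : (Fin L → ι) → κ → K) (A : Finset (Fin L)) {R : Type*} [CommRing R] [Algebra K R]
    (z : Fin L → ι → R) (α : Fin L → ι × ι) : κ → R := pv c (slotVec A z α)

theorem VV_map (c : (Fin L → ι) → κ → K) (A : Finset (Fin L)) {R R' : Type*} [CommRing R]
    [Algebra K R] [CommRing R'] [Algebra K R'] (φ : R →ₐ[K] R') (z : Fin L → ι → R)
    (α : Fin L → ι × ι) (a : κ) :
    φ (VV c A z α a) = VV c A (fun m i => φ (z m i)) α a := by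
  unfold VV pv
  rw [map_sum]
  refine Finset.sum_congr rfl fun s _ => ?_
  rw [map_mul, map_prod, AlgHom.commutes]
  congr 1
  refine Finset.prod_congr rfl fun m _ => ?_
  unfold slotVec
  split_ifs <;> simp

/-- homogeneity -/
theorem VV_smul (c : (Fin L → ι) → κ → K) (A : Finset (Fin L)) (z z' : Fin L → ι → K)
    (t : Fin L → K) (hz : ∀ m ∈ A, z m = t m • z' m) (α : Fin L → ι × ι) :
    VV c A z α = (∏ m ∈ A, t m) • VV c A z' α := by
  funext a
  rw [Pi.smul_apply, smul_eq_mul]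
  unfold VV pv
  rw [Finset.mul_sum]
  refine Finset.sum_congr rfl fun s _ => ?_
  rw [← mul_assoc]
  congr 1
  rw [← Finset.prod_mul_prod_compl A (fun m => slotVec A z α m (s m)),
    ← Finset.prod_mul_prod_compl A (fun m => slotVec A z' α m (s m)), ← mul_assoc,
    ← Finset.prod_mul_distrib]
  congr 1
  · refine Finset.prod_congr rfl fun m hm => ?_
    unfold slotVec
    rw [if_pos hm, if_pos hm, hz m hm]
    simp only [Pi.smul_apply, smul_eq_mul]
    ring
  · refine Finset.prod_congr rfl fun m hm => ?_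
    unfold slotVec
    rw [if_neg (Finset.mem_compl.mp hm), if_neg (Finset.mem_compl.mp hm)]

theorem dot_pv [Fintype κ] (c : (Fin L → ι) → κ → K) (E : κ → K) (e : ι → K)
    (h : ∀ s, ∑ a, E a * c s a = ∏ m, e (s m)) (x : Fin L → ι → K) :
    E ⬝ᵥ pv c x = ∏ m, e ⬝ᵥ x m := by
  have h1 : E ⬝ᵥ pv c x = ∑ s : Fin L → ι, (∏ m, x m (s m)) * ∏ m, e (s m) := by
    simp only [dotProduct, pv, Finset.mul_sum]
    rw [Finset.sum_comm]
    refine Finset.sum_congr rfl fun s _ => ?_
    rw [← h s, Finset.mul_sum]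
    refine Finset.sum_congr rfl fun a _ => ?_
    simp only [Algebra.algebraMap_self, RingHom.id_apply]
    ring
  rw [h1]
  simp only [dotProduct]
  rw [Finset.prod_univ_sum, Fintype.piFinset_univ]
  refine Finset.sum_congr rfl fun s _ => ?_
  rw [← Finset.prod_mul_distrib]
  exact Finset.prod_congr rfl fun m _ => mul_comm _ _

theorem dot_slotVec (A : Finset (Fin L)) (z : Fin L → ι → K) (e : ι → K) (α : Fin L → ι × ι)
    (m : Fin L) : e ⬝ᵥ slotVec A z α m =
      if m ∈ A then z m (α m).2 * e (α m).1 - z m (α m).1 * e (α m).2 else e (α m).1 := by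
  unfold slotVec dotProduct
  split_ifs with h
  · simp only [mul_sub, Finset.sum_sub_distrib]
    congr 1
    · simp [mul_comm]
    · simp [mul_comm]
  · simp

end PV

/-- projective model -/
structure PModel (K : Type*) [Field K] (Pt ι κ : Type*) [Fintype ι] [DecidableEq ι] [Fintype κ]
    (L : ℕ) where
  e : Pt → ι → K
  E : Pt → κ → K
  c : (Fin L → ι) → κ → K
  Rel : Set (MvPolynomial ι K)
  e_ne : ∀ P, e P ≠ 0
  rel_e : ∀ P (t : K), ∀ r ∈ Rel, MvPolynomial.eval (t • e P) r = 0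
  rel_pt : ∀ z : ι → K, z ≠ 0 → (∀ r ∈ Rel, MvPolynomial.eval z r = 0) → ∃ (P : Pt) (t : K), z = t • e P
  E_c : ∀ P s, ∑ a, E P a * c s a = ∏ m, e P (s m)
  sep : ∀ P Q, (∀ i j, e P j * e Q i - e P i * e Q j = 0) → P = Q
  finrank_W : ∀ (k : ℕ) (P : Fin L → Pt), k + 2 ≤ L →
    Module.finrank K (Submodule.span K (Set.range
      (VV c (Finset.univ.filter fun m : Fin L => m.val < k) (fun m => e (P m))))) + k =
      Fintype.card κ

namespace PModel

variable {K : Type*} [Field K] {Pt ι κ : Type*} [Fintype ι] [DecidableEq ι] [Fintype κ]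
    {L : ℕ} (M : PModel K Pt ι κ L)

/-- active slots -/
def act (L k : ℕ) : Finset (Fin L) := Finset.univ.filter fun m : Fin L => m.val < k

theorem mem_act {L k : ℕ} {m : Fin L} : m ∈ act L k ↔ m.val < k := by simp [act]

/-- sections vanishing at `P_m`, `m < k` -/
def W (k : ℕ) (P : Fin L → Pt) : Submodule K (κ → K) :=
  Submodule.span K (Set.range (VV M.c (act L k) (fun m => M.e (P m))))

theorem finrank_W' {k : ℕ} (hk : k + 2 ≤ L) (P : Fin L → Pt) :
    Module.finrank K (M.W k P) + k = Fintype.card κ := M.finrank_W k P hk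

/-- distance -/
def dist (v : AbsoluteValue K ℝ) (P Q : Pt) : ℝ :=
  ddv v (M.e P) (M.e Q) / (nrm v (M.e P) * nrm v (M.e Q))

include M in
theorem nonempty_ι (P : Pt) : Nonempty ι := by
  obtain ⟨i, -⟩ := Function.ne_iff.mp (M.e_ne P)
  exact ⟨i⟩

theorem dist_nonneg (v : AbsoluteValue K ℝ) (P Q : Pt) : 0 ≤ M.dist v P Q :=
  div_nonneg (ddv_nonneg _ _ _) (mul_nonneg (nrm_nonneg _ _) (nrm_nonneg _ _))

theorem dist_le (v : AbsoluteValue K ℝ) (P Q : Pt) : M.dist v P Q ≤ kap v 2 := by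
  have h := mul_pos (nrm_pos v (M.e_ne P)) (nrm_pos v (M.e_ne Q))
  rw [dist, div_le_iff₀ h]
  exact ddv_le v _ _

theorem dist_pos (v : AbsoluteValue K ℝ) {P Q : Pt} (hPQ : P ≠ Q) : 0 < M.dist v P Q := by
  have h := mul_pos (nrm_pos v (M.e_ne P)) (nrm_pos v (M.e_ne Q))
  refine div_pos ?_ h
  by_contra hcon
  apply hPQ
  apply M.sep
  intro i j
  have h1 := le_ddv v (M.e P) (M.e Q) i j
  have h2 : v (M.e P j * M.e Q i - M.e P i * M.e Q j) ≤ 0 := by linarith
  exact v.eq_zero.mp (le_antisymm h2 (v.nonneg _))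

theorem ddv_eq (v : AbsoluteValue K ℝ) (P Q : Pt) :
    ddv v (M.e P) (M.e Q) = nrm v (M.e P) * (nrm v (M.e Q) * M.dist v P Q) := by
  have h := mul_pos (nrm_pos v (M.e_ne P)) (nrm_pos v (M.e_ne Q))
  rw [dist]
  calc ddv v (M.e P) (M.e Q) = ddv v (M.e P) (M.e Q) / (nrm v (M.e P) * nrm v (M.e Q)) *
        (nrm v (M.e P) * nrm v (M.e Q)) := (div_mul_cancel₀ _ h.ne').symm
    _ = _ := by ring

/-- the size appearing in (S) -/
def size (v : AbsoluteValue K ℝ) (k : ℕ) (P : Fin L → Pt) (Q : Pt) : ℝ :=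
  nrm v (M.e Q) ^ L * ∏ m ∈ act L k, M.dist v (P m) Q

theorem size_nonneg (v : AbsoluteValue K ℝ) (k : ℕ) (P : Fin L → Pt) (Q : Pt) :
    0 ≤ M.size v k P Q :=
  mul_nonneg (pow_nonneg (nrm_nonneg _ _) _) (Finset.prod_nonneg fun _ _ => M.dist_nonneg _ _ _)

theorem dot_VV (P : Pt) (A : Finset (Fin L)) (z : Fin L → ι → K) (α : Fin L → ι × ι) :
    M.E P ⬝ᵥ VV M.c A z α = ∏ m, (if m ∈ A then z m (α m).2 * M.e P (α m).1 -
      z m (α m).1 * M.e P (α m).2 else M.e P (α m).1) := by
  unfold VV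
  rw [dot_pv M.c (M.E P) (M.e P) (M.E_c P)]
  exact Finset.prod_congr rfl fun m _ => dot_slotVec A z (M.e P) α m

theorem W_eq_zero_of_mem {k : ℕ} (P : Fin L → Pt) {a : κ → K} (ha : a ∈ M.W k P) {m : Fin L}
    (hm : m.val < k) : M.E (P m) ⬝ᵥ a = 0 := by
  have h : M.W k P ≤ LinearMap.ker (dotProductBilin K K (M.E (P m))) := by
    refine Submodule.span_le.mpr ?_
    rintro _ ⟨α, rfl⟩
    rw [SetLike.mem_coe, LinearMap.mem_ker]
    show M.E (P m) ⬝ᵥ _ = 0
    rw [M.dot_VV]
    apply Finset.prod_eq_zero (Finset.mem_univ m)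
    rw [if_pos (mem_act.mpr hm)]
    ring
  exact h ha

/-- normalised coordinates -/
def zz (k : ℕ) (P : Fin L → Pt) (i0 : Fin L → ι) : Fin L → ι → K := fun m =>
  if m ∈ act L k then (M.e (P m) (i0 m))⁻¹ • M.e (P m) else 0

variable (Vf : AVF K)

/-- uniform choice of a basis of `W` -/
theorem exists_minor [IsAlgClosed K] [Nonempty Pt] (k : ℕ) (hk : k + 2 ≤ L) :
    ∃ C : Vf.Λ → ℝ, IsMC C ∧ ∀ (v : Vf.Λ) (P : Fin L → Pt) (i0 : Fin L → ι),
      (∀ m, Vf.av v (M.e (P m) (i0 m)) = nrm (Vf.av v) (M.e (P m))) →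
      ∃ (α : Fin (Fintype.card κ - k) → Fin L → ι × ι) (b : Fin (Fintype.card κ - k) → κ),
        1 ≤ C v * Vf.av v (Matrix.of fun r s =>
          VV M.c (act L k) (M.zz k P i0) (α r) (b s)).det := by
  classical
  obtain ⟨P0⟩ := ‹Nonempty Pt›
  -- for each choice of `i0`
  have key : ∀ i0 : Fin L → ι, ∃ C : Vf.Λ → ℝ, IsMC C ∧ ∀ (v : Vf.Λ) (P : Fin L → Pt),
      (∀ m, Vf.av v (M.e (P m) (i0 m)) = nrm (Vf.av v) (M.e (P m))) →
      ∃ (α : Fin (Fintype.card κ - k) → Fin L → ι × ι) (b : Fin (Fintype.card κ - k) → κ),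
        1 ≤ C v * Vf.av v (Matrix.of fun r s =>
          VV M.c (act L k) (M.zz k P i0) (α r) (b s)).det := by
    intro i0
    let σ := Fin L × ι
    let δ := Fintype.card κ - k
    let Eq1 : Set (MvPolynomial σ K) :=
      {q | ∃ m ∈ act L k, ∃ r ∈ M.Rel, q = MvPolynomial.rename (fun i => (m, i)) r}
    let Eq2 : Set (MvPolynomial σ K) :=
      {q | ∃ m ∈ act L k, q = MvPolynomial.X (m, i0 m) - 1}
    let t : (Fin δ → Fin L → ι × ι) × (Fin δ → κ) → MvPolynomial σ K := fun p =>
      (Matrix.of fun r s => VV M.c (act L k) (fun m i => (MvPolynomial.X (m, i) : MvPolynomial σ K))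
        (p.1 r) (p.2 s)).det
    have ht : ∀ (z : σ → K) p, MvPolynomial.eval z (t p) =
        (Matrix.of fun r s => VV M.c (act L k) (fun m i => z (m, i)) (p.1 r) (p.2 s)).det := by
      intro z p
      show MvPolynomial.eval z (Matrix.det _) = _
      rw [RingHom.map_det]
      congr 1
      ext r s
      rw [RingHom.mapMatrix_apply, Matrix.map_apply, Matrix.of_apply, Matrix.of_apply]
      have := VV_map M.c (act L k) (MvPolynomial.aeval z)
        (fun m i => (MvPolynomial.X (m, i) : MvPolynomial σ K)) (p.1 r) (p.2 s)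
      rw [MvPolynomial.aeval_eq_eval] at this
      simpa using this
    have hns : ∀ z : σ → K, (∀ q ∈ Eq1 ∪ Eq2, MvPolynomial.eval z q = 0) →
        ∃ p, MvPolynomial.eval z (t p) ≠ 0 := by
      intro z hz
      have hz1 : ∀ m ∈ act L k, (fun i => z (m, i)) ≠ 0 := by
        intro m hm h0
        have h1 := hz _ (Or.inr ⟨m, hm, rfl⟩)
        have h2 := congrFun h0 (i0 m)
        simp only [map_sub, MvPolynomial.eval_X, map_one, Pi.zero_apply] at h1 h2
        rw [h2] at h1
        simp at h1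
      have hz2 : ∀ m, ∃ P : Pt, ∃ t : K, m ∈ act L k → (fun i => z (m, i)) = t • M.e P := by
        intro m
        by_cases hm : m ∈ act L k
        · obtain ⟨P, t, h⟩ := M.rel_pt (fun i => z (m, i)) (hz1 m hm) (by
            intro r hr
            have h1 := hz _ (Or.inl ⟨m, hm, r, hr, rfl⟩)
            rw [MvPolynomial.eval_rename] at h1
            exact h1)
          exact ⟨P, t, fun _ => h⟩
        · exact ⟨P0, 0, fun h => absurd h hm⟩
      choose P t0 hPt using hz2
      have hVV : ∀ α, VV M.c (act L k) (fun m i => z (m, i)) α =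
          (∏ m ∈ act L k, t0 m) • VV M.c (act L k) (fun m => M.e (P m)) α := fun α =>
        VV_smul M.c (act L k) _ _ t0 (fun m hm => hPt m hm) α
      have ht0 : (∏ m ∈ act L k, t0 m) ≠ 0 := by
        rw [Finset.prod_ne_zero_iff]
        intro m hm h0
        apply hz1 m hm
        rw [hPt m hm, h0, zero_smul]
      have hfr : Module.finrank K (M.W k P) = δ := by
        have := M.finrank_W' hk P
        omega
      obtain ⟨g, hg1, hg2, hg3⟩ := Submodule.exists_fun_fin_finrank_span_eq K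
        (Set.range (VV M.c (act L k) (fun m => M.e (P m))))
      choose α0 hα0 using hg1
      let α : Fin δ → Fin L → ι × ι := fun r => α0 (Fin.cast hfr.symm r)
      have hli : LinearIndependent K (fun r : Fin δ => VV M.c (act L k) (fun m => M.e (P m)) (α r)) := by
        have : (fun r : Fin δ => VV M.c (act L k) (fun m => M.e (P m)) (α r)) =
            g ∘ Fin.cast hfr.symm := by
          funext r
          exact hα0 _
        rw [this]
        exact hg3.comp _ (Fin.cast_injective _)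
      have hli2 : LinearIndependent K
          (Matrix.of fun (r : Fin δ) (a : κ) => VV M.c (act L k) (fun m i => z (m, i)) (α r) a).row := by
        have : (Matrix.of fun (r : Fin δ) (a : κ) =>
            VV M.c (act L k) (fun m i => z (m, i)) (α r) a).row =
            fun r => (Units.mk0 _ ht0) • VV M.c (act L k) (fun m => M.e (P m)) (α r) := by
          funext r
          show VV M.c (act L k) (fun m i => z (m, i)) (α r) = _
          rw [hVV]
          rfl
        rw [this]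
        exact hli.units_smul (fun _ => Units.mk0 _ ht0)
      obtain ⟨b, hb⟩ := exists_det_ne_zero _ hli2
      exact ⟨(α, b), by rw [ht]; exact hb⟩
    obtain ⟨C, hC, hC2⟩ := Vf.nss (Eq1 ∪ Eq2) t hns
    refine ⟨C, hC, fun v P hP => ?_⟩
    let z : σ → K := fun q => if q.1 ∈ act L k then M.zz k P i0 q.1 q.2 else 0
    have hz : (fun (m : Fin L) i => z (m, i)) = M.zz k P i0 := by
      funext m i
      simp only [z, zz]
      split_ifs <;> simp
    have hzm : ∀ m ∈ act L k, (fun i => z (m, i)) = (M.e (P m) (i0 m))⁻¹ • M.e (P m) := by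
      intro m hm
      have := congrFun hz m
      rw [this]
      simp [zz, hm]
    have hnz : ∀ m, M.e (P m) (i0 m) ≠ 0 := by
      intro m h0
      have := hP m
      rw [h0, map_zero] at this
      exact absurd this (nrm_pos _ (M.e_ne (P m))).ne
    obtain ⟨p, hp⟩ := hC2 v z (by
        rintro ⟨m, i⟩
        by_cases hm : m ∈ act L k
        · have := congrFun (hzm m hm) i
          rw [this, Pi.smul_apply, smul_eq_mul, (Vf.av v).map_mul, map_inv₀, hP m]
          have h1 := nrm_pos (Vf.av v) (M.e_ne (P m))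
          rw [inv_mul_le_iff₀ h1, mul_one]
          exact le_nrm _ _ _
        · simp [z, hm]) (by
        rintro q (⟨m, hm, r, hr, rfl⟩ | ⟨m, hm, rfl⟩)
        · rw [MvPolynomial.eval_rename]
          have : z ∘ (fun i => (m, i)) = (M.e (P m) (i0 m))⁻¹ • M.e (P m) := hzm m hm
          rw [this]
          exact M.rel_e _ _ r hr
        · have := congrFun (hzm m hm) (i0 m)
          simp only [Pi.smul_apply, smul_eq_mul] at this
          rw [map_sub, MvPolynomial.eval_X, map_one, this, inv_mul_cancel₀ (hnz m), sub_self])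
    refine ⟨p.1, p.2, ?_⟩
    rw [ht, hz] at hp
    exact hp
  obtain ⟨C, hC, hC2⟩ := exists_MC_of_finite
    (fun (i0 : Fin L → ι) (C : Vf.Λ → ℝ) => ∀ (v : Vf.Λ) (P : Fin L → Pt),
      (∀ m, Vf.av v (M.e (P m) (i0 m)) = nrm (Vf.av v) (M.e (P m))) →
      ∃ (α : Fin (Fintype.card κ - k) → Fin L → ι × ι) (b : Fin (Fintype.card κ - k) → κ),
        1 ≤ C v * Vf.av v (Matrix.of fun r s =>
          VV M.c (act L k) (M.zz k P i0) (α r) (b s)).det)
    (fun i0 C D hCD h v P hP => by
      obtain ⟨α, b, hab⟩ := h v P hP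
      exact ⟨α, b, hab.trans (mul_le_mul_of_nonneg_right (hCD v) ((Vf.av v).nonneg _))⟩) key
  exact ⟨C, hC, fun v P i0 h => hC2 i0 v P h⟩

end PModel

end Fermat.Agent.MW
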