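import Fermat.Agent.MW.Loc3

/-!
# Mordell-Weil: families of absolute values, uniform Nullstellensatz
-/

set_option autoImplicit false

noncomputable section

namespace Fermat.Agent.MW

open Finset Filter

/-- a family of absolute values -/
structure AVF (K : Type*) [Field K] where
  Λ : Type
  av : Λ → AbsoluteValue K ℝ
  nonarch : ∀ᶠ v in cofinite, IsNonarchimedean (av v)
  fin : ∀ x : K, x ≠ 0 → ∀ᶠ v in cofinite, av v x = 1

variable {Λ : Type}

/-- `M_K`-constants -/
def IsMC (C : Λ → ℝ) : Prop := (∀ v, 1 ≤ C v) ∧ ∀ᶠ v in cofinite, C v = 1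

namespace IsMC

theorem one : IsMC (fun _ : Λ => (1 : ℝ)) := ⟨fun _ => le_rfl, Eventually.of_forall fun _ => rfl⟩

theorem mul {C D : Λ → ℝ} (hC : IsMC C) (hD : IsMC D) : IsMC (fun v => C v * D v) := by
  refine ⟨fun v => ?_, ?_⟩
  · have := hC.1 v; have := hD.1 v; nlinarith
  · filter_upwards [hC.2, hD.2] with v h1 h2
    rw [h1, h2, one_mul]

theorem pow {C : Λ → ℝ} (hC : IsMC C) (n : ℕ) : IsMC (fun v => C v ^ n) := by
  refine ⟨fun v => one_le_pow₀ (hC.1 v), ?_⟩
  filter_upwards [hC.2] with v h1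
  rw [h1, one_pow]

theorem max {C D : Λ → ℝ} (hC : IsMC C) (hD : IsMC D) : IsMC (fun v => Max.max (C v) (D v)) := by
  refine ⟨fun v => (hC.1 v).trans (le_max_left _ _), ?_⟩
  filter_upwards [hC.2, hD.2] with v h1 h2
  rw [h1, h2, max_self]

theorem pos {C : Λ → ℝ} (hC : IsMC C) (v : Λ) : 0 < C v := lt_of_lt_of_le one_pos (hC.1 v)

theorem nonneg {C : Λ → ℝ} (hC : IsMC C) (v : Λ) : 0 ≤ C v := (hC.pos v).le

end IsMC

/-- uniform constants for finitely many monotone conditions -/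
theorem exists_MC_of_finite {α : Type*} [Finite α] (p : α → (Λ → ℝ) → Prop)
    (hmono : ∀ i C D, (∀ v, C v ≤ D v) → p i C → p i D)
    (h : ∀ i, ∃ C : Λ → ℝ, IsMC C ∧ p i C) : ∃ C : Λ → ℝ, IsMC C ∧ ∀ i, p i C := by
  classical
  have := Fintype.ofFinite α
  choose C hC hp using h
  refine ⟨fun v => ∏ i, C i v, ?_, fun i => hmono i _ _ (fun v => ?_) (hp i)⟩
  · refine ⟨fun v => ?_, ?_⟩
    · calc (1 : ℝ) = ∏ _i : α, (1 : ℝ) := by simp
        _ ≤ ∏ i, C i v := Finset.prod_le_prod (fun _ _ => zero_le_one) fun i _ => (hC i).1 v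
    · have : ∀ᶠ v in cofinite, ∀ i, C i v = 1 := eventually_all.mpr fun i => (hC i).2
      filter_upwards [this] with v hv
      simp [hv]
  · rw [← Finset.mul_prod_erase _ _ (Finset.mem_univ i)]
    have h1 : (1 : ℝ) ≤ ∏ j ∈ Finset.univ.erase i, C j v := by
      calc (1 : ℝ) = ∏ _i ∈ Finset.univ.erase i, (1 : ℝ) := by simp
        _ ≤ _ := Finset.prod_le_prod (fun _ _ => zero_le_one) fun j _ => (hC j).1 v
    have h2 := (hC i).pos v
    nlinarith

namespace AVF

variable {K : Type*} [Field K] (P : AVF K)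

theorem kap_MC (n : ℕ) : IsMC (fun v => kap (P.av v) n) := by
  refine ⟨fun v => one_le_kap _ _, ?_⟩
  filter_upwards [P.nonarch] with v hv
  exact kap_of_nonarch hv n

theorem exists_bound {α : Type*} [Finite α] (x : α → K) :
    ∃ C : P.Λ → ℝ, IsMC C ∧ ∀ i v, P.av v (x i) ≤ C v := by
  refine exists_MC_of_finite (fun i C => ∀ v, P.av v (x i) ≤ C v)
    (fun i C D hCD h v => (h v).trans (hCD v)) fun i => ?_
  refine ⟨fun v => Max.max 1 (P.av v (x i)), ⟨fun v => le_max_left _ _, ?_⟩, fun v => le_max_right _ _⟩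
  by_cases h : x i = 0
  · simp [h]
  · filter_upwards [P.fin _ h] with v hv
    rw [hv, max_self]

theorem exists_eval_bound {σ : Type*} (p : MvPolynomial σ K) :
    ∃ C : P.Λ → ℝ, IsMC C ∧ ∀ v (z : σ → K), (∀ s, P.av v (z s) ≤ 1) →
      P.av v (MvPolynomial.eval z p) ≤ C v := by
  obtain ⟨C, hC, hC2⟩ := P.exists_bound (fun m : p.support => p.coeff m)
  refine ⟨fun v => kap (P.av v) p.support.card * C v, (P.kap_MC _).mul hC, fun v z hz => ?_⟩
  rw [MvPolynomial.eval_eq]
  refine abv_sum_le _ _ _ (hC.nonneg v) fun m hm => ?_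
  rw [(P.av v).map_mul, map_prod]
  calc P.av v (p.coeff m) * ∏ i ∈ m.support, P.av v (z i ^ m i) ≤ C v * 1 := by
        refine mul_le_mul (hC2 ⟨m, hm⟩ v) ?_ (Finset.prod_nonneg fun _ _ => (P.av v).nonneg _) (hC.nonneg v)
        refine Finset.prod_le_one (fun _ _ => (P.av v).nonneg _) fun i _ => ?_
        rw [map_pow]
        exact pow_le_one₀ ((P.av v).nonneg _) (hz i)
    _ = C v := mul_one _

/-- uniform Nullstellensatz -/
theorem nss [IsAlgClosed K] {σ τ : Type*} [Finite σ] [Fintype τ] (E : Set (MvPolynomial σ K))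
    (t : τ → MvPolynomial σ K)
    (h : ∀ z : σ → K, (∀ e ∈ E, MvPolynomial.eval z e = 0) → ∃ i, MvPolynomial.eval z (t i) ≠ 0) :
    ∃ C : P.Λ → ℝ, IsMC C ∧ ∀ v (z : σ → K), (∀ s, P.av v (z s) ≤ 1) →
      (∀ e ∈ E, MvPolynomial.eval z e = 0) → ∃ i, 1 ≤ C v * P.av v (MvPolynomial.eval z (t i)) := by
  classical
  let I : Ideal (MvPolynomial σ K) := Ideal.span (E ∪ Set.range t)
  have hI : I = ⊤ := by
    rw [← Ideal.radical_eq_top, ← MvPolynomial.vanishingIdeal_zeroLocus_eq_radical (K := K)]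
    have : MvPolynomial.zeroLocus K I = ∅ := by
      rw [Set.eq_empty_iff_forall_notMem]
      intro z hz
      rw [MvPolynomial.zeroLocus_span] at hz
      obtain ⟨i, hi⟩ := h z (fun e he => by
        have := hz e (Or.inl he)
        rwa [MvPolynomial.aeval_eq_eval] at this)
      apply hi
      have := hz (t i) (Or.inr ⟨i, rfl⟩)
      rwa [MvPolynomial.aeval_eq_eval] at this
    rw [this]
    exact MvPolynomial.vanishingIdeal_empty
  have h1 : (1 : MvPolynomial σ K) ∈ I := by rw [hI]; trivial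
  have hsp : I = Ideal.span E ⊔ Ideal.span (Set.range t) := Ideal.span_union _ _
  rw [hsp, Submodule.mem_sup] at h1
  obtain ⟨a, ha, b, hb, hab⟩ := h1
  obtain ⟨g, hg⟩ := Ideal.mem_span_range_iff_exists_fun.mp hb
  have hgb : ∀ i, ∃ C : P.Λ → ℝ, IsMC C ∧ ∀ v (z : σ → K), (∀ s, P.av v (z s) ≤ 1) →
      P.av v (MvPolynomial.eval z (g i)) ≤ C v := fun i => P.exists_eval_bound (g i)
  obtain ⟨C, hC, hC2⟩ := exists_MC_of_finite
    (fun i C => ∀ v (z : σ → K), (∀ s, P.av v (z s) ≤ 1) →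
      P.av v (MvPolynomial.eval z (g i)) ≤ C v)
    (fun i C D hCD h v z hz => (h v z hz).trans (hCD v)) hgb
  refine ⟨fun v => kap (P.av v) (Fintype.card τ) * C v, (P.kap_MC _).mul hC, fun v z hz hE => ?_⟩
  have h0 : MvPolynomial.eval z a = 0 := by
    have : Ideal.span E ≤ RingHom.ker (MvPolynomial.eval z) := Ideal.span_le.mpr fun e he => hE e he
    exact this ha
  have h2 : (1 : K) = ∑ i, MvPolynomial.eval z (g i) * MvPolynomial.eval z (t i) := by
    have := congrArg (MvPolynomial.eval z) hab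
    rw [map_add, h0, zero_add, ← hg, map_sum, map_one] at this
    rw [← this]
    exact Finset.sum_congr rfl fun i _ => by rw [map_mul]
  have hne : Nonempty τ := by
    by_contra hcon
    rw [not_nonempty_iff] at hcon
    simp at h2
  obtain ⟨i, hi⟩ := Finite.exists_max fun i => P.av v (MvPolynomial.eval z (t i))
  refine ⟨i, ?_⟩
  calc (1 : ℝ) = P.av v 1 := (map_one _).symm
    _ = P.av v (∑ i, MvPolynomial.eval z (g i) * MvPolynomial.eval z (t i)) := by rw [← h2]
    _ ≤ kap (P.av v) (Fintype.card τ) * (C v * P.av v (MvPolynomial.eval z (t i))) := by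
        refine abv_sum_univ_le _ _ (mul_nonneg (hC.nonneg v) ((P.av v).nonneg _)) fun j => ?_
        rw [(P.av v).map_mul]
        exact mul_le_mul (hC2 j v z hz) (hi j) ((P.av v).nonneg _) (hC.nonneg v)
    _ = _ := by ring

end AVF

end Fermat.Agent.MW
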