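import Fermat.Agent.MW.Cube

/-!
# Mordell-Weil: Northcott property
-/

set_option autoImplicit false
set_option linter.unusedSectionVars false

noncomputable section

namespace Fermat.Agent.MW

open AlgebraicCurve Fermat.Agent.FF WithZero Matrix Fermat.Agent.H18.FixedClasses

variable {K F : Type*} [Field K] [Field F] [Algebra K F] [IsAlgClosed K] [FunField K F]
variable [CharZero K]

section PolyBound

variable {k : Type*} [Field k]

theorem coeff_prod_le (v : AbsoluteValue k ℝ) {α : Type*} (l : List α) (r : α → k) (n : ℕ) :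
    v (((l.map fun a => Polynomial.X - Polynomial.C (r a)).prod).coeff n) ≤
      kap v 2 ^ l.length * (l.map fun a => max 1 (v (r a))).prod := by
  induction l generalizing n with
  | nil =>
    simp only [List.map_nil, List.prod_nil, List.length_nil, pow_zero, one_mul,
      Polynomial.coeff_one]
    split_ifs <;> simp
  | cons a l ih =>
    have hB : 0 ≤ kap v 2 ^ l.length * (l.map fun a => max 1 (v (r a))).prod := by
      refine mul_nonneg (pow_nonneg (kap_pos _ _).le _) (List.prod_nonneg ?_)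
      intro x hx
      obtain ⟨b, -, rfl⟩ := List.mem_map.mp hx
      exact le_trans zero_le_one (le_max_left _ _)
    have h1 : (1 : ℝ) ≤ max 1 (v (r a)) := le_max_left _ _
    rw [List.map_cons, List.prod_cons, List.map_cons, List.prod_cons, List.length_cons]
    have key : v ((((Polynomial.X - Polynomial.C (r a)) *
        (l.map fun a => Polynomial.X - Polynomial.C (r a)).prod)).coeff n) ≤
        kap v 2 * (max 1 (v (r a)) * (kap v 2 ^ l.length *
          (l.map fun a => max 1 (v (r a))).prod)) := by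
      rw [sub_mul, Polynomial.coeff_sub, Polynomial.coeff_C_mul]
      refine abv_sub_le v (mul_nonneg (by linarith) hB) ?_ ?_
      · cases n with
        | zero =>
          rw [Polynomial.coeff_X_mul_zero, map_zero]
          exact mul_nonneg (by linarith) hB
        | succ n =>
          rw [Polynomial.coeff_X_mul]
          exact (ih n).trans (le_mul_of_one_le_left hB h1)
      · rw [v.map_mul]
        exact mul_le_mul (le_max_right _ _) (ih n) (v.nonneg _) (by linarith)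
    refine key.trans (le_of_eq ?_)
    ring

end PolyBound

theorem regular_of_mem_VN {P0 P : Place K F} (hP : P ≠ P0) {n : ℕ} {f : F} (hf : f ∈ VN P0 n) :
    P.adicValuation f ≤ 1 := by
  have := hf P
  rwa [Finsupp.single_eq_of_ne hP, exp_zero] at this

namespace Ctx

variable (X : Ctx K F)

theorem pow_le_VN (a n : ℕ) : (VN X.P0 a) ^ n ≤ VN X.P0 (n * a) := by
  induction n with
  | zero => rw [pow_zero, zero_mul, VN_zero]
  | succ n ih =>
    rw [pow_succ, Submodule.mul_le]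
    intro f hf g hg
    rw [Nat.succ_mul]
    exact mul_mem_VN (ih hf) hg

theorem evv_of_ne {P : Place K F} (hP : P ≠ X.P0) (N : ℕ) (f : F) :
    evv X.P0 X.t N P f = val P f := by
  unfold evv tau
  rw [if_neg hP, one_pow, mul_one]

theorem bd_pow (n : ℕ) : ∀ h ∈ (VN X.P0 X.N0) ^ n, ∃ C : X.Vf.Λ → ℝ, IsMC C ∧
    ∀ v (P : Place K F), P ≠ X.P0 → X.Vf.av v (val P h) ≤ C v * X.ns v P ^ n := by
  induction n with
  | zero =>
    intro h hh
    rw [pow_zero, Submodule.mem_one] at hh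
    obtain ⟨c, rfl⟩ := hh
    obtain ⟨C, hC, hC'⟩ := X.Vf.exists_bound (fun _ : Unit => c)
    refine ⟨C, hC, fun v P _ => ?_⟩
    rw [val_algebraMap, pow_zero, mul_one]
    exact hC' () v
  | succ n ih =>
    intro h hh
    rw [pow_succ] at hh
    induction hh using Submodule.mul_induction_on' with
    | mem_mul_mem f hf g hg =>
      obtain ⟨C1, hC1, hC1'⟩ := ih f hf
      obtain ⟨C2, hC2, hC2'⟩ := X.Vf.exists_bound ((X.bb X.N0).repr ⟨g, hg⟩ : Fin (X.d X.N0) → K)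
      refine ⟨fun v => C1 v * (kap (X.Vf.av v) (Fintype.card (Fin (X.d X.N0))) * C2 v),
        hC1.mul ((X.Vf.kap_MC _).mul hC2), fun v P hP => ?_⟩
      have hfr := regular_of_mem_VN hP (X.pow_le_VN _ _ hf)
      have hgr := regular_of_mem_VN hP hg
      have hns : 0 ≤ X.ns v P := nrm_nonneg _ _
      rw [val_mul hfr hgr, (X.Vf.av v).map_mul]
      have h1 := evv_eq_sum X.ht (X.bb X.N0) P ⟨g, hg⟩
      rw [X.evv_of_ne hP] at h1
      have h2 : X.Vf.av v (val P g) ≤ kap (X.Vf.av v) (Fintype.card (Fin (X.d X.N0))) *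
          (C2 v * X.ns v P) := by
        rw [show val P g = _ from h1]
        refine abv_sum_univ_le _ _ (mul_nonneg (hC2.nonneg v) hns) fun i => ?_
        rw [(X.Vf.av v).map_mul]
        exact mul_le_mul (hC2' i v) (le_nrm (X.Vf.av v)
          (eMod X.P0 X.t X.N0 (X.bb X.N0) P) i) ((X.Vf.av v).nonneg _) (hC2.nonneg v)
      calc X.Vf.av v (val P f) * X.Vf.av v (val P g) ≤ (C1 v * X.ns v P ^ n) *
            (kap (X.Vf.av v) (Fintype.card (Fin (X.d X.N0))) * (C2 v * X.ns v P)) :=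
            mul_le_mul (hC1' v P hP) h2 ((X.Vf.av v).nonneg _)
              (mul_nonneg (hC1.nonneg v) (pow_nonneg hns _))
        _ = _ := by ring
    | add f hf g hg ihf ihg =>
      obtain ⟨C1, hC1, hC1'⟩ := ihf
      obtain ⟨C2, hC2, hC2'⟩ := ihg
      refine ⟨fun v => kap (X.Vf.av v) 2 * (max (C1 v) (C2 v)),
        (X.Vf.kap_MC _).mul (hC1.max hC2), fun v P hP => ?_⟩
      have hf' : f ∈ VN X.P0 ((n + 1) * X.N0) := X.pow_le_VN _ _ (by rw [pow_succ]; exact hf)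
      have hg' : g ∈ VN X.P0 ((n + 1) * X.N0) := X.pow_le_VN _ _ (by rw [pow_succ]; exact hg)
      have hns : 0 ≤ X.ns v P ^ (n + 1) := pow_nonneg (nrm_nonneg _ _) _
      rw [val_add (regular_of_mem_VN hP hf') (regular_of_mem_VN hP hg'), mul_assoc]
      refine abv_add_le _ (mul_nonneg ((hC1.nonneg v).trans (le_max_left _ _)) hns) ?_ ?_
      · exact (hC1' v P hP).trans (mul_le_mul_of_nonneg_right (le_max_left _ _) hns)
      · exact (hC2' v P hP).trans (mul_le_mul_of_nonneg_right (le_max_right _ _) hns)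

/-- (N) local comparison between norm and distance to the base point -/
theorem exists_ns_ds : ∃ C : X.Vf.Λ → ℝ, IsMC C ∧ ∀ v (P : Place K F), P ≠ X.P0 →
    X.ds v P X.P0 ^ X.N0 * X.ns v P ≤ C v := by
  classical
  have hN0 : X.N0 = 4 * genusFF K F + 2 := rfl
  let e := eMod X.P0 X.t X.N0 (X.bb X.N0)
  let G : Fin (X.d X.N0) × Fin (X.d X.N0) → F := fun p =>
    e X.P0 p.1 • ((X.bb X.N0 p.2 : VN X.P0 X.N0) : F) -
      e X.P0 p.2 • ((X.bb X.N0 p.1 : VN X.P0 X.N0) : F)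
  have hG : ∀ p, G p ∈ VN X.P0 (X.N0 - 1) := by
    intro p
    have hmem : G p ∈ VN X.P0 X.N0 := Submodule.sub_mem _ (Submodule.smul_mem _ _ (X.bb X.N0 _).2)
      (Submodule.smul_mem _ _ (X.bb X.N0 _).2)
    have h1 : evv X.P0 X.t X.N0 X.P0 (G p) = 0 := by
      have h2 : evv X.P0 X.t X.N0 X.P0 (G p) = evL X.ht X.N0 X.P0
          (e X.P0 p.1 • X.bb X.N0 p.2 - e X.P0 p.2 • X.bb X.N0 p.1) := rfl
      rw [h2, map_sub, map_smul, map_smul]
      show e X.P0 p.1 * e X.P0 p.2 - e X.P0 p.2 * e X.P0 p.1 = 0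
      ring
    rw [evv_eq_zero_iff X.ht hmem, ← Finsupp.single_sub] at h1
    have : ((X.N0 : ℤ) - 1) = ((X.N0 - 1 : ℕ) : ℤ) := by
      rw [Nat.cast_sub (by omega)]; simp
    rw [this] at h1
    exact h1
  have hpow : ∀ (f : F) (a n : ℕ), f ∈ VN X.P0 a → f ^ n ∈ VN X.P0 (n * a) := by
    intro f a n hf
    induction n with
    | zero => rw [pow_zero, zero_mul]; exact one_mem_VN _ _
    | succ n ih => rw [pow_succ, Nat.succ_mul]; exact mul_mem_VN ih hf
  have hG2 : ∀ p, ∃ C : X.Vf.Λ → ℝ, IsMC C ∧ ∀ v (P : Place K F), P ≠ X.P0 →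
      X.Vf.av v (val P (G p)) ^ X.N0 ≤ C v * X.ns v P ^ (X.N0 - 1) := by
    intro p
    have h1 : G p ^ X.N0 ∈ (VN X.P0 X.N0) ^ (X.N0 - 1) := by
      rw [VN_pow X.P0 (a := X.N0) le_rfl, mul_comm]
      exact hpow _ _ _ (hG p)
    obtain ⟨C, hC, hC'⟩ := X.bd_pow _ _ h1
    refine ⟨C, hC, fun v P hP => ?_⟩
    have h2 := hC' v P hP
    rwa [val_pow (regular_of_mem_VN hP (hG p)), map_pow] at h2
  obtain ⟨C, hC, hC'⟩ := exists_MC_of_finite
    (fun (p : Fin (X.d X.N0) × Fin (X.d X.N0)) (C : X.Vf.Λ → ℝ) => ∀ v (P : Place K F), P ≠ X.P0 →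
      X.Vf.av v (val P (G p)) ^ X.N0 ≤ C v * X.ns v P ^ (X.N0 - 1))
    (fun p C D hCD h v P hP => (h v P hP).trans (mul_le_mul_of_nonneg_right (hCD v)
      (pow_nonneg (nrm_nonneg _ _) _))) hG2
  obtain ⟨C6, hC6, hC6'⟩ := exists_nrm_inv_bound X.Vf (eMod_ne (X.bb X.N0) X.ht le_rfl X.P0)
  refine ⟨fun v => C6 v ^ X.N0 * C v, (hC6.pow _).mul hC, fun v P hP => ?_⟩
  have hnP : 0 < X.ns v P := (X.adm_ns P).1 v
  have hn0 : 0 < X.ns v X.P0 := (X.adm_ns X.P0).1 v
  have hne : Nonempty (Fin (X.d X.N0)) := (X.M 0).nonempty_ι P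
  -- the distance
  obtain ⟨p, hp⟩ := exists_eq_ddv (X.Vf.av v) (e P) (e X.P0)
  have hval : val P (G p) = e P p.2 * e X.P0 p.1 - e P p.1 * e X.P0 p.2 := by
    rw [← X.evv_of_ne hP X.N0]
    have h2 : evv X.P0 X.t X.N0 P (G p) = evL X.ht X.N0 P
        (e X.P0 p.1 • X.bb X.N0 p.2 - e X.P0 p.2 • X.bb X.N0 p.1) := rfl
    rw [h2, map_sub, map_smul, map_smul]
    show e X.P0 p.1 * e P p.2 - e X.P0 p.2 * e P p.1 = _
    ring
  have hds : X.ds v P X.P0 * (X.ns v P * X.ns v X.P0) = X.Vf.av v (val P (G p)) := by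
    rw [hval, hp]
    exact div_mul_cancel₀ _ (mul_pos hnP hn0).ne'
  have h3 := hC' p v P hP
  rw [← hds] at h3
  have h4 : 1 ≤ (C6 v * X.ns v X.P0) ^ X.N0 := one_le_pow₀ (hC6' v)
  have h5 : 0 < X.ns v P ^ (X.N0 - 1) := pow_pos hnP _
  have h6 : X.ns v P ^ X.N0 = X.ns v P ^ (X.N0 - 1) * X.ns v P := by
    rw [← pow_succ]
    congr 1
  have hds0 : 0 ≤ X.ds v P X.P0 := ((X.adm_ds hP).1 v).le
  apply le_of_mul_le_mul_left _ h5
  calc X.ns v P ^ (X.N0 - 1) * (X.ds v P X.P0 ^ X.N0 * X.ns v P) =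
        X.ds v P X.P0 ^ X.N0 * X.ns v P ^ X.N0 * 1 := by rw [h6]; ring
    _ ≤ X.ds v P X.P0 ^ X.N0 * X.ns v P ^ X.N0 * (C6 v * X.ns v X.P0) ^ X.N0 :=
        mul_le_mul_of_nonneg_left h4 (mul_nonneg (pow_nonneg hds0 _) (pow_nonneg hnP.le _))
    _ = C6 v ^ X.N0 * (X.ds v P X.P0 * (X.ns v P * X.ns v X.P0)) ^ X.N0 := by
        rw [mul_pow, mul_pow, mul_pow]; ring
    _ ≤ C6 v ^ X.N0 * (C v * X.ns v P ^ (X.N0 - 1)) :=
        mul_le_mul_of_nonneg_left h3 (pow_nonneg (hC6.nonneg v) _)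
    _ = _ := by ring

/-- (N), global form -/
theorem exists_nh_dh : ∃ C : ℝ, ∀ P : Place K F, P ≠ X.P0 → X.nh P ≤ - X.N0 * X.dh P X.P0 + C := by
  obtain ⟨C, hC, hC'⟩ := X.exists_ns_ds
  refine ⟨hh C, fun P hP => ?_⟩
  have h1 := hh_le (((X.adm_ds hP).pow X.N0).mul (X.adm_ns P)) (Adm.ofMC hC) fun v => hC' v P hP
  rw [hh_mul ((X.adm_ds hP).pow X.N0) (X.adm_ns P), hh_pow] at h1
  unfold nh dh
  linarith

theorem exists_dh_le : ∃ C : ℝ, ∀ P Q : Place K F, P ≠ Q → X.dh P Q ≤ C := by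
  refine ⟨hh (fun v => kap (X.Vf.av v) 2), fun P Q h => ?_⟩
  exact hh_le (X.adm_ds h) (Adm.ofMC (X.Vf.kap_MC 2)) fun v => (X.M 0).dist_le _ P Q

end Ctx

end Fermat.Agent.MW
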