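import Fermat.Agent.MW.North

/-!
# Mordell-Weil: Northcott property for rational lists
-/

set_option autoImplicit false
set_option linter.unusedSectionVars false

noncomputable section

namespace Fermat.Agent.MW

open AlgebraicCurve Fermat.Agent.FF WithZero Matrix Fermat.Agent.H18.FixedClasses

variable {K F : Type*} [Field K] [Field F] [Algebra K F] [IsAlgClosed K] [FunField K F]
variable [CharZero K]

theorem finite_polys {k : Type*} [Field k] {S : Set k} (hS : S.Finite) (m : ℕ) :
    {p : Polynomial k | p.natDegree ≤ m ∧ ∀ n, p.coeff n ∈ S}.Finite := by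
  apply Set.Finite.of_finite_image (f := fun p : Polynomial k => fun n : Fin (m + 1) => p.coeff n)
  · refine (Set.Finite.pi (fun _ : Fin (m + 1) => hS)).subset ?_
    rintro _ ⟨p, hp, rfl⟩
    rw [Set.mem_univ_pi]
    exact fun n => hp.2 n
  · intro p hp q hq h
    ext n
    by_cases hn : n ≤ m
    · exact congrFun h ⟨n, by omega⟩
    · rw [Polynomial.coeff_eq_zero_of_natDegree_lt (by have := hp.1; omega),
        Polynomial.coeff_eq_zero_of_natDegree_lt (by have := hq.1; omega)]

theorem monic_listProd {k α : Type*} [Field k] (l : List α) (f : α → Polynomial k)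
    (h : ∀ a, (f a).Monic) : ((l.map f).prod).Monic := by
  induction l with
  | nil => exact Polynomial.monic_one
  | cons a l ih =>
    rw [List.map_cons, List.prod_cons]
    exact (h a).mul ih

theorem finite_lists_of_finite {α : Type*} {T : Set α} (hT : T.Finite) (m : ℕ) :
    {l : List α | l.length ≤ m ∧ ∀ x ∈ l, x ∈ T}.Finite := by
  have : Finite T := hT
  refine ((List.finite_length_le T m).image (List.map Subtype.val)).subset ?_
  rintro l ⟨h1, h2⟩
  refine ⟨l.attach.map fun x => ⟨x.1, h2 x.1 x.2⟩, ?_, ?_⟩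
  · show List.length _ ≤ m
    rw [List.length_map, List.length_attach]
    exact h1
  · rw [List.map_map]
    exact List.attach_map_subtype_val l

namespace Ctx

variable (X : Ctx K F)

theorem list_sum_le {α : Type*} (l : List α) (f g : α → ℝ) (h : ∀ a ∈ l, f a ≤ g a) :
    (l.map f).sum ≤ (l.map g).sum := List.sum_le_sum h

/-- polynomial of a list -/
def pol (i : Fin (X.d X.N0)) (y : List (Place K F)) : Polynomial K :=
  (y.map fun P => Polynomial.X - Polynomial.C (eMod X.P0 X.t X.N0 (X.bb X.N0) P i)).prod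

theorem pol_fixed (i : Fin (X.d X.N0)) {y : List (Place K F)} (hy : IsFix X.Γ (dvl y)) (n : ℕ) :
    (X.pol i y).coeff n ∈ fixK X.Γ := by
  intro g hg
  have h1 : (X.pol i y).map (SemilinearAut.baseAut g : K →+* K) = X.pol i y := by
    unfold pol
    rw [Polynomial.map_list_prod, List.map_map]
    have h2 : (y.map fun P => g • P).Perm y := dvl_perm (by rw [dvl_map_smul, hy g hg])
    have h3 := (h2.map fun P => Polynomial.X -
      Polynomial.C (eMod X.P0 X.t X.N0 (X.bb X.N0) P i)).prod_eq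
    rw [← h3, List.map_map]
    congr 1
    apply List.map_congr_left
    intro P _
    simp only [Function.comp]
    rw [smul_eMod X.ht X.hP0 X.htf hg (X.bb X.N0) (X.bb_fix X.N0)]
    simp
  have h2 := congrArg (fun p : Polynomial K => p.coeff n) h1
  simp only [Polynomial.coeff_map] at h2
  exact h2

theorem adm_max (x : K) : Adm (fun v => max 1 (X.Vf.av v x)) := by
  refine ⟨fun v => lt_of_lt_of_le one_pos (le_max_left _ _), ?_⟩
  by_cases hx : x = 0
  · refine Filter.Eventually.of_forall fun v => ?_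
    show max 1 (X.Vf.av v x) = 1
    rw [hx, (X.Vf.av v).map_zero]; simp
  · filter_upwards [X.Vf.fin x hx] with v hv
    rw [hv, max_self]

theorem exists_max_le : ∃ C : ℝ, ∀ (P : Place K F), P ≠ X.P0 → ∀ i,
    hh (fun v => max 1 (X.Vf.av v (eMod X.P0 X.t X.N0 (X.bb X.N0) P i))) ≤ C + X.nh P := by
  classical
  obtain ⟨C2, hC2, hC2'⟩ := X.Vf.exists_bound ((X.bb X.N0).repr ⟨1, one_mem_VN X.P0 X.N0⟩ :
    Fin (X.d X.N0) → K)
  refine ⟨hh (fun v => kap (X.Vf.av v) (Fintype.card (Fin (X.d X.N0))) * C2 v), fun P hP i => ?_⟩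
  refine hh_le_mul (X.adm_max _) (X.adm_ns P) ((X.Vf.kap_MC _).mul hC2) fun v => ?_
  have hns : 0 ≤ X.ns v P := nrm_nonneg _ _
  have h1 := evv_eq_sum X.ht (X.bb X.N0) P ⟨1, one_mem_VN X.P0 X.N0⟩
  rw [X.evv_of_ne hP] at h1
  simp only [val_one] at h1
  have h2 : 1 ≤ kap (X.Vf.av v) (Fintype.card (Fin (X.d X.N0))) * (C2 v * X.ns v P) := by
    have h3 : X.Vf.av v (1 : K) ≤ kap (X.Vf.av v) (Fintype.card (Fin (X.d X.N0))) *
        (C2 v * X.ns v P) := by
      rw [h1]
      refine abv_sum_univ_le _ _ (mul_nonneg (hC2.nonneg v) hns) fun i => ?_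
      rw [(X.Vf.av v).map_mul]
      exact mul_le_mul (hC2' i v) (le_nrm (X.Vf.av v)
          (eMod X.P0 X.t X.N0 (X.bb X.N0) P) i) ((X.Vf.av v).nonneg _) (hC2.nonneg v)
    rwa [map_one] at h3
  refine max_le (by rw [mul_assoc]; exact h2) ?_
  have h4 : X.Vf.av v (eMod X.P0 X.t X.N0 (X.bb X.N0) P i) ≤ X.ns v P := le_nrm _ _ _
  refine h4.trans ?_
  rw [mul_assoc]
  exact le_mul_of_one_le_left hns (by
    have := ((X.Vf.kap_MC (Fintype.card (Fin (X.d X.N0)))).mul hC2).1 v
    exact this) |>.trans (le_of_eq (by ring))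

/-- Northcott for rational lists -/
theorem finite_lists (m : ℕ) (B : ℝ) : {y : List (Place K F) | y.length ≤ m ∧ X.P0 ∉ y ∧
    IsFix X.Γ (dvl y) ∧ - X.sm y ≤ B}.Finite := by
  classical
  obtain ⟨C1, hC1⟩ := X.exists_nh_dh
  obtain ⟨C2, hC2⟩ := X.exists_max_le
  set kk := hh (fun v => kap (X.Vf.av v) 2) with hkk
  have hkk0 : 0 ≤ kk := hh_nonneg_of_MC (X.Vf.kap_MC 2)
  set B' : ℝ := m * kk + m * |C2| + (X.N0 * B + m * |C1|) with hB'
  obtain hS := X.gav.north B'
  set S := {x ∈ fixK X.Γ | hh (fun v => max 1 (X.Vf.av v x)) ≤ B'} with hSdef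
  have hpolys := finite_polys hS m
  set Rts : Set K := ⋃ p ∈ {p : Polynomial K | p.natDegree ≤ m ∧ ∀ n, p.coeff n ∈ S} \ {0},
    {c : K | p.IsRoot c} with hRts
  have hRtsf : Rts.Finite := by
    apply (hpolys.subset Set.sdiff_subset).biUnion
    intro p hp
    exact Polynomial.finite_setOfPred_isRoot (fun h => hp.2 h)
  set T : Set (Place K F) := {P | ∀ i, eMod X.P0 X.t X.N0 (X.bb X.N0) P i ∈ Rts} with hT
  have hTf : T.Finite := by
    apply Set.Finite.of_finite_image (f := fun P => eMod X.P0 X.t X.N0 (X.bb X.N0) P)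
    · refine (Set.Finite.pi (fun _ : Fin (X.d X.N0) => hRtsf)).subset ?_
      rintro _ ⟨P, hP, rfl⟩
      rw [Set.mem_univ_pi]
      exact hP
    · intro P _ Q _ h
      apply (X.M 0).sep P Q
      intro i j
      have h1 : (X.M 0).e P = (X.M 0).e Q := h
      rw [h1]
      ring
  refine (finite_lists_of_finite hTf m).subset ?_
  rintro y ⟨hy1, hy2, hy3, hy4⟩
  refine ⟨hy1, fun P hP i => ?_⟩
  have hroot : (X.pol i y).IsRoot (eMod X.P0 X.t X.N0 (X.bb X.N0) P i) := by
    show Polynomial.eval _ (X.pol i y) = 0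
    unfold pol
    rw [Polynomial.eval_list_prod, List.prod_eq_zero_iff, List.mem_map]
    refine ⟨Polynomial.X - Polynomial.C (eMod X.P0 X.t X.N0 (X.bb X.N0) P i), ?_, by simp⟩
    exact List.mem_map.mpr ⟨P, hP, rfl⟩
  have hmonic : (X.pol i y).Monic := by
    unfold pol
    apply monic_listProd
    intro P
    exact Polynomial.monic_X_sub_C _
  have hdeg : (X.pol i y).natDegree ≤ m := by
    refine le_trans ?_ hy1
    unfold pol
    refine (Polynomial.natDegree_list_prod_le _).trans ?_
    rw [List.map_map]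
    have : (y.map (Polynomial.natDegree ∘ fun P => Polynomial.X -
        Polynomial.C (eMod X.P0 X.t X.N0 (X.bb X.N0) P i))) = y.map fun _ => 1 := by
      apply List.map_congr_left
      intro P _
      exact Polynomial.natDegree_X_sub_C _
    rw [this]
    simp
  have hcoef : ∀ n, (X.pol i y).coeff n ∈ S := by
    intro n
    refine ⟨X.pol_fixed i hy3 n, ?_⟩
    -- height bound
    have hadm : ∀ P ∈ y, Adm (fun v => max 1 (X.Vf.av v (eMod X.P0 X.t X.N0 (X.bb X.N0) P i))) :=
      fun P _ => X.adm_max _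
    have h1 := hh_le_mul (x := fun v => max 1 (X.Vf.av v ((X.pol i y).coeff n)))
      (y := fun v => (y.map fun P => max 1 (X.Vf.av v
        (eMod X.P0 X.t X.N0 (X.bb X.N0) P i))).prod)
      (C := fun v => kap (X.Vf.av v) 2 ^ y.length) (X.adm_max _)
      (Adm.listProd y (fun P v => max 1 (X.Vf.av v (eMod X.P0 X.t X.N0 (X.bb X.N0) P i))) hadm)
      ((X.Vf.kap_MC 2).pow _) (fun v => by
        refine max_le ?_ (coeff_prod_le (X.Vf.av v) y _ n)
        have h2 : (1 : ℝ) ≤ kap (X.Vf.av v) 2 ^ y.length := one_le_pow₀ (one_le_kap _ _)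
        have h3 : (1 : ℝ) ≤ (y.map fun P => max 1 (X.Vf.av v
            (eMod X.P0 X.t X.N0 (X.bb X.N0) P i))).prod := by
          apply List.one_le_prod
          intro x hx
          obtain ⟨P, -, rfl⟩ := List.mem_map.mp hx
          exact le_max_left _ _
        calc (1 : ℝ) = 1 * 1 := (one_mul 1).symm
          _ ≤ _ := mul_le_mul h2 h3 zero_le_one (le_trans zero_le_one h2))
    rw [hh_pow, hh_listProd y _ hadm] at h1
    have h2 : (y.map fun P => hh (fun v => max 1 (X.Vf.av v
        (eMod X.P0 X.t X.N0 (X.bb X.N0) P i)))).sum ≤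
        (y.map fun P => |C2| + (|C1| + (- X.N0 * X.dh P X.P0))).sum := by
      apply list_sum_le
      intro P hP
      have hne : P ≠ X.P0 := fun h => hy2 (h ▸ hP)
      have e1 := hC2 P hne i
      have e2 := hC1 P hne
      have e3 := le_abs_self C1
      have e4 := le_abs_self C2
      linarith
    have h3 : (y.map fun P => |C2| + (|C1| + (- X.N0 * X.dh P X.P0))).sum =
        y.length * |C2| + (y.length * |C1| + (- X.N0 * X.sm y)) := by
      rw [List.sum_map_add, List.sum_map_add, List.sum_map_mul_left]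
      simp [sm]
    rw [h3] at h2
    have hyl : (y.length : ℝ) ≤ m := by exact_mod_cast hy1
    have e1 := mul_le_mul_of_nonneg_right hyl hkk0
    have e2 := mul_le_mul_of_nonneg_right hyl (abs_nonneg C2)
    have e3 := mul_le_mul_of_nonneg_right hyl (abs_nonneg C1)
    have e4 := mul_le_mul_of_nonneg_left hy4 (Nat.cast_nonneg (α := ℝ) X.N0)
    rw [hB']
    linarith
  rw [hRts]
  simp only [Set.mem_iUnion]
  exact ⟨X.pol i y, ⟨⟨hdeg, hcoef⟩, hmonic.ne_zero⟩, hroot⟩

end Ctx

end Fermat.Agent.MW
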