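import Fermat.Agent.MW.North2

/-!
# Mordell-Weil: Northcott property for classes
-/

set_option autoImplicit false
set_option linter.unusedSectionVars false

noncomputable section

namespace Fermat.Agent.MW

open AlgebraicCurve Fermat.Agent.FF WithZero Matrix Fermat.Agent.H18.FixedClasses

variable {K F : Type*} [Field K] [Field F] [Algebra K F] [IsAlgClosed K] [FunField K F]
variable [CharZero K]

namespace Ctx

variable (X : Ctx K F)

theorem exists_level_change (m n : ℕ) (h : m ≤ n) : ∃ C : ℝ, ∀ (f : F) (hf : f ∈ VN X.P0 m), f ≠ 0 →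
    hh (fun v => nrm (X.Vf.av v) ((X.bb m).equivFun ⟨f, hf⟩)) ≤
      hh (fun v => nrm (X.Vf.av v) ((X.bb n).equivFun ⟨f, VN_mono X.P0 h hf⟩)) + C := by
  have hmn : m + (n - m) = n := by omega
  obtain ⟨C, hC, hC'⟩ := exists_nrm_mul (X.bb m) (X.bb (n - m)) (X.bb n) X.Vf hmn
  set o : VN X.P0 (n - m) := ⟨1, one_mem_VN _ _⟩ with ho
  have ho0 : (X.bb (n - m)).equivFun o ≠ 0 := by
    intro h0
    have := (X.bb (n - m)).equivFun.injective (h0.trans (map_zero _).symm)
    exact one_ne_zero (congrArg Subtype.val this)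
  refine ⟨hh C - hh (fun v => nrm (X.Vf.av v) ((X.bb (n - m)).equivFun o)), fun f hf hf0 => ?_⟩
  have h1 : mulL hmn ⟨f, hf⟩ o = ⟨f, VN_mono X.P0 h hf⟩ := Subtype.ext (mul_one f)
  have hf0' : (⟨f, hf⟩ : VN X.P0 m) ≠ 0 := fun h => hf0 (congrArg Subtype.val h)
  have hf0'' : (⟨f, VN_mono X.P0 h hf⟩ : VN X.P0 n) ≠ 0 := fun h => hf0 (congrArg Subtype.val h)
  have a1 : Adm (fun v => nrm (X.Vf.av v) ((X.bb m).equivFun ⟨f, hf⟩)) := adm_nrm X.Vf fun h0 =>
    hf0' ((X.bb m).equivFun.injective (h0.trans (map_zero _).symm))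
  have a2 : Adm (fun v => nrm (X.Vf.av v) ((X.bb n).equivFun ⟨f, VN_mono X.P0 h hf⟩)) :=
    adm_nrm X.Vf fun h0 => hf0'' ((X.bb n).equivFun.injective (h0.trans (map_zero _).symm))
  have a3 := adm_nrm X.Vf ho0
  have h2 := hh_le_mul (a1.mul a3) a2 hC fun v => by
    have := (hC' v ⟨f, hf⟩ hf0' o).2
    rwa [h1] at this
  rw [hh_mul a1 a3] at h2
  linarith

theorem exists_small : ∃ (N δ : ℕ) (C : ℝ), 0 < δ ∧ ∀ (x : Pic0 K F) (l : List (Place K F)),
    X.Rep x X.k1 l → ∃ y : List (Place K F), y.length ≤ N ∧ X.P0 ∉ y ∧ IsFix X.Γ (dvl y) ∧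
      δ * (- X.sm y) ≤ X.GG X.L1 l + C ∧
      ∃ h : dvl y - Finsupp.single X.P0 (y.length : ℤ) ∈ Divisor.degZero (K := K) (F := F),
        x = - Pic0.mk ⟨_, h⟩ := by
  classical
  set k := X.k1 with hk
  set L := X.L1 with hL
  have hLk : L = 3 * k + 2 := rfl
  have hkk : 2 * genusFF K F + 1 = k := rfl
  set N := L * X.N0 with hN
  have hN0 : X.N0 = 4 * genusFF K F + 2 := rfl
  have hNge : k + 2 * genusFF K F ≤ N := by
    have h1 : (k + 2) * X.N0 ≤ L * X.N0 := Nat.mul_le_mul_right _ (by omega)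
    have h2 : (k + 2) * X.N0 = k * X.N0 + 2 * X.N0 := by ring
    have h3 : k ≤ k * X.N0 := Nat.le_mul_of_pos_right _ (by omega)
    omega
  have hdN := X.d_eq (n := N) (by omega)
  obtain ⟨δ, hδ⟩ : ∃ δ, δ + k = X.d N := ⟨X.d N - k, by omega⟩
  have hδ0 : 0 < δ := by
    have h1 : (k + 2) * X.N0 ≤ L * X.N0 := Nat.mul_le_mul_right _ (by omega)
    have h2 : (k + 2) * X.N0 = k * X.N0 + 2 * X.N0 := by ring
    have h3 : k ≤ k * X.N0 := Nat.le_mul_of_pos_right _ (by omega)
    omega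
  obtain ⟨C1, hC1⟩ := X.exists_GG_rho (L := L) (k := k) (by omega)
  obtain ⟨C2, hC2⟩ := X.gav.siegel δ (X.d N) hδ0
  choose C3 hC3 using X.exists_hh_lead
  have hlc : ∀ m, ∃ C : ℝ, ∀ hm : m ≤ N, ∀ (f : F) (hf : f ∈ VN X.P0 m), f ≠ 0 →
    hh (fun v => nrm (X.Vf.av v) ((X.bb m).equivFun ⟨f, hf⟩)) ≤
      hh (fun v => nrm (X.Vf.av v) ((X.bb N).equivFun ⟨f, VN_mono X.P0 hm hf⟩)) + C := by
    intro m
    by_cases hm : m ≤ N
    · obtain ⟨C, hC⟩ := X.exists_level_change m N hm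
      exact ⟨C, fun _ => hC⟩
    · exact ⟨0, fun h => absurd h hm⟩
  choose C4 hC4 using hlc
  set T3 := ∑ m ∈ Finset.range (N + 1), |C3 m| with hT3
  set T4 := ∑ m ∈ Finset.range (N + 1), |C4 m| with hT4
  have hT3' : ∀ m, m ≤ N → C3 m ≤ T3 := fun m hm => (le_abs_self _).trans
    (Finset.single_le_sum (f := fun m => |C3 m|) (fun i _ => abs_nonneg _)
      (Finset.mem_range.mpr (by omega)))
  have hT4' : ∀ m, m ≤ N → C4 m ≤ T4 := fun m hm => (le_abs_self _).trans
    (Finset.single_le_sum (f := fun m => |C4 m|) (fun i _ => abs_nonneg _)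
      (Finset.mem_range.mpr (by omega)))
  refine ⟨N, δ, C1 + C2 + δ * (T3 + T4), hδ0, fun x l hl => ?_⟩
  have hlk := hl.len
  have hell : ell (Finsupp.single X.P0 (N : ℤ) - dvl l : Divisor K F) = δ := by
    have h1 := X.ell_sub_dvl (l := l) (n := N) (by omega)
    omega
  obtain ⟨w, hw1, hw2, hw3⟩ := X.exists_rat_basis hl.fix hell
  have hdu := X.hh_dual (l := l) (by omega) hl.nodup hl.fix (hC1 l hl.nodup hlk).1
    (show δ + l.length = X.d N by omega) w hw1 hw2 hw3
  have hMli : LinearIndependent K (matF (X.bb N) w).row := by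
    have : (matF (X.bb N) w).row = (X.bb N).equivFun.toLinearMap ∘ w := rfl
    rw [this]
    exact hw3.map' _ (by rw [LinearMap.ker_eq_bot]; exact (X.bb N).equivFun.injective)
  obtain ⟨c, hc1, hc0, hc2⟩ := hC2 (matF (X.bb N) w)
    (fun i j => coord_fixed (X.bb N) (X.bb_fix _) (hw1 i) j) hMli
  set W : VN X.P0 N := ∑ i, c i • w i with hW
  have hWc : (X.bb N).equivFun W = vecMul c (matF (X.bb N) w) := by
    rw [hW, map_sum]
    funext j
    rw [Finset.sum_apply]
    simp only [map_smul, Pi.smul_apply, smul_eq_mul, vecMul, dotProduct]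
    rfl
  have hW0 : W ≠ 0 := by
    intro h
    apply hc0
    funext i
    exact Fintype.linearIndependent_iff.mp hw3 c h i
  have hWF0 : (W : F) ≠ 0 := fun h => hW0 (Subtype.ext h)
  have hWfix : IsFix X.Γ (W : F) := by
    intro g hg
    rw [hW, Submodule.coe_sum, Finset.smul_sum]
    refine Finset.sum_congr rfl fun i _ => ?_
    rw [Submodule.coe_smul, smul_smul', hw1 i g hg, hc1 i g hg]
  have hWl : (W : F) ∈ LL (Finsupp.single X.P0 (N : ℤ) - dvl l) := by
    rw [hW, Submodule.coe_sum]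
    exact Submodule.sum_mem _ fun i _ => Submodule.smul_mem _ _ (hw2 i)
  -- exact order
  have hcnt : (dvl l : Divisor K F) X.P0 = 0 := by
    rw [dvl_apply, List.count_eq_zero_of_not_mem hl.P0]; rfl
  have hD := (mem_LL_iff_div hWF0).mp hWl
  set j : ℤ := - X.P0.ord (W : F) with hj
  have hD2 : (0 : Divisor K F) ≤ div (W : F) + Finsupp.single X.P0 j - dvl l := by
    intro P
    have h1 := hD P
    rw [Finsupp.zero_apply, Finsupp.add_apply, Finsupp.sub_apply] at h1
    rw [Finsupp.zero_apply, Finsupp.sub_apply, Finsupp.add_apply]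
    by_cases hP : P = X.P0
    · rw [hP, Finsupp.single_eq_same, hcnt, div_apply, hj]
      omega
    · rw [Finsupp.single_eq_of_ne hP] at h1 ⊢
      omega
  have hj0 : (k : ℤ) ≤ j := by
    have h1 := degree_nonneg hD2
    rw [map_sub, map_add, degree_div, degree_single_one, degree_dvl, hlk] at h1
    omega
  have hjN : j ≤ N := by
    have h1 := hD X.P0
    rw [Finsupp.zero_apply, Finsupp.add_apply, Finsupp.sub_apply, div_apply,
      Finsupp.single_eq_same, hcnt] at h1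
    omega
  obtain ⟨m, hm⟩ : ∃ m : ℕ, (m : ℤ) = j := ⟨j.toNat, Int.toNat_of_nonneg (by omega)⟩
  have hmN : m ≤ N := by omega
  have hWm : (W : F) ∈ LL (Finsupp.single X.P0 (m : ℤ) - dvl l) := by
    rw [mem_LL_iff_div hWF0, hm]
    convert hD2 using 1
    abel
  have hWVm : (W : F) ∈ VN X.P0 m := by
    refine (L_mono ?_ : LL (Finsupp.single X.P0 (m : ℤ) - dvl l) ≤ VN X.P0 m) hWm
    intro v
    rw [Finsupp.sub_apply]
    have := dvl_nonneg l v
    rw [Finsupp.zero_apply] at this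
    linarith
  have hWe : X.P0.adicValuation (W : F) = exp (m : ℤ) := by
    rw [val_eq_exp_iff]
    exact ⟨hWF0, by omega⟩
  obtain ⟨y, hy1, hy2⟩ := X.div_zeros hWF0 hWm
  have hlead := hC3 m ⟨(W : F), hWVm⟩ (l ++ y) hWfix hy2 hWe hy1
  have hchg := hC4 m hmN (W : F) hWVm hWF0
  have hylen : y.length + k = m := by
    rw [List.length_append] at hy2
    omega
  have hdy : dvl y = div (W : F) + Finsupp.single X.P0 (m : ℤ) - dvl l := by
    rw [← hy1, dvl_append]; abel
  have hP0y : X.P0 ∉ y := fun h => X.P0_notMem hy1 hWe (List.mem_append_right _ h)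
  have hyl' : (y.length : ℤ) = m - k := by omega
  refine ⟨y, by omega, hP0y, ?_, ?_, ?_, ?_⟩
  · rw [hdy]
    exact (hWfix.div.add (isFix_single X.hP0 _)).sub hl.fix
  · -- estimate
    have hG := (hC1 l hl.nodup hlk).2
    rw [hdu] at hG
    have hWN : (⟨(W : F), VN_mono X.P0 hmN hWVm⟩ : VN X.P0 N) = W := rfl
    rw [hWN, hWc] at hchg
    rw [List.map_append, List.sum_append] at hlead
    have e1 := (abs_le.mp hlead).1
    have e2 := (abs_le.mp hG).2
    have e3 := hT3' m hmN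
    have e4 := hT4' m hmN
    have hδR : ((X.d (L * X.N0) : ℝ) - l.length) = δ := by
      rw [← hN, ← hδ, hlk]; push_cast; ring
    unfold GG sm
    rw [hδR]
    have hδ' : (0 : ℝ) ≤ δ := Nat.cast_nonneg δ
    have f1 := mul_le_mul_of_nonneg_left hchg hδ'
    have f2 := mul_le_mul_of_nonneg_left e1 hδ'
    have f3 := mul_le_mul_of_nonneg_left e3 hδ'
    have f4 := mul_le_mul_of_nonneg_left e4 hδ'
    ring_nf at f1 f2 f3 f4 e2 hc2 ⊢
    linarith
  · rw [Divisor.mem_degZero, map_sub, degree_dvl, degree_single_one, sub_self]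
  · obtain ⟨-, h1, h2⟩ := hl.cls
    rw [h2, ← add_eq_zero_iff_eq_neg, ← Pic0.mk_add, ← Pic0.mk_zero]
    refine mk_eq_mk_iff.mpr ?_
    show (dvl l - Finsupp.single X.P0 (k : ℤ)) + (dvl y - Finsupp.single X.P0 (y.length : ℤ)) - 0 ∈ _
    have : (dvl l - Finsupp.single X.P0 (k : ℤ)) + (dvl y - Finsupp.single X.P0 (y.length : ℤ)) - 0 =
        div (W : F) := by
      rw [hdy, hyl', Finsupp.single_sub]
      abel
    rw [this]
    exact div_mem_principal hWF0

/-- Northcott for classes -/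
theorem finite_classes (B : ℝ) : {x : Pic0 K F | ∃ l, X.Rep x X.k1 l ∧ X.GG X.L1 l ≤ B}.Finite := by
  classical
  obtain ⟨N, δ, C, hδ, h⟩ := X.exists_small
  have hfin := X.finite_lists N ((B + C) / δ)
  refine ((hfin.image fun y : List (Place K F) => - Pic0.mk (⟨dvl y -
    Finsupp.single X.P0 (y.length : ℤ), by
      rw [Divisor.mem_degZero, map_sub, degree_dvl, degree_single_one, sub_self]⟩ :
        Divisor.degZero (K := K) (F := F)))).subset ?_
  rintro x ⟨l, hl, hB⟩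
  obtain ⟨y, h1, h2, h3, h4, h5, h6⟩ := h x l hl
  refine ⟨y, ⟨h1, h2, h3, ?_⟩, h6.symm⟩
  have hδ' : (0 : ℝ) < δ := by exact_mod_cast hδ
  rw [le_div_iff₀ hδ']
  linarith

theorem exists_GG_ge : ∃ C : ℝ, ∀ (x : Pic0 K F) (l : List (Place K F)), X.Rep x X.k1 l →
    C ≤ X.GG X.L1 l := by
  obtain ⟨N, δ, C, hδ, h⟩ := X.exists_small
  obtain ⟨C0, hC0⟩ := X.exists_dh_le
  refine ⟨-(δ * (N * |C0|)) - C, fun x l hl => ?_⟩
  obtain ⟨y, h1, h2, h3, h4, h5, h6⟩ := h x l hl
  have h7 : X.sm y ≤ y.length * |C0| := by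
    unfold sm
    have : (y.map fun P => X.dh P X.P0).sum ≤ (y.map fun _ => |C0|).sum := by
      apply list_sum_le
      intro P hP
      exact (hC0 P X.P0 (fun h => h2 (h ▸ hP))).trans (le_abs_self _)
    simpa using this
  have h8 : (y.length : ℝ) * |C0| ≤ N * |C0| :=
    mul_le_mul_of_nonneg_right (by exact_mod_cast h1) (abs_nonneg _)
  have h9 := mul_le_mul_of_nonneg_left (h7.trans h8) (Nat.cast_nonneg (α := ℝ) δ)
  linarith

end Ctx

end Fermat.Agent.MW
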