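import Fermat.Agent.MW.Lead
import Fermat.Agent.FF.L4

/-!
# Mordell-Weil: rational structures
-/

set_option autoImplicit false
set_option linter.unusedSectionVars false

noncomputable section

namespace Fermat.Agent.MW

open AlgebraicCurve Fermat.Agent.FF WithZero Matrix

variable {K F : Type*} [Field K] [Field F] [Algebra K F]

/-- coefficient functionals compatible with a group of semilinear automorphisms -/
structure RatData (Γ : Subgroup (SemilinearAut K F)) where
  cf : ℤ → F →ₗ[K] K
  cf_smul : ∀ g ∈ Γ, ∀ n f, cf n (g • f) = SemilinearAut.baseAut g (cf n f)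
  cf_sep : ∀ f, (∀ n, cf n f = 0) → f = 0

/-- fixed field -/
def fixK (Γ : Subgroup (SemilinearAut K F)) : Subfield K where
  carrier := {a | ∀ g ∈ Γ, SemilinearAut.baseAut g a = a}
  mul_mem' ha hb g hg := by rw [map_mul, ha g hg, hb g hg]
  one_mem' g _ := map_one _
  add_mem' ha hb g hg := by rw [map_add, ha g hg, hb g hg]
  zero_mem' g _ := map_zero _
  neg_mem' ha g hg := by rw [map_neg, ha g hg]
  inv_mem' a ha g hg := by rw [map_inv₀, ha g hg]

/-- fixed elements -/
def IsFix {X : Type*} [SMul (SemilinearAut K F) X] (Γ : Subgroup (SemilinearAut K F)) (x : X) :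
    Prop := ∀ g ∈ Γ, g • x = x

variable {Γ : Subgroup (SemilinearAut K F)}

theorem mem_fixK {a : K} : a ∈ fixK Γ ↔ ∀ g ∈ Γ, SemilinearAut.baseAut g a = a := Iff.rfl

theorem smul_smul' (g : SemilinearAut K F) (c : K) (f : F) :
    g • (c • f) = SemilinearAut.baseAut g c • (g • f) := by
  rw [Algebra.smul_def, Algebra.smul_def, smul_mul', SemilinearAut.smul_algebraMap]

theorem exists_cols {ι σ : Type*} [Fintype ι] [DecidableEq ι] (c : ι → σ → K)
    (hc : LinearIndependent K c) : ∃ T : ι → σ, (Matrix.of fun i j => c i (T j)).det ≠ 0 := by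
  classical
  -- the columns span
  let col : σ → (ι → K) := fun s i => c i s
  have hspan : Submodule.span K (Set.range col) = ⊤ := by
    by_contra hne
    obtain ⟨φ, hφ, hφ0⟩ := Submodule.exists_dual_map_eq_bot_of_lt_top (lt_top_iff_ne_top.mpr hne)
      inferInstance
    apply hφ
    have h1 : ∀ s, φ (col s) = 0 := by
      intro s
      have : φ (col s) ∈ (Submodule.span K (Set.range col)).map φ :=
        Submodule.mem_map_of_mem (Submodule.subset_span ⟨s, rfl⟩)
      rw [hφ0] at this
      exact this
    have h2 : ∑ i, φ (Pi.single i 1) • c i = 0 := by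
      funext s
      rw [Finset.sum_apply, Pi.zero_apply]
      have h3 : col s = ∑ i, c i s • (Pi.single i 1 : ι → K) := by
        funext j
        rw [Finset.sum_apply]
        simp [col, Pi.single_apply]
      have h4 := h1 s
      rw [h3, map_sum] at h4
      simp only [map_smul, smul_eq_mul] at h4
      rw [← h4]
      refine Finset.sum_congr rfl fun i _ => ?_
      rw [Pi.smul_apply, smul_eq_mul, mul_comm]
    have h3 := Fintype.linearIndependent_iff.mp hc _ h2
    apply LinearMap.pi_ext'
    intro i
    ext
    simpa using h3 i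
  obtain ⟨g, hg1, hg2, hg3⟩ := Submodule.exists_fun_fin_finrank_span_eq K (Set.range col)
  have hfr : Module.finrank K (Submodule.span K (Set.range col)) = Fintype.card ι := by
    rw [hspan, finrank_top, Module.finrank_fintype_fun_eq_card]
  choose T0 hT0 using hg1
  let e : ι ≃ Fin (Module.finrank K (Submodule.span K (Set.range col))) :=
    (Fintype.equivFin ι).trans (finCongr hfr.symm)
  refine ⟨fun j => T0 (e j), ?_⟩
  have h5 : LinearIndependent K (fun j : ι => col (T0 (e j))) := by
    have : (fun j : ι => col (T0 (e j))) = g ∘ e := by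
      funext j
      exact hT0 _
    rw [this]
    exact hg3.comp _ e.injective
  have h6 : LinearIndependent K (Matrix.of fun i j => c i (T0 (e j)))ᵀ.row := h5
  rw [← Matrix.det_transpose]
  have h7 := Matrix.linearIndependent_rows_iff_isUnit.mp h6
  exact ((Matrix.isUnit_iff_isUnit_det _).mp h7).ne_zero

/-- (R1) -/
theorem exists_fixed_basis (R : RatData Γ) (V : Submodule K F) [FiniteDimensional K V]
    (hV : ∀ g ∈ Γ, ∀ f ∈ V, g • f ∈ V) :
    ∃ w : Module.Basis (Fin (Module.finrank K V)) K V, ∀ i, IsFix Γ (w i : F) := by
  classical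
  let w0 := Module.finBasis K V
  have hli : LinearIndependent K (fun i n => R.cf n (w0 i : F)) := by
    rw [Fintype.linearIndependent_iff]
    intro a ha
    have h1 : (∑ i, a i • w0 i : V) = 0 := by
      apply Subtype.ext
      apply R.cf_sep
      intro n
      have := congrFun ha n
      rw [Finset.sum_apply] at this
      rw [Submodule.coe_sum, map_sum]
      simpa using this
    exact Fintype.linearIndependent_iff.mp w0.linearIndependent a h1
  obtain ⟨T, hT⟩ := exists_cols _ hli
  let Φ : V →ₗ[K] (Fin (Module.finrank K V) → K) :=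
    LinearMap.pi fun j => (R.cf (T j)).comp V.subtype
  have hΦinj : Function.Injective Φ := by
    rw [injective_iff_map_eq_zero]
    intro f hf
    have h1 : Matrix.vecMul (w0.repr f) (Matrix.of fun i j => R.cf (T j) (w0 i : F)) = 0 := by
      funext j
      have h2 := congrFun hf j
      have h3 := congrArg Subtype.val (w0.sum_repr f)
      have h4 : R.cf (T j) (f : F) = 0 := h2
      rw [← h3, Submodule.coe_sum, map_sum] at h4
      simp only [Submodule.coe_smul, map_smul, smul_eq_mul] at h4
      simpa [Matrix.vecMul, dotProduct] using h4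
    have h2 := Matrix.eq_zero_of_vecMul_eq_zero hT h1
    have h3 : w0.repr f = 0 := by
      ext i
      exact congrFun h2 i
    exact w0.repr.map_eq_zero_iff.mp h3
  have hfr : Module.finrank K V = Module.finrank K (Fin (Module.finrank K V) → K) := by simp
  let e := LinearEquiv.ofInjectiveOfFinrankEq Φ hΦinj hfr
  let w := Module.Basis.ofEquivFun e
  refine ⟨w, fun i g hg => ?_⟩
  have hmem := hV g hg (w i : F) (w i).2
  have h1 : (⟨g • (w i : F), hmem⟩ : V) = w i := by
    apply hΦinj
    funext j
    show R.cf (T j) (g • (w i : F)) = R.cf (T j) (w i : F)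
    rw [R.cf_smul g hg]
    have h2 : R.cf (T j) (w i : F) = (Pi.single i 1 : Fin (Module.finrank K V) → K) j := by
      have h3 : e (w i) = Pi.single i 1 := by
        show e (w i) = _
        rw [Module.Basis.coe_ofEquivFun]
        simp
      exact congrFun h3 j
    rw [h2]
    by_cases hij : j = i
    · subst hij; simp
    · simp [hij]
  exact congrArg Subtype.val h1

end Fermat.Agent.MW
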