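import Fermat.Agent.MW.GP

/-!
# Mordell-Weil: representatives of rational classes
-/

set_option autoImplicit false
set_option linter.unusedSectionVars false

noncomputable section

namespace Fermat.Agent.MW

open AlgebraicCurve Fermat.Agent.FF WithZero Matrix Fermat.Agent.H18.FixedClasses

variable {K F : Type*} [Field K] [Field F] [Algebra K F] [IsAlgClosed K] [FunField K F]
variable [CharZero K]

theorem div_mem_principal {f : F} (hf : f ≠ 0) :
    (div f : Divisor K F) ∈ Divisor.principal (K := K) (F := F) :=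
  ⟨f, hf, fun v => div_apply f v⟩

theorem exists_div_of_principal {D : Divisor K F}
    (hD : D ∈ Divisor.principal (K := K) (F := F)) : ∃ f : F, f ≠ 0 ∧ div f = D := by
  obtain ⟨f, hf, hD⟩ := hD
  exact ⟨f, hf, Finsupp.ext fun v => by rw [div_apply, hD v]⟩

namespace Ctx

variable (X : Ctx K F)

/-- representatives -/
structure Rep (x : Pic0 K F) (k : ℕ) (l : List (Place K F)) : Prop where
  nodup : l.Nodup
  len : l.length = k
  P0 : X.P0 ∉ l
  fix : IsFix X.Γ (dvl l)
  cls : EffAt X.P0 x k (dvl l)

theorem exists_effAt (x : Pic0 K F) : ∃ E, EffAt X.P0 x (genusFF K F) E := by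
  obtain ⟨D, rfl⟩ := QuotientAddGroup.mk_surjective x
  obtain ⟨f, hf, h⟩ := exists_effective (D := (D : Divisor K F) +
    Finsupp.single X.P0 (genusFF K F : ℤ)) (by
      rw [map_add, degree_single_one, (Divisor.mem_degZero).mp D.2, zero_add])
  refine ⟨(D : Divisor K F) + Finsupp.single X.P0 (genusFF K F : ℤ) + div f, h, ?_, ?_⟩
  · rw [Divisor.mem_degZero]
    simp only [map_sub, map_add, degree_div, (Divisor.mem_degZero).mp D.2]
    ring
  · refine mk_eq_mk_iff.mpr ?_
    have : (D : Divisor K F) - ((D : Divisor K F) + Finsupp.single X.P0 (genusFF K F : ℤ) + div f -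
        Finsupp.single X.P0 (genusFF K F : ℤ)) = - div f := by abel
    simp only
    rw [this]
    exact neg_mem (div_mem_principal hf)

theorem exists_rep {x : Pic0 K F} (hx : IsFix X.Γ x) {k : ℕ} (hk : 2 * genusFF K F + 1 ≤ k)
    (T : Set (Place K F)) (hT : T.Finite) : ∃ l, X.Rep x k l ∧ ∀ P ∈ l, P ∉ T := by
  obtain ⟨E0, hE0⟩ := X.exists_effAt x
  obtain ⟨d, E, hd, hE, huniq⟩ := exists_minimal (deg_eq_one X.P0) hE0
  have hEf : IsFix X.Γ E := fun g hg => huniq _ (hE.smul (X.hP0 g hg) (hx g hg))
  have hEdeg := hE.degree (deg_eq_one X.P0)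
  set D : Divisor K F := E - Finsupp.single X.P0 (d : ℤ) + Finsupp.single X.P0 (k : ℤ) with hD
  have hDf : IsFix X.Γ D := (hEf.sub (isFix_single X.hP0 _)).add (isFix_single X.hP0 _)
  have hDdeg : Divisor.degree D = k := by
    rw [hD, map_add, map_sub, degree_single_one, degree_single_one, hEdeg]
    ring
  obtain ⟨l, hl1, hl2, hl3, f, hf, hlf⟩ := X.exists_GP hDf (by rw [hDdeg]; exact_mod_cast hk)
    (T ∪ {X.P0}) (hT.union (Set.finite_singleton _))
  have hlen : l.length = k := by
    have h1 := congrArg Divisor.degree hlf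
    rw [degree_dvl, map_add, degree_div, hDdeg, add_zero] at h1
    exact_mod_cast h1
  refine ⟨l, ⟨hl1, hlen, fun h => hl2 _ h (Or.inr rfl), hl3, dvl_nonneg l, ?_, ?_⟩,
    fun P hP h => hl2 P hP (Or.inl h)⟩
  · rw [Divisor.mem_degZero, map_sub, degree_dvl, degree_single_one, hlen, sub_self]
  · obtain ⟨-, h1, h2⟩ := hE
    rw [h2]
    refine mk_eq_mk_iff.mpr ?_
    simp only
    have : E - Finsupp.single X.P0 (d : ℤ) - (dvl l - Finsupp.single X.P0 (k : ℤ)) = - div f := by
      rw [hlf, hD]; abel
    rw [this]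
    exact neg_mem (div_mem_principal hf)

theorem Rep.equiv {X : Ctx K F} {x : Pic0 K F} {k : ℕ} {l l' : List (Place K F)}
    (h : X.Rep x k l) (h' : X.Rep x k l') : ∃ f : F, f ≠ 0 ∧ div f = dvl l' - dvl l := by
  obtain ⟨-, h1, h2⟩ := h.cls
  obtain ⟨-, h1', h2'⟩ := h'.cls
  have h3 := mk_eq_mk_iff.mp (h2'.symm.trans h2)
  simp only at h3
  obtain ⟨f, hf, hf2⟩ := exists_div_of_principal h3
  exact ⟨f, hf, by rw [hf2]; abel⟩

theorem Rep.append {X : Ctx K F} {x y : Pic0 K F} {k k' : ℕ} {l l' : List (Place K F)}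
    (h : X.Rep x k l) (h' : X.Rep y k' l') (hd : l.Disjoint l') :
    X.Rep (x + y) (k + k') (l ++ l') := by
  refine ⟨List.nodup_append'.mpr ⟨h.nodup, h'.nodup, hd⟩, by
    rw [List.length_append, h.len, h'.len], ?_, ?_, dvl_nonneg _, ?_, ?_⟩
  · rw [List.mem_append]
    exact fun h2 => h2.elim h.P0 h'.P0
  · rw [dvl_append]; exact h.fix.add h'.fix
  · rw [Divisor.mem_degZero, map_sub, degree_dvl, degree_single_one, List.length_append, h.len,
      h'.len, sub_self]
  · obtain ⟨-, h1, h2⟩ := h.cls
    obtain ⟨-, h1', h2'⟩ := h'.cls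
    have h3 : x + y = Pic0.mk (⟨_, h1⟩ + ⟨_, h1'⟩) := by
      rw [h2, h2']; rfl
    rw [h3]
    congr 1
    apply Subtype.ext
    show dvl l - Finsupp.single X.P0 (k : ℤ) + (dvl l' - Finsupp.single X.P0 (k' : ℤ)) =
      dvl (l ++ l') - Finsupp.single X.P0 ((k + k' : ℕ) : ℤ)
    rw [dvl_append, Nat.cast_add, Finsupp.single_add]
    abel

/-- sum of distances to the base point -/
def sm (l : List (Place K F)) : ℝ := (l.map fun P => X.dh P X.P0).sum

theorem sm_append (l l' : List (Place K F)) : X.sm (l ++ l') = X.sm l + X.sm l' := by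
  simp [sm]

theorem cr_append_left (l1 l2 l' : List (Place K F)) :
    X.cr (l1 ++ l2) l' = X.cr l1 l' + X.cr l2 l' := by
  simp [cr]

theorem cr_cons_right (l : List (Place K F)) (Q : Place K F) (l' : List (Place K F)) :
    X.cr l (Q :: l') = (l.map fun P => X.dh P Q).sum + X.cr l l' := by
  induction l with
  | nil => simp [cr]
  | cons P l ih =>
    simp only [cr, List.map_cons, List.sum_cons] at ih ⊢
    rw [ih]
    ring

theorem cr_comm (l l' : List (Place K F)) : X.cr l l' = X.cr l' l := by
  induction l with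
  | nil =>
    induction l' with
    | nil => rfl
    | cons Q l' ih => simp [cr]
  | cons P l ih =>
    rw [cr_cons_right, ← ih]
    simp only [cr, List.map_cons, List.sum_cons]
    congr 1
    congr 1
    exact List.map_congr_left fun Q _ => X.dh_comm _ _

theorem ppH_append (l l' : List (Place K F)) :
    X.ppH (l ++ l') = X.ppH l + X.ppH l' + X.cr l l' := by
  induction l with
  | nil => simp [ppH, cr]
  | cons Q l ih =>
    simp only [List.cons_append, ppH, List.map_append, List.sum_append, ih, cr, List.map_cons,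
      List.sum_cons]
    have : (l'.map fun P => X.dh P Q).sum = (l'.map fun P => X.dh Q P).sum := by
      congr 1
      exact List.map_congr_left fun P _ => X.dh_comm _ _
    rw [this]
    ring

/-- the bilinear form -/
def BB (l l' : List (Place K F)) : ℝ := X.cr l l' - l'.length * X.sm l - l.length * X.sm l'

theorem BB_comm (l l' : List (Place K F)) : X.BB l l' = X.BB l' l := by
  unfold BB
  rw [X.cr_comm]
  ring

theorem BB_append_left (l1 l2 l' : List (Place K F)) :
    X.BB (l1 ++ l2) l' = X.BB l1 l' + X.BB l2 l' := by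
  unfold BB
  rw [cr_append_left, sm_append, List.length_append]
  push_cast
  ring

theorem GG_append (L : ℕ) (l l' : List (Place K F)) :
    X.GG L (l ++ l') = X.GG L l + X.GG L l' + X.BB l l' := by
  have h := X.sm_append l l'
  unfold sm at h
  unfold GG BB sm
  rw [ppH_append, h, List.map_append, List.sum_append, List.length_append]
  push_cast
  ring

end Ctx

end Fermat.Agent.MW
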