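import Fermat.Agent.MW.Descent
import Fermat.Agent.MW.AV3
import Fermat.Agent.M5.Main

/-!
# Mordell-Weil: the context attached to `X_0(N)`
-/

set_option autoImplicit false
set_option linter.unusedSectionVars false

noncomputable section

namespace Fermat.Agent.MW

open AlgebraicCurve ModularCurve Fermat.Agent.FF WithZero Matrix

section Mk

variable {K F : Type*} [Field K] [Field F] [Algebra K F] [IsAlgClosed K] [FunField K F]
variable [CharZero K]

/-- rational elements of exact order -/
theorem exists_fixed_exact' {Γ : Subgroup (SemilinearAut K F)} (R : RatData Γ) {P0 : Place K F}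
    (hP0 : IsFix Γ P0) {n : ℕ} (hn : 2 * genusFF K F + 1 ≤ n) :
    ∃ f : F, IsFix Γ f ∧ P0.adicValuation f = exp (n : ℤ) := by
  classical
  set D : Divisor K F := Finsupp.single P0 (n : ℤ) with hD
  have hdeg : 2 * (genusFF K F : ℤ) + 1 ≤ Divisor.degree D := by
    rw [hD, degree_single_one]; exact_mod_cast hn
  obtain ⟨f, hf, hf2, hf3⟩ := exists_fixed_notMem R (LL D) (LL (D - Finsupp.single P0 1))
    (fun g hg f hf => LL_stable (isFix_single hP0 _) hg hf) (by
      intro h
      apply LL_lt_of_degree hdeg P0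
      refine le_antisymm ?_ h
      apply L_mono
      intro v
      rw [Finsupp.sub_apply]
      have : (0 : ℤ) ≤ (Finsupp.single P0 1 : Place K F →₀ ℤ) v := by
        rw [Finsupp.single_apply]; split_ifs <;> norm_num
      linarith)
  refine ⟨f, hf3, ?_⟩
  rw [mem_LL_sub_single hf, not_lt] at hf2
  have h2 := le_antisymm (hf P0) hf2
  rwa [hD, Finsupp.single_eq_same] at h2

theorem exists_fixed_unif {Γ : Subgroup (SemilinearAut K F)} (R : RatData Γ) {P0 : Place K F}
    (hP0 : IsFix Γ P0) : ∃ t : F, IsFix Γ t ∧ P0.adicValuation t = exp (-1 : ℤ) := by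
  obtain ⟨f, hf1, hf2⟩ := exists_fixed_exact' R hP0 (n := 2 * genusFF K F + 1) le_rfl
  obtain ⟨g, hg1, hg2⟩ := exists_fixed_exact' R hP0 (n := 2 * genusFF K F + 2) (by omega)
  refine ⟨f / g, fun σ hσ => ?_, ?_⟩
  · rw [div_eq_mul_inv, smul_mul', smul_inv'', hf1 σ hσ, hg1 σ hσ]
  · rw [map_div₀, hf2, hg2, ← exp_sub]
    congr 1
    push_cast
    ring

/-- constructor for contexts -/
def Ctx.mk' (Vf : AVF K) (Γ : Subgroup (SemilinearAut K F)) (R : RatData Γ) (P0 : Place K F)
    (hP0 : IsFix Γ P0) (gav : GAV Vf (fixK Γ)) : Ctx K F where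
  Vf := Vf
  Γ := Γ
  R := R
  P0 := P0
  t := (exists_fixed_unif R hP0).choose
  ht := (exists_fixed_unif R hP0).choose_spec.2
  hP0 := hP0
  htf := (exists_fixed_unif R hP0).choose_spec.1
  gav := gav

end Mk

section X0

variable (N : ℕ) [NeZero N]

abbrev Qb : Type := AlgebraicClosure ℚ

/-- the Galois group acting on the function field -/
def GamX : Subgroup (SemilinearAut (AlgebraicClosure ℚ) (modularFunctionFieldBar N)) :=
  (arithmeticGalois (modularFunctionFieldFull N)).range

/-- coefficients -/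
def ratX : RatData (GamX N) where
  cf n :=
    { toFun := fun x => (x : LaurentSeries (AlgebraicClosure ℚ)).coeff n
      map_add' := fun x y => rfl
      map_smul' := fun c x => by
        show ((c • x : modularFunctionFieldBar N) : LaurentSeries (AlgebraicClosure ℚ)).coeff n =
          c * (x : LaurentSeries (AlgebraicClosure ℚ)).coeff n
        have h1 : ((c • x : modularFunctionFieldBar N) : LaurentSeries (AlgebraicClosure ℚ)) =
          algebraMap (AlgebraicClosure ℚ) (LaurentSeries (AlgebraicClosure ℚ)) c *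
            (x : LaurentSeries (AlgebraicClosure ℚ)) := by
          rw [Algebra.smul_def]
          rfl
        rw [h1, algebraMap_laurentSeries_eq_single,
          ← HahnSeries.C_apply, HahnSeries.C_mul_eq_smul, HahnSeries.coeff_smul]
        rfl }
  cf_smul := by
    rintro _ ⟨σ, rfl⟩ n f
    rfl
  cf_sep := by
    intro f hf
    apply Subtype.ext
    ext n
    exact hf n

theorem fixK_X {x : AlgebraicClosure ℚ} (hx : x ∈ fixK (GamX N)) :
    ∃ q : ℚ, algebraMap ℚ (AlgebraicClosure ℚ) q = x :=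
  H51.rational_of_fixed fun σ => hx _ ⟨σ, rfl⟩

theorem fix_c1 : IsFix (GamX N) (M5.c₁ N) := by
  rintro _ ⟨σ, rfl⟩
  exact M5.smul_c₁ σ

/-- the context of `X_0(N)` -/
def ctxX : Ctx (AlgebraicClosure ℚ) (modularFunctionFieldBar N) :=
  Ctx.mk' (VfK (AlgebraicClosure ℚ)) (GamX N) (ratX N) (M5.c₁ N) (fix_c1 N)
    (gavK (fixK (GamX N)) fun _ hx => fixK_X N hx)

theorem fixP_eq : fixP (GamX N) = FixedPoints.addSubgroup
    ((AlgebraicClosure ℚ) ≃ₐ[ℚ] (AlgebraicClosure ℚ)) (JZero N) := by
  ext x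
  constructor
  · intro h σ
    exact h _ ⟨σ, rfl⟩
  · rintro h _ ⟨σ, rfl⟩
    exact h σ

/-- Mordell-Weil from weak Mordell-Weil -/
theorem fg_of_weak (h : (nsmulAddMonoidHom (α := ↥(FixedPoints.addSubgroup
    ((AlgebraicClosure ℚ) ≃ₐ[ℚ] (AlgebraicClosure ℚ)) (JZero N))) 2).range.FiniteIndex) :
    AddGroup.FG ↥(FixedPoints.addSubgroup
      ((AlgebraicClosure ℚ) ≃ₐ[ℚ] (AlgebraicClosure ℚ)) (JZero N)) := by
  rw [← fixP_eq] at h ⊢
  exact (ctxX N).fg_of_weak h

end X0

end Fermat.Agent.MW
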